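import Mathlib

/-!
# S05, step (F): the kernel of reduction has no `p`-torsion

For an arbitrary valuation `v` on a field `K` and a Weierstrass curve `W` over `K` with
`v`-integral coefficients, a point `(x, y)` with `1 < v x` cannot have prime order `p ≥ 5` when
`v p = 1`.

The file also provides the classical identities for the `x`-coordinates of `P + Q`, `P - Q` and
`2 P` on an arbitrary Weierstrass curve over a field.
-/

set_option autoImplicit false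

namespace Fermat.Agent.S05

open WeierstrassCurve

namespace KerRed

section identities

variable {K : Type*} [Field K] [DecidableEq K] (W : WeierstrassCurve K)

/-- The `x`-coordinate of an affine point (`0` at the point at infinity). -/
def xc : W.toAffine.Point → K
  | .zero => 0
  | .some x _ _ => x

omit [DecidableEq K] in
@[simp] lemma xc_zero : xc W 0 = 0 := rfl

omit [DecidableEq K] in
@[simp] lemma xc_some {x y : K} (h : W.toAffine.Nonsingular x y) :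
    xc W (Affine.Point.some x y h) = x := rfl

omit [DecidableEq K] in
@[simp] lemma xc_neg (P : W.toAffine.Point) : xc W (-P) = xc W P := by
  rcases P with _ | ⟨x, y, h⟩
  · rfl
  · rfl

/-- Sum of the `x`-coordinates of `P + Q` and `P - Q`. -/
theorem xc_add_add_xc_sub {x₁ y₁ x₂ y₂ : K} (h₁ : W.toAffine.Nonsingular x₁ y₁)
    (h₂ : W.toAffine.Nonsingular x₂ y₂) (hx : x₁ ≠ x₂) :
    (x₁ - x₂) ^ 2 * (xc W (Affine.Point.some x₁ y₁ h₁ + Affine.Point.some x₂ y₂ h₂) +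
        xc W (Affine.Point.some x₁ y₁ h₁ - Affine.Point.some x₂ y₂ h₂)) =
      2 * x₁ * x₂ * (x₁ + x₂) + W.b₂ * x₁ * x₂ + W.b₄ * (x₁ + x₂) + W.b₆ := by
  have hd : x₁ - x₂ ≠ 0 := sub_ne_zero.mpr hx
  rw [sub_eq_add_neg (Affine.Point.some x₁ y₁ h₁), Affine.Point.neg_some,
    Affine.Point.add_of_X_ne hx, Affine.Point.add_of_X_ne hx]
  simp only [xc_some]
  rw [Affine.slope_of_X_ne hx, Affine.slope_of_X_ne hx]
  have e₁ := (Affine.equation_iff _ _).mp h₁.1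
  have e₂ := (Affine.equation_iff _ _).mp h₂.1
  simp only [Affine.addX, Affine.negY, WeierstrassCurve.b₂, WeierstrassCurve.b₄,
    WeierstrassCurve.b₆]
  field_simp
  linear_combination 2 * e₁ + 2 * e₂

/-- Product of the `x`-coordinates of `P + Q` and `P - Q`. -/
theorem xc_add_mul_xc_sub {x₁ y₁ x₂ y₂ : K} (h₁ : W.toAffine.Nonsingular x₁ y₁)
    (h₂ : W.toAffine.Nonsingular x₂ y₂) (hx : x₁ ≠ x₂) :
    (x₁ - x₂) ^ 2 * (xc W (Affine.Point.some x₁ y₁ h₁ + Affine.Point.some x₂ y₂ h₂) *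
        xc W (Affine.Point.some x₁ y₁ h₁ - Affine.Point.some x₂ y₂ h₂)) =
      x₁ ^ 2 * x₂ ^ 2 - W.b₄ * x₁ * x₂ - W.b₆ * (x₁ + x₂) - W.b₈ := by
  have hd : x₁ - x₂ ≠ 0 := sub_ne_zero.mpr hx
  rw [sub_eq_add_neg (Affine.Point.some x₁ y₁ h₁), Affine.Point.neg_some,
    Affine.Point.add_of_X_ne hx, Affine.Point.add_of_X_ne hx]
  simp only [xc_some]
  rw [Affine.slope_of_X_ne hx, Affine.slope_of_X_ne hx]
  have e₁ := (Affine.equation_iff _ _).mp h₁.1
  have e₂ := (Affine.equation_iff _ _).mp h₂.1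
  simp only [Affine.addX, Affine.negY, WeierstrassCurve.b₄, WeierstrassCurve.b₆,
    WeierstrassCurve.b₈]
  field_simp
  linear_combination
    ((W.a₁ ^ 2 + 4 * W.a₂) * x₂ * (x₁ - x₂) + 2 * (x₁ ^ 3 - x₂ ^ 3) +
        (2 * W.a₄ + W.a₁ * W.a₃) * (x₁ - x₂) - 2 * (x₁ + x₂) * (x₁ - x₂) ^ 2 +
        ((y₁ ^ 2 + W.a₁ * x₁ * y₁ + W.a₃ * y₁ -
            (x₁ ^ 3 + W.a₂ * x₁ ^ 2 + W.a₄ * x₁ + W.a₆)) -
          (y₂ ^ 2 + W.a₁ * x₂ * y₂ + W.a₃ * y₂ -
            (x₂ ^ 3 + W.a₂ * x₂ ^ 2 + W.a₄ * x₂ + W.a₆)))) * e₁ +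
    (-((W.a₁ ^ 2 + 4 * W.a₂) * x₁ * (x₁ - x₂) + 2 * (x₁ ^ 3 - x₂ ^ 3) +
        (2 * W.a₄ + W.a₁ * W.a₃) * (x₁ - x₂) + 2 * (x₁ + x₂) * (x₁ - x₂) ^ 2) -
        ((y₁ ^ 2 + W.a₁ * x₁ * y₁ + W.a₃ * y₁ -
            (x₁ ^ 3 + W.a₂ * x₁ ^ 2 + W.a₄ * x₁ + W.a₆)) -
          (y₂ ^ 2 + W.a₁ * x₂ * y₂ + W.a₃ * y₂ -
            (x₂ ^ 3 + W.a₂ * x₂ ^ 2 + W.a₄ * x₂ + W.a₆)))) * e₂

/-- Duplication formula for the `x`-coordinate. -/
theorem xc_double {x y : K} (h : W.toAffine.Nonsingular x y) (hy : y ≠ W.toAffine.negY x y) :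
    4 * x ^ 3 + W.b₂ * x ^ 2 + 2 * W.b₄ * x + W.b₆ ≠ 0 ∧
    (4 * x ^ 3 + W.b₂ * x ^ 2 + 2 * W.b₄ * x + W.b₆) *
        xc W (Affine.Point.some x y h + Affine.Point.some x y h) =
      x ^ 4 - W.b₄ * x ^ 2 - 2 * W.b₆ * x - W.b₈ := by
  have e := (Affine.equation_iff _ _).mp h.1
  have hη : y - W.toAffine.negY x y ≠ 0 := sub_ne_zero.mpr hy
  have hψ : 4 * x ^ 3 + W.b₂ * x ^ 2 + 2 * W.b₄ * x + W.b₆ = (y - W.toAffine.negY x y) ^ 2 := by
    simp only [Affine.negY, WeierstrassCurve.b₂, WeierstrassCurve.b₄, WeierstrassCurve.b₆]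
    linear_combination (-4 : K) * e
  refine ⟨by rw [hψ]; exact pow_ne_zero 2 hη, ?_⟩
  rw [hψ, Affine.Point.add_self_of_Y_ne hy, xc_some, Affine.slope_of_Y_ne rfl hy]
  simp only [Affine.addX]
  field_simp
  simp only [Affine.negY, WeierstrassCurve.b₄, WeierstrassCurve.b₆, WeierstrassCurve.b₈]
  linear_combination (-(W.a₁ ^ 2 + 4 * W.a₂ + 8 * x)) * e

end identities

section val

variable {K : Type*} [Field K] {Γ₀ : Type*} [LinearOrderedCommGroupWithZero Γ₀]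
  (v : Valuation K Γ₀)

lemma v_natCast_le_one (n : ℕ) : v (n : K) ≤ 1 := by
  induction n with
  | zero => simp
  | succ n ih =>
    rw [Nat.cast_succ]
    exact v.map_add_le ih (le_of_eq v.map_one)

lemma v_ofNat_le_one (n : ℕ) [n.AtLeastTwo] : v (OfNat.ofNat n : K) ≤ 1 := by
  have h := v_natCast_le_one v n
  rw [show ((n : ℕ) : K) = OfNat.ofNat n from Nat.cast_ofNat] at h
  exact h

lemma v_mul_le_one {a b : K} (ha : v a ≤ 1) (hb : v b ≤ 1) : v (a * b) ≤ 1 := by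
  rw [map_mul]
  exact mul_le_one' ha hb

lemma v_mul_le_of_le_one {a b : K} {g : Γ₀} (ha : v a ≤ 1) (hb : v b ≤ g) : v (a * b) ≤ g := by
  rw [map_mul]
  calc v a * v b ≤ 1 * g := mul_le_mul' ha hb
    _ = g := one_mul g

/-- If the sum and the product of two elements have valuation `< 1`, then so does each. -/
lemma lt_one_of_add_of_mul {r s : K} (hsum : v (r + s) < 1) (hprod : v (r * s) < 1) :
    v r < 1 := by
  by_contra h
  rw [not_lt] at h
  have hs : v s < 1 := by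
    by_contra hs
    rw [not_lt] at hs
    have : 1 ≤ v (r * s) := by
      rw [map_mul]
      exact one_le_mul_of_one_le_of_one_le h hs
    exact absurd hprod (not_lt.mpr this)
  have : v (r + s) = v r := v.map_add_eq_of_lt_left (lt_of_lt_of_le hs h)
  rw [this] at hsum
  exact absurd hsum (not_lt.mpr h)

lemma ne_zero_of_one_lt {x : K} (hx : 1 < v x) : x ≠ 0 := by
  rintro rfl
  rw [map_zero] at hx
  exact absurd hx (not_lt.mpr zero_le_one)

lemma v_inv_lt_one {x : K} (hx : 1 < v x) : v x⁻¹ < 1 := by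
  rw [map_inv₀]
  exact (inv_lt_one₀ (lt_trans zero_lt_one hx)).mpr hx

/-- `v`-integrality of the Weierstrass coefficients. -/
structure IntCoeffs (W : WeierstrassCurve K) : Prop where
  a₁ : v W.a₁ ≤ 1
  a₂ : v W.a₂ ≤ 1
  a₃ : v W.a₃ ≤ 1
  a₄ : v W.a₄ ≤ 1
  a₆ : v W.a₆ ≤ 1

variable {v} {W : WeierstrassCurve K}

lemma IntCoeffs.b₂ (hW : IntCoeffs v W) : v W.b₂ ≤ 1 := by
  rw [WeierstrassCurve.b₂]
  exact v.map_add_le (by rw [map_pow]; exact pow_le_one' hW.a₁ 2)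
    (v_mul_le_one v (v_ofNat_le_one v 4) hW.a₂)

lemma IntCoeffs.b₄ (hW : IntCoeffs v W) : v W.b₄ ≤ 1 := by
  rw [WeierstrassCurve.b₄]
  exact v.map_add_le (v_mul_le_one v (v_ofNat_le_one v 2) hW.a₄) (v_mul_le_one v hW.a₁ hW.a₃)

lemma IntCoeffs.b₆ (hW : IntCoeffs v W) : v W.b₆ ≤ 1 := by
  rw [WeierstrassCurve.b₆]
  exact v.map_add_le (by rw [map_pow]; exact pow_le_one' hW.a₃ 2)
    (v_mul_le_one v (v_ofNat_le_one v 4) hW.a₆)

lemma IntCoeffs.b₈ (hW : IntCoeffs v W) : v W.b₈ ≤ 1 := by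
  rw [WeierstrassCurve.b₈]
  refine v.map_sub_le (v.map_add_le (v.map_sub_le (v.map_add_le ?_ ?_) ?_) ?_) ?_
  · exact v_mul_le_one v (by rw [map_pow]; exact pow_le_one' hW.a₁ 2) hW.a₆
  · exact v_mul_le_one v (v_mul_le_one v (v_ofNat_le_one v 4) hW.a₂) hW.a₆
  · exact v_mul_le_one v (v_mul_le_one v hW.a₁ hW.a₃) hW.a₄
  · exact v_mul_le_one v hW.a₂ (by rw [map_pow]; exact pow_le_one' hW.a₃ 2)
  · rw [map_pow]; exact pow_le_one' hW.a₄ 2


variable [DecidableEq K]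

variable (v W) in
/-- The kernel of reduction (without the origin): points with non-integral `x`-coordinate. -/
def InKer (P : W.toAffine.Point) : Prop := 1 < v (xc W P)

omit [DecidableEq K] in
lemma InKer.ne_zero {P : W.toAffine.Point} (hP : InKer v W P) : P ≠ 0 := by
  rintro rfl
  unfold InKer at hP
  rw [xc_zero, map_zero] at hP
  exact absurd hP (not_lt.mpr zero_le_one)

omit [DecidableEq K] in
lemma InKer.neg {P : W.toAffine.Point} (hP : InKer v W P) : InKer v W (-P) := by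
  unfold InKer at hP ⊢
  rwa [xc_neg]

omit [DecidableEq K] in
lemma inKer_of_inv {P : W.toAffine.Point} (h0 : xc W P ≠ 0) (h : v (xc W P)⁻¹ < 1) :
    InKer v W P := by
  unfold InKer
  rw [map_inv₀] at h
  exact (inv_lt_one₀ (v.pos_iff.mpr h0)).mp h

/-- The relation between the inverse `x`-coordinates of `P + Q`, `P - Q`, `P`, `Q` for two points
of the kernel of reduction with distinct `x`-coordinates. -/
theorem rel_add (hW : IntCoeffs v W) {P Q : W.toAffine.Point} (hP : InKer v W P)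
    (hQ : InKer v W Q) (hne : xc W P ≠ xc W Q) :
    ∃ R R' : K, v R ≤ 1 ∧ v R' ≤ 1 ∧ xc W (P + Q) ≠ 0 ∧ xc W (P - Q) ≠ 0 ∧
      ((xc W (P + Q))⁻¹ + (xc W (P - Q))⁻¹) * (1 - (xc W P)⁻¹ * (xc W Q)⁻¹ * R') =
        2 * ((xc W P)⁻¹ + (xc W Q)⁻¹) + (xc W P)⁻¹ * (xc W Q)⁻¹ * R ∧
      (xc W (P + Q))⁻¹ * (xc W (P - Q))⁻¹ * (1 - (xc W P)⁻¹ * (xc W Q)⁻¹ * R') =
        ((xc W P)⁻¹ - (xc W Q)⁻¹) ^ 2 := by
  rcases P with _ | ⟨x₁, y₁, h₁⟩
  · exact absurd rfl hP.ne_zero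
  rcases Q with _ | ⟨x₂, y₂, h₂⟩
  · exact absurd rfl hQ.ne_zero
  have hx₁ : 1 < v x₁ := hP
  have hx₂ : 1 < v x₂ := hQ
  have hx : x₁ ≠ x₂ := hne
  have hx₁0 : x₁ ≠ 0 := ne_zero_of_one_lt v hx₁
  have hx₂0 : x₂ ≠ 0 := ne_zero_of_one_lt v hx₂
  have hd : x₁ - x₂ ≠ 0 := sub_ne_zero.mpr hx
  have hw₁ : v x₁⁻¹ < 1 := v_inv_lt_one v hx₁
  have hw₂ : v x₂⁻¹ < 1 := v_inv_lt_one v hx₂
  have hw₁₂ : v (x₁⁻¹ + x₂⁻¹) ≤ 1 := v.map_add_le hw₁.le hw₂.le
  have hww : v (x₁⁻¹ * x₂⁻¹) < 1 := by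
    rw [map_mul]
    exact mul_lt_one_of_nonneg_of_lt_one_right hw₁.le zero_le hw₂
  set R : K := W.b₂ + W.b₄ * (x₁⁻¹ + x₂⁻¹) + W.b₆ * (x₁⁻¹ * x₂⁻¹) with hR
  set R' : K := W.b₄ + W.b₆ * (x₁⁻¹ + x₂⁻¹) + W.b₈ * (x₁⁻¹ * x₂⁻¹) with hR'
  have hvR : v R ≤ 1 :=
    v.map_add_le (v.map_add_le hW.b₂ (v_mul_le_one v hW.b₄ hw₁₂)) (v_mul_le_one v hW.b₆ hww.le)
  have hvR' : v R' ≤ 1 :=
    v.map_add_le (v.map_add_le hW.b₄ (v_mul_le_one v hW.b₆ hw₁₂)) (v_mul_le_one v hW.b₈ hww.le)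
  have hD1 : v (x₁⁻¹ * x₂⁻¹ * R') < 1 := by
    rw [map_mul]
    exact mul_lt_one_of_nonneg_of_lt_one_left zero_le hww hvR'
  have hD : 1 - x₁⁻¹ * x₂⁻¹ * R' ≠ 0 := by
    intro h0
    have : v (1 - x₁⁻¹ * x₂⁻¹ * R') = 1 := v.map_one_sub_of_lt hD1
    rw [h0, map_zero] at this
    exact zero_ne_one this
  have hs := xc_add_add_xc_sub W h₁ h₂ hx
  have hp := xc_add_mul_xc_sub W h₁ h₂ hx
  set Xp := xc W (Affine.Point.some x₁ y₁ h₁ + Affine.Point.some x₂ y₂ h₂) with hXp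
  set Xm := xc W (Affine.Point.some x₁ y₁ h₁ - Affine.Point.some x₂ y₂ h₂) with hXm
  have hNp : x₁ ^ 2 * x₂ ^ 2 - W.b₄ * x₁ * x₂ - W.b₆ * (x₁ + x₂) - W.b₈ =
      x₁ ^ 2 * x₂ ^ 2 * (1 - x₁⁻¹ * x₂⁻¹ * R') := by
    rw [hR']
    field_simp
    ring
  have hNs : 2 * x₁ * x₂ * (x₁ + x₂) + W.b₂ * x₁ * x₂ + W.b₄ * (x₁ + x₂) + W.b₆ =
      x₁ ^ 2 * x₂ ^ 2 * (2 * (x₁⁻¹ + x₂⁻¹) + x₁⁻¹ * x₂⁻¹ * R) := by
    rw [hR]
    field_simp
    ring
  have hxx : x₁ ^ 2 * x₂ ^ 2 ≠ 0 := mul_ne_zero (pow_ne_zero 2 hx₁0) (pow_ne_zero 2 hx₂0)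
  rw [hNp] at hp
  rw [hNs] at hs
  have hprod : Xp * Xm ≠ 0 := by
    intro h0
    rw [h0, mul_zero] at hp
    exact mul_ne_zero hxx hD hp.symm
  have hXp0 : Xp ≠ 0 := left_ne_zero_of_mul hprod
  have hXm0 : Xm ≠ 0 := right_ne_zero_of_mul hprod
  refine ⟨R, R', hvR, hvR', hXp0, hXm0, ?_, ?_⟩
  · simp only [xc_some]
    have h1 : (Xp⁻¹ + Xm⁻¹) * ((x₁ - x₂) ^ 2 * (Xp * Xm)) = (x₁ - x₂) ^ 2 * (Xp + Xm) := by
      field_simp
      ring
    rw [hp, hs] at h1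
    have h2 : x₁ ^ 2 * x₂ ^ 2 * ((Xp⁻¹ + Xm⁻¹) * (1 - x₁⁻¹ * x₂⁻¹ * R')) =
        x₁ ^ 2 * x₂ ^ 2 * (2 * (x₁⁻¹ + x₂⁻¹) + x₁⁻¹ * x₂⁻¹ * R) := by
      linear_combination h1
    exact mul_left_cancel₀ hxx h2
  · simp only [xc_some]
    have h1 : (Xp⁻¹ * Xm⁻¹) * ((x₁ - x₂) ^ 2 * (Xp * Xm)) = (x₁ - x₂) ^ 2 := by
      field_simp
    rw [hp] at h1
    have h2 : x₁ ^ 2 * x₂ ^ 2 * (Xp⁻¹ * Xm⁻¹ * (1 - x₁⁻¹ * x₂⁻¹ * R')) =
        x₁ ^ 2 * x₂ ^ 2 * (x₁⁻¹ - x₂⁻¹) ^ 2 := by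
      have h3 : x₁ ^ 2 * x₂ ^ 2 * (x₁⁻¹ - x₂⁻¹) ^ 2 = (x₁ - x₂) ^ 2 := by
        field_simp
        ring
      rw [h3]
      linear_combination h1
    exact mul_left_cancel₀ hxx h2


/-- The relation between the inverse `x`-coordinates of `P + P` and `P` for a point of the kernel
of reduction which is not of order two. -/
theorem rel_double (hW : IntCoeffs v W) {P : W.toAffine.Point} (hP : InKer v W P)
    (h2 : P + P ≠ 0) :
    ∃ R R' : K, v R ≤ 1 ∧ v R' ≤ 1 ∧ xc W (P + P) ≠ 0 ∧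
      (xc W (P + P))⁻¹ * (1 - (xc W P)⁻¹ ^ 2 * R') = 4 * (xc W P)⁻¹ + (xc W P)⁻¹ ^ 2 * R := by
  rcases P with _ | ⟨x, y, h⟩
  · exact absurd rfl hP.ne_zero
  have hx : 1 < v x := hP
  have hx0 : x ≠ 0 := ne_zero_of_one_lt v hx
  have hw : v x⁻¹ < 1 := v_inv_lt_one v hx
  have hww : v (x⁻¹ ^ 2) < 1 := by
    rw [map_pow]
    exact pow_lt_one₀ zero_le hw two_ne_zero
  have hy : y ≠ W.toAffine.negY x y := by
    intro hy
    exact h2 (Affine.Point.add_self_of_Y_eq hy)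
  set R : K := W.b₂ + 2 * W.b₄ * x⁻¹ + W.b₆ * x⁻¹ ^ 2 with hR
  set R' : K := W.b₄ + 2 * W.b₆ * x⁻¹ + W.b₈ * x⁻¹ ^ 2 with hR'
  have hvR : v R ≤ 1 :=
    v.map_add_le (v.map_add_le hW.b₂
      (v_mul_le_one v (v_mul_le_one v (v_ofNat_le_one v 2) hW.b₄) hw.le))
      (v_mul_le_one v hW.b₆ hww.le)
  have hvR' : v R' ≤ 1 :=
    v.map_add_le (v.map_add_le hW.b₄
      (v_mul_le_one v (v_mul_le_one v (v_ofNat_le_one v 2) hW.b₆) hw.le))
      (v_mul_le_one v hW.b₈ hww.le)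
  have hD1 : v (x⁻¹ ^ 2 * R') < 1 := by
    rw [map_mul]
    exact mul_lt_one_of_nonneg_of_lt_one_left zero_le hww hvR'
  have hD : 1 - x⁻¹ ^ 2 * R' ≠ 0 := by
    intro h0
    have : v (1 - x⁻¹ ^ 2 * R') = 1 := v.map_one_sub_of_lt hD1
    rw [h0, map_zero] at this
    exact zero_ne_one this
  obtain ⟨hψ, hdbl⟩ := xc_double W h hy
  set X₂ := xc W (Affine.Point.some x y h + Affine.Point.some x y h) with hX₂
  have hN : x ^ 4 - W.b₄ * x ^ 2 - 2 * W.b₆ * x - W.b₈ = x ^ 4 * (1 - x⁻¹ ^ 2 * R') := by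
    rw [hR']
    field_simp
    ring
  have hψ' : 4 * x ^ 3 + W.b₂ * x ^ 2 + 2 * W.b₄ * x + W.b₆ = x ^ 4 * (4 * x⁻¹ + x⁻¹ ^ 2 * R) := by
    rw [hR]
    field_simp
    ring
  have hx4 : x ^ 4 ≠ 0 := pow_ne_zero 4 hx0
  rw [hN, hψ'] at hdbl
  have hX0 : X₂ ≠ 0 := by
    intro h0
    rw [h0, mul_zero] at hdbl
    exact mul_ne_zero hx4 hD hdbl.symm
  refine ⟨R, R', hvR, hvR', hX0, ?_⟩
  simp only [xc_some]
  have h1 : x ^ 4 * (X₂⁻¹ * (1 - x⁻¹ ^ 2 * R')) = x ^ 4 * (4 * x⁻¹ + x⁻¹ ^ 2 * R) := by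
    have h3 : X₂⁻¹ * (x ^ 4 * (4 * x⁻¹ + x⁻¹ ^ 2 * R) * X₂) = x ^ 4 * (4 * x⁻¹ + x⁻¹ ^ 2 * R) := by
      field_simp
    rw [hdbl] at h3
    linear_combination h3
  exact mul_left_cancel₀ hx4 h1

omit [DecidableEq K] in
lemma eq_or_eq_neg_of_xc_eq {P Q : W.toAffine.Point} (hP : P ≠ 0) (hQ : Q ≠ 0)
    (h : xc W P = xc W Q) : P = Q ∨ P = -Q := by
  rcases P with _ | ⟨x₁, y₁, h₁⟩
  · exact absurd rfl hP
  rcases Q with _ | ⟨x₂, y₂, h₂⟩
  · exact absurd rfl hQ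
  exact Affine.Point.X_eq_iff.mp h

/-- The kernel of reduction is closed under addition. -/
theorem InKer.add (hW : IntCoeffs v W) {P Q : W.toAffine.Point} (hP : InKer v W P)
    (hQ : InKer v W Q) : P + Q = 0 ∨ InKer v W (P + Q) := by
  by_cases hne : xc W P = xc W Q
  · rcases eq_or_eq_neg_of_xc_eq hP.ne_zero hQ.ne_zero hne with rfl | rfl
    · by_cases h2 : P + P = 0
      · exact Or.inl h2
      · right
        obtain ⟨R, R', hR, hR', hX0, hrel⟩ := rel_double hW hP h2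
        apply inKer_of_inv hX0
        have hw : v (xc W P)⁻¹ < 1 := v_inv_lt_one v hP
        have hww : v ((xc W P)⁻¹ ^ 2) < 1 := by
          rw [map_pow]
          exact pow_lt_one₀ zero_le hw two_ne_zero
        have hD1 : v ((xc W P)⁻¹ ^ 2 * R') < 1 := by
          rw [map_mul]
          exact mul_lt_one_of_nonneg_of_lt_one_left zero_le hww hR'
        have hD : v (1 - (xc W P)⁻¹ ^ 2 * R') = 1 := v.map_one_sub_of_lt hD1
        have hrhs : v (4 * (xc W P)⁻¹ + (xc W P)⁻¹ ^ 2 * R) < 1 := by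
          apply v.map_add_lt
          · rw [map_mul]
            exact mul_lt_one_of_nonneg_of_lt_one_right (v_ofNat_le_one v 4) zero_le hw
          · rw [map_mul]
            exact mul_lt_one_of_nonneg_of_lt_one_left zero_le hww hR
        rw [← hrel, map_mul, hD, mul_one] at hrhs
        exact hrhs
    · left
      exact neg_add_cancel Q
  · right
    obtain ⟨R, R', hR, hR', hXp0, hXm0, hsum, hprod⟩ := rel_add hW hP hQ hne
    apply inKer_of_inv hXp0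
    have hw₁ : v (xc W P)⁻¹ < 1 := v_inv_lt_one v hP
    have hw₂ : v (xc W Q)⁻¹ < 1 := v_inv_lt_one v hQ
    have hww : v ((xc W P)⁻¹ * (xc W Q)⁻¹) < 1 := by
      rw [map_mul]
      exact mul_lt_one_of_nonneg_of_lt_one_right hw₁.le zero_le hw₂
    have hD1 : v ((xc W P)⁻¹ * (xc W Q)⁻¹ * R') < 1 := by
      rw [map_mul]
      exact mul_lt_one_of_nonneg_of_lt_one_left zero_le hww hR'
    have hD : v (1 - (xc W P)⁻¹ * (xc W Q)⁻¹ * R') = 1 := v.map_one_sub_of_lt hD1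
    have hs : v ((xc W (P + Q))⁻¹ + (xc W (P - Q))⁻¹) < 1 := by
      have : v (2 * ((xc W P)⁻¹ + (xc W Q)⁻¹) + (xc W P)⁻¹ * (xc W Q)⁻¹ * R) < 1 := by
        apply v.map_add_lt
        · rw [map_mul]
          exact mul_lt_one_of_nonneg_of_lt_one_right (v_ofNat_le_one v 2) zero_le
            (v.map_add_lt hw₁ hw₂)
        · rw [map_mul]
          exact mul_lt_one_of_nonneg_of_lt_one_left zero_le hww hR
      rw [← hsum, map_mul, hD, mul_one] at this
      exact this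
    have hp : v ((xc W (P + Q))⁻¹ * (xc W (P - Q))⁻¹) < 1 := by
      have : v (((xc W P)⁻¹ - (xc W Q)⁻¹) ^ 2) < 1 := by
        rw [map_pow]
        exact pow_lt_one₀ zero_le (v.map_sub_lt hw₁ hw₂) two_ne_zero
      rw [← hprod, map_mul, hD, mul_one] at this
      exact this
    exact lt_one_of_add_of_mul v hs hp


/-- Multiples of a point of the kernel of reduction are `0` or in the kernel of reduction. -/
theorem InKer.nsmul (hW : IntCoeffs v W) {T : W.toAffine.Point} (hT : InKer v W T) (n : ℕ) :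
    n • T = 0 ∨ InKer v W (n • T) := by
  induction n with
  | zero => exact Or.inl (zero_nsmul T)
  | succ n ih =>
    rw [succ_nsmul]
    rcases ih with h0 | hker
    · rw [h0, zero_add]
      exact Or.inr hT
    · exact hker.add hW hT

/-- Core of step (F): a point of prime order `p ≥ 5` in the kernel of reduction whose multiples
all have inverse `x`-coordinate of valuation at most that of the point itself cannot exist when
`v p = 1`. -/
theorem false_of_max (hW : IntCoeffs v W) {p : ℕ} (hp : p.Prime) (hp5 : 5 ≤ p)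
    (hvp : v (p : K) = 1) {T : W.toAffine.Point} (hT : InKer v W T) (htors : p • T = 0)
    (hker : ∀ m : ℕ, ¬ p ∣ m → InKer v W (m • T))
    (hmax : ∀ m : ℕ, ¬ p ∣ m → v (xc W (m • T))⁻¹ ≤ v (xc W T)⁻¹) : False := by
  have : Fact p.Prime := ⟨hp⟩
  have hT0 : T ≠ 0 := hT.ne_zero
  have hord : addOrderOf T = p := addOrderOf_eq_prime htors hT0
  have hne0 : ∀ m : ℕ, ¬ p ∣ m → m • T ≠ 0 := fun m hm h0 =>
    hm (hord ▸ addOrderOf_dvd_of_nsmul_eq_zero h0)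
  set ω : Γ₀ := v (xc W T)⁻¹ with hω
  have hω1 : ω < 1 := v_inv_lt_one v hT
  have hω0 : 0 < ω := by
    rw [hω, v.pos_iff]
    exact inv_ne_zero (ne_zero_of_one_lt v hT)
  have hω2 : ω ^ 2 ≤ ω := by
    calc ω ^ 2 = ω * ω := sq ω
      _ ≤ 1 * ω := mul_le_mul' hω1.le le_rfl
      _ = ω := one_mul ω
  set w : ℕ → K := fun m => (xc W (m • T))⁻¹ with hw
  have hw1 : w 1 = (xc W T)⁻¹ := by simp only [hw, one_nsmul]
  have hwle : ∀ m : ℕ, ¬ p ∣ m → v (w m) ≤ ω := hmax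
  have hv2 : v (2 : K) ≤ 1 := v_ofNat_le_one v 2
  -- the parallelogram relation
  have hstep : ∀ n : ℕ, 2 ≤ n → n + 2 ≤ p →
      v (w (n + 1) + w (n - 1) - 2 * w n - 2 * w 1) ≤ ω ^ 2 := by
    intro n hn2 hnp
    have hpn : ¬ p ∣ n := fun h => by
      have := Nat.le_of_dvd (by omega) h
      omega
    have hpn1 : ¬ p ∣ n + 1 := fun h => by
      have := Nat.le_of_dvd (by omega) h
      omega
    have hpn' : ¬ p ∣ n - 1 := fun h => by
      have := Nat.le_of_dvd (by omega) h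
      omega
    have hxne : xc W (n • T) ≠ xc W T := by
      intro hxe
      rcases eq_or_eq_neg_of_xc_eq (hne0 n hpn) hT0 hxe with h | h
      · apply hne0 (n - 1) hpn'
        have : n • T = (n - 1) • T + T := by
          rw [← succ_nsmul]
          congr 1
          omega
        rw [this] at h
        exact add_eq_right.mp h
      · apply hne0 (n + 1) hpn1
        rw [succ_nsmul, h]
        exact neg_add_cancel T
    obtain ⟨R, R', hR, hR', -, -, hsum, -⟩ := rel_add hW (hker n hpn) hT hxne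
    have hadd : n • T + T = (n + 1) • T := (succ_nsmul T n).symm
    have hsub : n • T - T = (n - 1) • T := by
      have : n • T = (n - 1) • T + T := by
        rw [← succ_nsmul]
        congr 1
        omega
      rw [this, add_sub_cancel_right]
    rw [hadd, hsub] at hsum
    have hkey : w (n + 1) + w (n - 1) - 2 * w n - 2 * w 1 =
        (w (n + 1) + w (n - 1)) * (w n * w 1 * R') + w n * w 1 * R := by
      simp only [hw, one_nsmul]
      linear_combination hsum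
    rw [hkey]
    have hnn : v (w n * w 1) ≤ ω ^ 2 := by
      rw [map_mul, sq]
      exact mul_le_mul' (hwle n hpn) (le_of_eq (by rw [hw1]))
    apply v.map_add_le
    · apply v_mul_le_of_le_one
      · exact v.map_add_le ((hwle _ hpn1).trans hω1.le) ((hwle _ hpn').trans hω1.le)
      · rw [mul_comm]
        exact v_mul_le_of_le_one v hR' hnn
    · rw [mul_comm]
      exact v_mul_le_of_le_one v hR hnn
  -- duplication
  have hp2 : ¬ p ∣ 2 := fun h => by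
    have := Nat.le_of_dvd (by omega) h
    omega
  have hdbl : v (w 2 - 4 * w 1) ≤ ω ^ 2 := by
    have h2 : T + T ≠ 0 := by
      rw [← two_nsmul]
      exact hne0 2 hp2
    obtain ⟨R, R', hR, hR', -, hrel⟩ := rel_double hW hT h2
    rw [← two_nsmul] at hrel
    have hkey : w 2 - 4 * w 1 = w 2 * (w 1 ^ 2 * R') + w 1 ^ 2 * R := by
      simp only [hw, one_nsmul]
      linear_combination hrel
    rw [hkey]
    have hnn : v (w 1 ^ 2) ≤ ω ^ 2 := by
      rw [map_pow, hw1]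
    apply v.map_add_le
    · apply v_mul_le_of_le_one v ((hwle 2 hp2).trans hω1.le)
      rw [mul_comm]
      exact v_mul_le_of_le_one v hR' hnn
    · rw [mul_comm]
      exact v_mul_le_of_le_one v hR hnn
  -- induction: `w n ≡ n² w 1`
  have hind : ∀ n : ℕ, 1 ≤ n → n + 2 ≤ p →
      v (w n - (n : K) ^ 2 * w 1) ≤ ω ^ 2 ∧ v (w (n + 1) - ((n + 1 : ℕ) : K) ^ 2 * w 1) ≤ ω ^ 2 := by
    intro n hn
    induction n, hn using Nat.le_induction with
    | base =>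
      intro _
      refine ⟨?_, ?_⟩
      · have : w 1 - ((1 : ℕ) : K) ^ 2 * w 1 = 0 := by push_cast; ring
        rw [this, map_zero]
        exact zero_le
      · have : w (1 + 1) - ((1 + 1 : ℕ) : K) ^ 2 * w 1 = w 2 - 4 * w 1 := by push_cast; ring
        rw [this]
        exact hdbl
    | succ n hn ih =>
      intro hnp
      obtain ⟨ih1, ih2⟩ := ih (by omega)
      refine ⟨ih2, ?_⟩
      have hs := hstep (n + 1) (by omega) (by omega)
      have hn1 : n + 1 - 1 = n := by omega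
      rw [hn1] at hs
      have hkey : w (n + 1 + 1) - ((n + 1 + 1 : ℕ) : K) ^ 2 * w 1 =
          (w (n + 1 + 1) + w n - 2 * w (n + 1) - 2 * w 1) - (w n - (n : K) ^ 2 * w 1) +
            2 * (w (n + 1) - ((n + 1 : ℕ) : K) ^ 2 * w 1) := by
        push_cast
        ring
      rw [hkey]
      exact v.map_add_le (v.map_sub_le hs ih1) (v_mul_le_of_le_one v hv2 ih2)
  obtain ⟨hA, hB⟩ := hind (p - 2) (by omega) (by omega)
  have hp1 : p - 2 + 1 = p - 1 := by omega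
  rw [hp1] at hB
  -- `w (p - 1) = w 1` and `w (p - 2) = w 2`
  have hwp1 : w (p - 1) = w 1 := by
    have h : (p - 1) • T = -T := by
      apply eq_neg_of_add_eq_zero_left
      rw [← succ_nsmul]
      have : p - 1 + 1 = p := by omega
      rw [this, htors]
    simp only [hw, one_nsmul, h, xc_neg]
  have hwp2 : w (p - 2) = w 2 := by
    have h : (p - 2) • T = -(2 • T) := by
      apply eq_neg_of_add_eq_zero_left
      rw [← add_nsmul]
      have : p - 2 + 2 = p := by omega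
      rw [this, htors]
    simp only [hw, h, xc_neg]
  rw [hwp1] at hB
  rw [hwp2] at hA
  have hw10 : v (w 1) = ω := by rw [hw1]
  have hcast1 : ((p - 1 : ℕ) : K) = (p : K) - 1 := by
    rw [Nat.cast_sub (by omega)]
    simp
  have hcast2 : ((p - 2 : ℕ) : K) = (p : K) - 2 := by
    rw [Nat.cast_sub (by omega)]
    simp
  -- `v (p - 2) < 1`
  have h1 : v ((p : K) - 2) < 1 := by
    have hB' : w 1 - ((p - 1 : ℕ) : K) ^ 2 * w 1 = -((p : K) * ((p : K) - 2) * w 1) := by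
      rw [hcast1]
      ring
    rw [hB', v.map_neg, map_mul, map_mul, hvp, one_mul, hw10, sq] at hB
    have := le_of_mul_le_mul_right hB hω0
    exact lt_of_le_of_lt this hω1
  -- `v (p - 4) < 1`
  have h2 : v ((p : K) - 4) < 1 := by
    have hC : (p : K) * ((p : K) - 4) * w 1 =
        (w 2 - 4 * w 1) - (w 2 - ((p - 2 : ℕ) : K) ^ 2 * w 1) := by
      rw [hcast2]
      ring
    have hC' : v ((p : K) * ((p : K) - 4) * w 1) ≤ ω ^ 2 := by
      rw [hC]
      exact v.map_sub_le hdbl hA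
    rw [map_mul, map_mul, hvp, one_mul, hw10, sq] at hC'
    have := le_of_mul_le_mul_right hC' hω0
    exact lt_of_le_of_lt this hω1
  have h3 : v (2 : K) < 1 := by
    have : (2 : K) = ((p : K) - 2) - ((p : K) - 4) := by ring
    rw [this]
    exact v.map_sub_lt h1 h2
  have h4 : v (p : K) < 1 := by
    have : (p : K) = ((p : K) - 2) + 2 := by ring
    rw [this]
    exact v.map_add_lt h1 h3
  rw [hvp] at h4
  exact lt_irrefl _ h4


/-- Step (F), for points: a point of the kernel of reduction cannot have prime order `p ≥ 5`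
when `v p = 1`. -/
theorem InKer.false_of_nsmul_eq_zero (hW : IntCoeffs v W) {p : ℕ} (hp : p.Prime) (hp5 : 5 ≤ p)
    (hvp : v (p : K) = 1) {T : W.toAffine.Point} (hT : InKer v W T) (htors : p • T = 0) :
    False := by
  have : Fact p.Prime := ⟨hp⟩
  have hT0 : T ≠ 0 := hT.ne_zero
  have hord : addOrderOf T = p := addOrderOf_eq_prime htors hT0
  have hne0 : ∀ m : ℕ, ¬ p ∣ m → m • T ≠ 0 := fun m hm h0 =>
    hm (hord ▸ addOrderOf_dvd_of_nsmul_eq_zero h0)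
  have hkerT : ∀ m : ℕ, ¬ p ∣ m → InKer v W (m • T) := fun m hm =>
    (hT.nsmul hW m).resolve_left (hne0 m hm)
  -- choose the multiple with maximal `v (1 / x)`
  have hne : (Finset.Icc 1 (p - 1)).Nonempty := ⟨1, Finset.mem_Icc.mpr ⟨le_rfl, by omega⟩⟩
  obtain ⟨n₀, hn₀mem, hn₀max⟩ :=
    Finset.exists_max_image (Finset.Icc 1 (p - 1)) (fun n => v (xc W (n • T))⁻¹) hne
  rw [Finset.mem_Icc] at hn₀mem
  have hpn₀ : ¬ p ∣ n₀ := fun h => by
    have := Nat.le_of_dvd (by omega) h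
    omega
  have hmul : ∀ m : ℕ, m • n₀ • T = (m * n₀ % p) • T := by
    intro m
    rw [← mul_nsmul']
    conv_lhs => rw [← Nat.mod_add_div (m * n₀) p]
    rw [add_nsmul, mul_nsmul, htors, smul_zero, add_zero]
  have hdvd : ∀ m : ℕ, ¬ p ∣ m → ¬ p ∣ m * n₀ := fun m hm h =>
    (hp.dvd_mul.mp h).elim hm hpn₀
  refine false_of_max hW hp hp5 hvp (hkerT n₀ hpn₀) ?_ ?_ ?_
  · rw [smul_comm, htors, smul_zero]
  · intro m hm
    rw [← mul_nsmul']
    exact hkerT _ (hdvd m hm)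
  · intro m hm
    rw [hmul m]
    apply hn₀max
    rw [Finset.mem_Icc]
    have h1 : m * n₀ % p ≠ 0 := fun h => hdvd m hm (Nat.dvd_of_mod_eq_zero h)
    have h2 : m * n₀ % p < p := Nat.mod_lt _ hp.pos
    omega

end val

end KerRed

/-- **Step (F) of S05**: no `p`-torsion in the kernel of reduction, for an arbitrary valuation `v`
on a field `K` and an arbitrary Weierstrass curve with `v`-integral coefficients. -/
theorem no_torsion_in_kernel {K : Type*} [Field K] [DecidableEq K]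
    {Γ₀ : Type*} [LinearOrderedCommGroupWithZero Γ₀] (v : Valuation K Γ₀)
    (W : WeierstrassCurve K)
    (h₁ : v W.a₁ ≤ 1) (h₂ : v W.a₂ ≤ 1) (h₃ : v W.a₃ ≤ 1) (h₄ : v W.a₄ ≤ 1) (h₆ : v W.a₆ ≤ 1)
    {p : ℕ} (hp : p.Prime) (hp5 : 5 ≤ p) (hvp : v (p : K) = 1)
    {x y : K} (h : W.toAffine.Nonsingular x y) (hx : 1 < v x)
    (htors : p • (Affine.Point.some x y h : W.toAffine.Point) = 0) : False :=
  KerRed.InKer.false_of_nsmul_eq_zero (v := v) (W := W) ⟨h₁, h₂, h₃, h₄, h₆⟩ hp hp5 hvp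
    (T := Affine.Point.some x y h) hx htors

end Fermat.Agent.S05
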