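import Fermat.Agent.S05.XPair
import Fermat.Prelude.Def_FLTPrelim_FreyPackage

/-!
# S05: the normal form `Y² = X³ + A X² + B X` at a 2-torsion point, without moving points

For a Weierstrass curve `E` over a field and a root `r` of the 2-division polynomial
`dblDen E r = 4r³ + b₂r² + 2b₄r + b₆ = 0`, the functions
`Xn P = 4 (x(P) - r)`, `Yc P = 4 (2y + a₁x + a₃)` satisfy `Yc² = Xn³ + An Xn² + Bn Xn` and the
pair / duplication formulas of the curve `Y² = X³ + An X² + Bn X`:

* `(X₁ - X₂)² (X₊ + X₋) = 2 ((X₁ X₂ + Bn) (X₁ + X₂) + 2 An X₁ X₂)`,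
* `(X₁ - X₂)² X₊ X₋ = (X₁ X₂ - Bn)²`,
* `4 (X³ + An X² + Bn X) X(2P) = (X² - Bn)²`.

The second part instantiates this for the Frey curve of a `FreyPackage`.
-/

set_option autoImplicit false

namespace Fermat.Agent.S05.NodeModel

open WeierstrassCurve Fermat.Agent.S05.XPair

section general

variable {K : Type*} [Field K]

/-- the coefficient `A` of the normal form at the root `r`. -/
def An (E : WeierstrassCurve K) (r : K) : K := 12 * r + E.b₂

/-- the coefficient `B` of the normal form at the root `r`. -/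
def Bn (E : WeierstrassCurve K) (r : K) : K := 48 * r ^ 2 + 8 * E.b₂ * r + 8 * E.b₄

/-- the cubic `X³ + An X² + Bn X`. -/
def Gn (E : WeierstrassCurve K) (r X : K) : K := X ^ 3 + An E r * X ^ 2 + Bn E r * X

/-- its derivative `3X² + 2 An X + Bn`. -/
def Gn' (E : WeierstrassCurve K) (r X : K) : K := 3 * X ^ 2 + 2 * An E r * X + Bn E r

/-- the normalized `x`-coordinate `4 (x(P) - r)`. -/
def Xn (E : WeierstrassCurve K) (r : K) (P : E.toAffine.Point) : K := 4 * (xc E P - r)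

/-- the normalized `y`-coordinate `4 (2y + a₁x + a₃)` (`0` at the origin). -/
def Yc (E : WeierstrassCurve K) : E.toAffine.Point → K
  | .zero => 0
  | .some x y _ => 4 * (2 * y + E.a₁ * x + E.a₃)

@[simp] theorem Xn_some (E : WeierstrassCurve K) (r : K) {x y : K}
    (h : E.toAffine.Nonsingular x y) : Xn E r (Affine.Point.some x y h) = 4 * (x - r) := rfl

@[simp] theorem Yc_some (E : WeierstrassCurve K) {x y : K} (h : E.toAffine.Nonsingular x y) :
    Yc E (Affine.Point.some x y h) = 4 * (2 * y + E.a₁ * x + E.a₃) := rfl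

@[simp] theorem Xn_neg (E : WeierstrassCurve K) (r : K) (P : E.toAffine.Point) :
    Xn E r (-P) = Xn E r P := by
  simp [Xn]

theorem Yc_neg (E : WeierstrassCurve K) (P : E.toAffine.Point) : Yc E (-P) = -Yc E P := by
  rcases P with _ | ⟨x, y, h⟩
  · show Yc E 0 = -Yc E 0
    simp [Yc]
  · rw [Affine.Point.neg_some, Yc_some, Yc_some]
    simp only [Affine.negY]
    ring

theorem Gn_eq (E : WeierstrassCurve K) {r : K} (hr : dblDen E r = 0) (x : K) :
    Gn E r (4 * (x - r)) = 16 * dblDen E x := by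
  simp only [dblDen] at hr
  simp only [Gn, An, Bn, dblDen]
  linear_combination (-16 : K) * hr

theorem Gn'_eq (E : WeierstrassCurve K) (r x : K) :
    Gn' E r (4 * (x - r)) = 4 * (12 * x ^ 2 + 2 * E.b₂ * x + 2 * E.b₄) := by
  simp only [Gn', An, Bn]
  ring

/-- `Yc² = Xn³ + An Xn² + Bn Xn`, in coordinates. -/
theorem sq_eq_Gn (E : WeierstrassCurve K) {r : K} (hr : dblDen E r = 0) {x y : K}
    (h : E.toAffine.Equation x y) :
    (4 * (2 * y + E.a₁ * x + E.a₃)) ^ 2 = Gn E r (4 * (x - r)) := by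
  rw [Gn_eq E hr, dblDen_eq E h]
  simp only [Affine.negY]
  ring

theorem Yc_sq (E : WeierstrassCurve K) {r : K} (hr : dblDen E r = 0) {P : E.toAffine.Point}
    (hP : P ≠ 0) : Yc E P ^ 2 = Gn E r (Xn E r P) := by
  rcases P with _ | ⟨x, y, h⟩
  · exact absurd rfl hP
  · exact sq_eq_Gn E hr h.1

theorem xc_eq_iff (E : WeierstrassCurve K) {P Q : E.toAffine.Point} (hP : P ≠ 0) (hQ : Q ≠ 0) :
    xc E P = xc E Q ↔ P = Q ∨ P = -Q := by
  rcases P with _ | ⟨x₁, y₁, h₁⟩
  · exact absurd rfl hP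
  rcases Q with _ | ⟨x₂, y₂, h₂⟩
  · exact absurd rfl hQ
  exact Affine.Point.X_eq_iff

variable [DecidableEq K]

/-- **Pair formulas in the normal form at `r`**, in coordinates. -/
theorem node_pair_coord (E : WeierstrassCurve K) {r : K} (hr : dblDen E r = 0) {x₁ y₁ x₂ y₂ : K}
    (h₁ : E.toAffine.Nonsingular x₁ y₁) (h₂ : E.toAffine.Nonsingular x₂ y₂) (hx : x₁ ≠ x₂) :
    ∃ (xp yp xm ym : K) (hp : E.toAffine.Nonsingular xp yp)
      (hm : E.toAffine.Nonsingular xm ym),
      Affine.Point.some x₁ y₁ h₁ + Affine.Point.some x₂ y₂ h₂ = Affine.Point.some xp yp hp ∧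
      Affine.Point.some x₁ y₁ h₁ - Affine.Point.some x₂ y₂ h₂ = Affine.Point.some xm ym hm ∧
      (4 * (x₁ - r) - 4 * (x₂ - r)) ^ 2 * (4 * (xp - r) + 4 * (xm - r)) =
        2 * ((4 * (x₁ - r) * (4 * (x₂ - r)) + Bn E r) * (4 * (x₁ - r) + 4 * (x₂ - r)) +
          2 * An E r * (4 * (x₁ - r)) * (4 * (x₂ - r))) ∧
      (4 * (x₁ - r) - 4 * (x₂ - r)) ^ 2 * (4 * (xp - r) * (4 * (xm - r))) =
        (4 * (x₁ - r) * (4 * (x₂ - r)) - Bn E r) ^ 2 := by
  obtain ⟨xp, yp, xm, ym, hp, hm, hadd, hsub, hsum, hprod⟩ := add_sub_of_X_ne E h₁ h₂ hx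
  refine ⟨xp, yp, xm, ym, hp, hm, hadd, hsub, ?_, ?_⟩
  · simp only [sumNum] at hsum
    simp only [dblDen] at hr
    simp only [An, Bn]
    linear_combination (64 : K) * hsum + (64 : K) * hr
  · simp only [sumNum] at hsum
    simp only [prodNum] at hprod
    simp only [dblDen] at hr
    have hb := E.b_relation
    simp only [Bn]
    linear_combination (256 : K) * hprod - (256 * r) * hsum - (64 : K) * hb +
      (-256 * x₁ - 256 * x₂ - 256 * r - 64 * E.b₂) * hr

/-- **Pair formulas in the normal form at `r`**, for points. -/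
theorem node_pair (E : WeierstrassCurve K) {r : K} (hr : dblDen E r = 0)
    {P Q : E.toAffine.Point} (hP : P ≠ 0) (hQ : Q ≠ 0) (hne : xc E P ≠ xc E Q) :
    P + Q ≠ 0 ∧ P - Q ≠ 0 ∧
      (Xn E r P - Xn E r Q) ^ 2 * (Xn E r (P + Q) + Xn E r (P - Q)) =
        2 * ((Xn E r P * Xn E r Q + Bn E r) * (Xn E r P + Xn E r Q) +
          2 * An E r * Xn E r P * Xn E r Q) ∧
      (Xn E r P - Xn E r Q) ^ 2 * (Xn E r (P + Q) * Xn E r (P - Q)) =
        (Xn E r P * Xn E r Q - Bn E r) ^ 2 := by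
  rcases P with _ | ⟨x₁, y₁, h₁⟩
  · exact absurd rfl hP
  rcases Q with _ | ⟨x₂, y₂, h₂⟩
  · exact absurd rfl hQ
  obtain ⟨xp, yp, xm, ym, hp, hm, hadd, hsub, hsum, hprod⟩ := node_pair_coord E hr h₁ h₂ hne
  rw [hadd, hsub]
  exact ⟨Affine.Point.some_ne_zero _, Affine.Point.some_ne_zero _, hsum, hprod⟩

/-- **Duplication in the normal form at `r`**, in coordinates. -/
theorem node_dbl_coord (E : WeierstrassCurve K) {r : K} (hr : dblDen E r = 0) {x y : K}
    (h : E.toAffine.Nonsingular x y) (hy : y ≠ E.toAffine.negY x y) :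
    ∃ (x' y' : K) (h' : E.toAffine.Nonsingular x' y'),
      Affine.Point.some x y h + Affine.Point.some x y h = Affine.Point.some x' y' h' ∧
      4 * Gn E r (4 * (x - r)) * (4 * (x' - r)) = ((4 * (x - r)) ^ 2 - Bn E r) ^ 2 := by
  obtain ⟨x', y', h', hadd, hden, hdbl⟩ := add_self_of_Y_ne E h hy
  refine ⟨x', y', h', hadd, ?_⟩
  rw [Gn_eq E hr]
  simp only [dblDen] at hr
  simp only [dblDen, dblNum] at hdbl
  have hb := E.b_relation
  simp only [Bn, dblDen]
  linear_combination (256 : K) * hdbl - (64 : K) * hb + (-512 * x - 256 * r - 64 * E.b₂) * hr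

/-- **Duplication in the normal form at `r`**, for points. -/
theorem node_dbl (E : WeierstrassCurve K) {r : K} (hr : dblDen E r = 0)
    {P : E.toAffine.Point} (hP : P ≠ 0) (h2 : P + P ≠ 0) :
    4 * Gn E r (Xn E r P) * Xn E r (P + P) = (Xn E r P ^ 2 - Bn E r) ^ 2 := by
  rcases P with _ | ⟨x, y, h⟩
  · exact absurd rfl hP
  have hy : y ≠ E.toAffine.negY x y := by
    intro hy
    exact h2 (Affine.Point.add_self_of_Y_eq hy)
  obtain ⟨x', y', h', hadd, hdbl⟩ := node_dbl_coord E hr h hy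
  rw [hadd]
  exact hdbl

/-- `2P = O` iff the normalized cubic vanishes (characteristic `≠ 2`). -/
theorem add_self_eq_zero_iff_Gn (E : WeierstrassCurve K) {r : K} (hr : dblDen E r = 0)
    (h2 : (2 : K) ≠ 0) {P : E.toAffine.Point} (hP : P ≠ 0) :
    P + P = 0 ↔ Gn E r (Xn E r P) = 0 := by
  rcases P with _ | ⟨x, y, h⟩
  · exact absurd rfl hP
  rw [add_self_eq_zero_iff, Xn_some, Gn_eq E hr]
  have h16 : (16 : K) ≠ 0 := by
    have : (16 : K) = 2 ^ 4 := by norm_num
    rw [this]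
    exact pow_ne_zero 4 h2
  constructor
  · intro h0; rw [h0, mul_zero]
  · intro h0
    rcases mul_eq_zero.mp h0 with h1 | h1
    · exact absurd h1 h16
    · exact h1

/-! ### nonsingular reduction criteria -/

omit [DecidableEq K] in
/-- `16 F_x = 8 a₁ η - Gn'(Xn)` with `η = F_y = 2y + a₁x + a₃`. -/
theorem sixteen_polyX (E : WeierstrassCurve K) (r x y : K) :
    16 * (E.a₁ * y - (3 * x ^ 2 + 2 * E.a₂ * x + E.a₄)) =
      8 * E.a₁ * (2 * y + E.a₁ * x + E.a₃) - Gn' E r (4 * (x - r)) := by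
  rw [Gn'_eq]
  simp only [WeierstrassCurve.b₂, WeierstrassCurve.b₄]
  ring

variable {Γ₀ : Type*} [LinearOrderedCommGroupWithZero Γ₀] (v : Valuation K Γ₀)

omit [DecidableEq K] in
theorem v_ofNat_pow (h2 : v 2 = 1) : v 4 = 1 ∧ v 8 = 1 ∧ v 16 = 1 := by
  have e4 : (4 : K) = 2 ^ 2 := by norm_num
  have e8 : (8 : K) = 2 ^ 3 := by norm_num
  have e16 : (16 : K) = 2 ^ 4 := by norm_num
  rw [e4, e8, e16, map_pow, map_pow, map_pow, h2]
  simp

omit [DecidableEq K] in
/-- if `η = F_y` is small and `Gn'(Xn)` is a unit, then `F_x` is a unit. -/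
theorem polyX_unit (E : WeierstrassCurve K) (h2 : v 2 = 1) (ha₁ : v E.a₁ ≤ 1) {r x y : K}
    (hη : v (2 * y + E.a₁ * x + E.a₃) < 1) (hG : v (Gn' E r (4 * (x - r))) = 1) :
    v (E.a₁ * y - (3 * x ^ 2 + 2 * E.a₂ * x + E.a₄)) = 1 := by
  obtain ⟨h4, h8, h16⟩ := v_ofNat_pow v h2
  have h := congrArg v (sixteen_polyX E r x y)
  have hsmall : v (8 * E.a₁ * (2 * y + E.a₁ * x + E.a₃)) < v (Gn' E r (4 * (x - r))) := by
    rw [hG, map_mul, map_mul, h8, one_mul]
    calc v E.a₁ * v (2 * y + E.a₁ * x + E.a₃) ≤ 1 * v (2 * y + E.a₁ * x + E.a₃) :=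
          mul_le_mul_left ha₁ _
      _ < 1 := by rw [one_mul]; exact hη
  rw [Valuation.map_sub_eq_of_lt_right v hsmall, hG, map_mul, h16, one_mul] at h
  exact h

omit [DecidableEq K] in
/-- **Nonsingular reduction off the node.**  If `v (An) = 1`, `v (Bn) < 1` (the reduction has a
node at `Xn = 0`) then every point with `v (Xn) = 1` has nonsingular reduction:
`F_x` or `F_y` is a unit. -/
theorem nonsing_of_Xn_unit (E : WeierstrassCurve K) (h2 : v 2 = 1) (ha₁ : v E.a₁ ≤ 1) {r : K}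
    (hr : dblDen E r = 0) (hA : v (An E r) = 1) (hB : v (Bn E r) < 1) {x y : K}
    (h : E.toAffine.Equation x y) (hX : v (4 * (x - r)) = 1) :
    v (E.a₁ * y - (3 * x ^ 2 + 2 * E.a₂ * x + E.a₄)) = 1 ∨
      v (2 * y + E.a₁ * x + E.a₃) = 1 := by
  obtain ⟨h4, h8, h16⟩ := v_ofNat_pow v h2
  set X := 4 * (x - r) with hXdef
  set η := 2 * y + E.a₁ * x + E.a₃ with hηdef
  have hsq : (4 * η) ^ 2 = Gn E r X := sq_eq_Gn E hr h
  have hGle : v (Gn E r X) ≤ 1 := by
    simp only [Gn]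
    refine Valuation.map_add_le v (Valuation.map_add_le v ?_ ?_) ?_
    · rw [map_pow, hX, one_pow]
    · rw [map_mul, map_pow, hX, hA, one_pow, one_mul]
    · rw [map_mul, hX, mul_one]; exact hB.le
  have hηle : v η ≤ 1 := by
    have h1 : v η ^ 2 ≤ 1 := by
      have := congrArg v hsq
      rw [map_pow, map_mul, h4, one_mul] at this
      rw [this]; exact hGle
    by_contra hcon
    rw [not_le] at hcon
    have : (1 : Γ₀) < v η ^ 2 := one_lt_pow₀ hcon (by norm_num)
    exact absurd h1 (not_le.mpr this)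
  rcases hηle.lt_or_eq with hlt | heq
  · left
    apply polyX_unit v E h2 ha₁ (r := r) hlt
    rw [← hXdef]
    -- `v (Gn X) < 1`
    have hGlt : v (Gn E r X) < 1 := by
      rw [← hsq, map_pow, map_mul, h4, one_mul]
      exact pow_lt_one₀ zero_le hlt (by norm_num)
    -- `v (X² + An X + Bn) < 1`
    have hfac : Gn E r X = X * (X ^ 2 + An E r * X + Bn E r) := by
      simp only [Gn]; ring
    have hQ : v (X ^ 2 + An E r * X + Bn E r) < 1 := by
      rw [hfac, map_mul, hX, one_mul] at hGlt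
      exact hGlt
    have e : Gn' E r X = 3 * (X ^ 2 + An E r * X + Bn E r) - 2 * Bn E r - An E r * X := by
      simp only [Gn']; ring
    have h3 : v (3 : K) ≤ 1 := by
      have : (3 : K) = 1 + 2 := by norm_num
      rw [this]
      exact Valuation.map_add_le v (by rw [map_one]) (by rw [h2])
    have hAX : v (An E r * X) = 1 := by rw [map_mul, hA, hX, one_mul]
    rw [e]
    have hs : v (3 * (X ^ 2 + An E r * X + Bn E r) - 2 * Bn E r) < v (An E r * X) := by
      rw [hAX]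
      apply Valuation.map_sub_lt v
      · rw [map_mul]
        calc v 3 * v (X ^ 2 + An E r * X + Bn E r) ≤ 1 * v (X ^ 2 + An E r * X + Bn E r) :=
              mul_le_mul_left h3 _
          _ < 1 := by rw [one_mul]; exact hQ
      · rw [map_mul, h2, one_mul]; exact hB
    rw [Valuation.map_sub_eq_of_lt_right v hs, hAX]
  · right; exact heq

end general

/-! ### the Frey curve -/

section frey

variable (P : FreyPackage) (K : Type*) [Field K] [Algebra ℚ K]

/-- the Frey curve over `K` (this is `P.freyCurve⁄K`). -/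
abbrev freyK : WeierstrassCurve K := P.freyCurve.baseChange K

theorem frey_a₁ : (freyK P K).a₁ = 1 := by
  simp [freyK, WeierstrassCurve.baseChange, FreyPackage.freyCurve]

theorem frey_a₂ : (freyK P K).a₂ = ((P.b : K) ^ P.p - 1 - (P.a : K) ^ P.p) / 4 := by
  simp only [freyK, WeierstrassCurve.baseChange, FreyPackage.freyCurve, WeierstrassCurve.map_a₂,
    eq_ratCast]
  have := algebraRat.charZero K
  push_cast
  rfl

theorem frey_a₃ : (freyK P K).a₃ = 0 := by
  simp [freyK, WeierstrassCurve.baseChange, FreyPackage.freyCurve]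

theorem frey_a₄ : (freyK P K).a₄ = -((P.a : K) ^ P.p * (P.b : K) ^ P.p) / 16 := by
  simp only [freyK, WeierstrassCurve.baseChange, FreyPackage.freyCurve, WeierstrassCurve.map_a₄,
    eq_ratCast]
  have := algebraRat.charZero K
  push_cast
  ring

theorem frey_a₆ : (freyK P K).a₆ = 0 := by
  simp [freyK, WeierstrassCurve.baseChange, FreyPackage.freyCurve]

omit [Algebra ℚ K] in
theorem frey_hFLT : (P.a : K) ^ P.p + (P.b : K) ^ P.p = (P.c : K) ^ P.p := by
  have := congrArg (Int.cast : ℤ → K) P.hFLT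
  push_cast at this
  exact this

theorem frey_b₂ : (freyK P K).b₂ = (P.b : K) ^ P.p - (P.a : K) ^ P.p := by
  have := algebraRat.charZero K
  simp only [WeierstrassCurve.b₂, frey_a₁, frey_a₂]
  field_simp
  ring

theorem frey_b₄ : (freyK P K).b₄ = -((P.a : K) ^ P.p * (P.b : K) ^ P.p) / 8 := by
  have := algebraRat.charZero K
  simp only [WeierstrassCurve.b₄, frey_a₁, frey_a₃, frey_a₄]
  field_simp
  ring

theorem frey_b₆ : (freyK P K).b₆ = 0 := by
  simp only [WeierstrassCurve.b₆, frey_a₃, frey_a₆]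
  ring

theorem frey_dblDen (x : K) :
    dblDen (freyK P K) x = 4 * x * (x - (P.a : K) ^ P.p / 4) * (x + (P.b : K) ^ P.p / 4) := by
  have := algebraRat.charZero K
  simp only [dblDen, frey_b₂, frey_b₄, frey_b₆]
  field_simp
  ring

theorem frey_dblDen_zero : dblDen (freyK P K) 0 = 0 := by
  rw [frey_dblDen]; ring

theorem frey_dblDen_a : dblDen (freyK P K) ((P.a : K) ^ P.p / 4) = 0 := by
  rw [frey_dblDen]; ring

theorem frey_An_zero : An (freyK P K) 0 = (P.b : K) ^ P.p - (P.a : K) ^ P.p := by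
  simp only [An, frey_b₂]; ring

theorem frey_Bn_zero : Bn (freyK P K) 0 = -((P.a : K) ^ P.p * (P.b : K) ^ P.p) := by
  have := algebraRat.charZero K
  simp only [Bn, frey_b₂, frey_b₄]
  field_simp
  ring

theorem frey_An_a :
    An (freyK P K) ((P.a : K) ^ P.p / 4) = (P.a : K) ^ P.p + (P.c : K) ^ P.p := by
  have := algebraRat.charZero K
  simp only [An, frey_b₂, ← frey_hFLT P K]
  field_simp
  ring

theorem frey_Bn_a :
    Bn (freyK P K) ((P.a : K) ^ P.p / 4) = (P.a : K) ^ P.p * (P.c : K) ^ P.p := by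
  have := algebraRat.charZero K
  simp only [Bn, frey_b₂, frey_b₄, ← frey_hFLT P K]
  field_simp
  ring

theorem frey_Gn_zero (X : K) :
    Gn (freyK P K) 0 X = X * (X - (P.a : K) ^ P.p) * (X + (P.b : K) ^ P.p) := by
  simp only [Gn, frey_An_zero, frey_Bn_zero]; ring

theorem frey_Gn'_zero (X : K) :
    Gn' (freyK P K) 0 X = (X - (P.a : K) ^ P.p) * (X + (P.b : K) ^ P.p) +
      X * (X + (P.b : K) ^ P.p) + X * (X - (P.a : K) ^ P.p) := by
  simp only [Gn', frey_An_zero, frey_Bn_zero]; ring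

variable {K}
variable {Γ₀ : Type*} [LinearOrderedCommGroupWithZero Γ₀] (v : Valuation K Γ₀) {q : ℕ}

omit [Algebra ℚ K] in
theorem v_natCast_le_one (n : ℕ) : v (n : K) ≤ 1 := by
  induction n with
  | zero => simp
  | succ n ih =>
    rw [Nat.cast_succ]
    exact Valuation.map_add_le v ih (by rw [map_one])

omit [Algebra ℚ K] in
theorem v_intCast_le_one (n : ℤ) : v (n : K) ≤ 1 := by
  rcases Int.eq_nat_or_neg n with ⟨m, rfl | rfl⟩
  · exact_mod_cast v_natCast_le_one v m
  · rw [Int.cast_neg, Valuation.map_neg]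
    exact_mod_cast v_natCast_le_one v m

omit [Algebra ℚ K] in
theorem v_intCast_eq_one (hv : ∀ n : ℤ, v (n : K) < 1 ↔ (q : ℤ) ∣ n) {n : ℤ}
    (hn : ¬ (q : ℤ) ∣ n) : v (n : K) = 1 :=
  le_antisymm (v_intCast_le_one v n) (not_lt.mp fun h => hn ((hv n).mp h))

omit [Algebra ℚ K] in
theorem v_two (hq : q.Prime) (hq2 : q ≠ 2) (hv : ∀ n : ℤ, v (n : K) < 1 ↔ (q : ℤ) ∣ n) :
    v (2 : K) = 1 := by
  have h : ¬ (q : ℤ) ∣ 2 := by
    intro hd
    have hd' : q ∣ 2 := by exact_mod_cast hd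
    exact hq2 ((Nat.prime_dvd_prime_iff_eq hq Nat.prime_two).mp hd')
  have := v_intCast_eq_one v hv h
  exact_mod_cast this

/-- the coefficients of the Frey curve are integral at every odd prime. -/
theorem frey_integral (hq : q.Prime) (hq2 : q ≠ 2)
    (hv : ∀ n : ℤ, v (n : K) < 1 ↔ (q : ℤ) ∣ n) :
    v (freyK P K).a₁ ≤ 1 ∧ v (freyK P K).a₂ ≤ 1 ∧ v (freyK P K).a₃ ≤ 1 ∧
      v (freyK P K).a₄ ≤ 1 ∧ v (freyK P K).a₆ ≤ 1 := by
  obtain ⟨h4, h8, h16⟩ := v_ofNat_pow v (v_two v hq hq2 hv)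
  refine ⟨?_, ?_, ?_, ?_, ?_⟩
  · rw [frey_a₁, map_one]
  · rw [frey_a₂, map_div₀, h4, div_one]
    have : ((P.b : K) ^ P.p - 1 - (P.a : K) ^ P.p) = ((P.b ^ P.p - 1 - P.a ^ P.p : ℤ) : K) := by
      push_cast; ring
    rw [this]
    exact v_intCast_le_one v _
  · rw [frey_a₃, map_zero]; exact zero_le_one
  · rw [frey_a₄, map_div₀, h16, div_one]
    have : (-((P.a : K) ^ P.p * (P.b : K) ^ P.p)) = ((-(P.a ^ P.p * P.b ^ P.p) : ℤ) : K) := by
      push_cast; ring
    rw [this]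
    exact v_intCast_le_one v _
  · rw [frey_a₆, map_zero]; exact zero_le_one

omit [Algebra ℚ K] in
theorem v_intCast_pow_eq_one (hv : ∀ n : ℤ, v (n : K) < 1 ↔ (q : ℤ) ∣ n) {n : ℤ}
    (hn : ¬ (q : ℤ) ∣ n) (k : ℕ) : v ((n : K) ^ k) = 1 := by
  rw [map_pow, v_intCast_eq_one v hv hn, one_pow]

/-- **The node of the Frey curve at a prime `q ∣ abc`**: a rational root `ρ` of the 2-division
polynomial at which the normal form `Y² = X³ + An X² + Bn X` has `v An = 1` and
`v Bn = v u ^ p < 1`, where `u ∈ {a, b, c}` is the entry divisible by `q`. -/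
theorem exists_node (hq : q.Prime) (hq2 : q ≠ 2) (hv : ∀ n : ℤ, v (n : K) < 1 ↔ (q : ℤ) ∣ n)
    (hdvd : (q : ℤ) ∣ P.a * P.b * P.c) :
    ∃ (ρ : ℚ) (u : ℤ), dblDen (freyK P K) (algebraMap ℚ K ρ) = 0 ∧ v (algebraMap ℚ K ρ) ≤ 1 ∧
      v (An (freyK P K) (algebraMap ℚ K ρ)) = 1 ∧
      v (Bn (freyK P K) (algebraMap ℚ K ρ)) = v (u : K) ^ P.p ∧ (q : ℤ) ∣ u ∧ u ≠ 0 := by
  have hqp : Prime (q : ℤ) := Nat.prime_iff_prime_int.mp hq
  have hp0 : P.p ≠ 0 := P.hp0
  have hab : ¬ ((q : ℤ) ∣ P.a ∧ (q : ℤ) ∣ P.b) := fun h => by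
    have := dvd_gcd h.1 h.2
    rw [P.hgcdab] at this
    exact hqp.not_dvd_one this
  have hac : ¬ ((q : ℤ) ∣ P.a ∧ (q : ℤ) ∣ P.c) := fun h => by
    have := dvd_gcd h.1 h.2
    rw [P.hgcdac] at this
    exact hqp.not_dvd_one this
  have hbc : ¬ ((q : ℤ) ∣ P.b ∧ (q : ℤ) ∣ P.c) := fun h => by
    have := dvd_gcd h.1 h.2
    rw [P.hgcdbc] at this
    exact hqp.not_dvd_one this
  have hpow : ∀ {n : ℤ}, (q : ℤ) ∣ n → v ((n : K) ^ P.p) < 1 := fun {n} hn => by
    rw [map_pow]
    exact pow_lt_one₀ zero_le ((hv n).mpr hn) hp0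
  rcases (hqp.dvd_mul.mp hdvd) with hab' | hc
  · -- `q ∣ a` or `q ∣ b`: node at `x = 0`
    have key : ∀ (u : ℤ), (q : ℤ) ∣ u →
        v ((P.b : K) ^ P.p - (P.a : K) ^ P.p) = 1 →
        v (-((P.a : K) ^ P.p * (P.b : K) ^ P.p)) = v (u : K) ^ P.p → u ≠ 0 →
        ∃ (ρ : ℚ) (u : ℤ), dblDen (freyK P K) (algebraMap ℚ K ρ) = 0 ∧
          v (algebraMap ℚ K ρ) ≤ 1 ∧ v (An (freyK P K) (algebraMap ℚ K ρ)) = 1 ∧
          v (Bn (freyK P K) (algebraMap ℚ K ρ)) = v (u : K) ^ P.p ∧ (q : ℤ) ∣ u ∧ u ≠ 0 := by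
      intro u hu h1 h2 h3
      refine ⟨0, u, ?_, ?_, ?_, ?_, hu, h3⟩
      · rw [map_zero]; exact frey_dblDen_zero P K
      · rw [map_zero, map_zero]; exact zero_le_one
      · rw [map_zero, frey_An_zero]; exact h1
      · rw [map_zero, frey_Bn_zero]; exact h2
    rcases (hqp.dvd_mul.mp hab') with ha | hb
    · have hb : ¬ (q : ℤ) ∣ P.b := fun hb => hab ⟨ha, hb⟩
      refine key P.a ha ?_ ?_ P.ha0
      · rw [Valuation.map_sub_eq_of_lt_left v]
        · exact v_intCast_pow_eq_one v hv hb _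
        · rw [v_intCast_pow_eq_one v hv hb]; exact hpow ha
      · rw [Valuation.map_neg, map_mul, v_intCast_pow_eq_one v hv hb, mul_one, map_pow]
    · have ha : ¬ (q : ℤ) ∣ P.a := fun ha => hab ⟨ha, hb⟩
      refine key P.b hb ?_ ?_ P.hb0
      · rw [Valuation.map_sub_eq_of_lt_right v]
        · exact v_intCast_pow_eq_one v hv ha _
        · rw [v_intCast_pow_eq_one v hv ha]; exact hpow hb
      · rw [Valuation.map_neg, map_mul, v_intCast_pow_eq_one v hv ha, one_mul, map_pow]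
  · -- `q ∣ c`: node at `x = a ^ p / 4`
    have ha : ¬ (q : ℤ) ∣ P.a := fun ha => hac ⟨ha, hc⟩
    obtain ⟨h4, h8, h16⟩ := v_ofNat_pow v (v_two v hq hq2 hv)
    have hρ : algebraMap ℚ K ((P.a : ℚ) ^ P.p / 4) = (P.a : K) ^ P.p / 4 := by
      have := algebraRat.charZero K
      rw [eq_ratCast]
      push_cast
      rfl
    refine ⟨(P.a : ℚ) ^ P.p / 4, P.c, ?_, ?_, ?_, ?_, hc, P.hc0⟩
    · rw [hρ]; exact frey_dblDen_a P K
    · rw [hρ, map_div₀, h4, div_one, v_intCast_pow_eq_one v hv ha]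
    · rw [hρ, frey_An_a, Valuation.map_add_eq_of_lt_left v]
      · exact v_intCast_pow_eq_one v hv ha _
      · rw [v_intCast_pow_eq_one v hv ha]; exact hpow hc
    · rw [hρ, frey_Bn_a, map_mul, v_intCast_pow_eq_one v hv ha, one_mul, map_pow]

/-- **Good reduction**: if `q ∤ abc` (`q` odd), every integral point of the Frey curve has
nonsingular reduction: `F_x` or `F_y` is a unit. -/
theorem frey_nonsing_of_good (hq : q.Prime) (hq2 : q ≠ 2)
    (hv : ∀ n : ℤ, v (n : K) < 1 ↔ (q : ℤ) ∣ n) (hgood : ¬ (q : ℤ) ∣ P.a * P.b * P.c)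
    {x y : K} (h : (freyK P K).toAffine.Equation x y) (hx : v x ≤ 1) :
    v ((freyK P K).a₁ * y - (3 * x ^ 2 + 2 * (freyK P K).a₂ * x + (freyK P K).a₄)) = 1 ∨
      v (2 * y + (freyK P K).a₁ * x + (freyK P K).a₃) = 1 := by
  have h2 := v_two v hq hq2 hv
  obtain ⟨h4, h8, h16⟩ := v_ofNat_pow v h2
  have ha : ¬ (q : ℤ) ∣ P.a := fun ha => hgood (Dvd.dvd.mul_right (Dvd.dvd.mul_right ha _) _)
  have hb : ¬ (q : ℤ) ∣ P.b := fun hb => hgood (Dvd.dvd.mul_right (Dvd.dvd.mul_left hb _) _)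
  have hc : ¬ (q : ℤ) ∣ P.c := fun hc => hgood (Dvd.dvd.mul_left hc _)
  have hva := v_intCast_pow_eq_one v hv ha P.p
  have hvb := v_intCast_pow_eq_one v hv hb P.p
  have hvc := v_intCast_pow_eq_one v hv hc P.p
  have hFLT := frey_hFLT P K
  set E := freyK P K with hE
  set α := (P.a : K) ^ P.p with hα
  set β := (P.b : K) ^ P.p with hβ
  set γ := (P.c : K) ^ P.p with hγ
  set X := 4 * (x - 0) with hXdef
  set η := 2 * y + E.a₁ * x + E.a₃ with hηdef
  have hXle : v X ≤ 1 := by rw [hXdef, sub_zero, map_mul, h4, one_mul]; exact hx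
  have hXa : v (X - α) ≤ 1 := Valuation.map_sub_le v hXle hva.le
  have hXb : v (X + β) ≤ 1 := Valuation.map_add_le v hXle hvb.le
  have hsq : (4 * η) ^ 2 = Gn E 0 X := sq_eq_Gn E (frey_dblDen_zero P K) h
  rw [frey_Gn_zero] at hsq
  have hGle : v (X * (X - α) * (X + β)) ≤ 1 := by
    rw [map_mul, map_mul]
    exact mul_le_one' (mul_le_one' hXle hXa) hXb
  have hηle : v η ≤ 1 := by
    have h1 : v η ^ 2 ≤ 1 := by
      have := congrArg v hsq
      rw [map_pow, map_mul, h4, one_mul] at this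
      rw [this]; exact hGle
    by_contra hcon
    rw [not_le] at hcon
    have : (1 : Γ₀) < v η ^ 2 := one_lt_pow₀ hcon (by norm_num)
    exact absurd h1 (not_le.mpr this)
  rcases hηle.lt_or_eq with hlt | heq
  · left
    have ha₁ : v E.a₁ ≤ 1 := by rw [hE, frey_a₁, map_one]
    apply polyX_unit v E h2 ha₁ (r := 0) hlt
    rw [← hXdef, frey_Gn'_zero]
    have hGlt : v (X * (X - α) * (X + β)) < 1 := by
      rw [← hsq, map_pow, map_mul, h4, one_mul]
      exact pow_lt_one₀ zero_le hlt (by norm_num)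
    rw [map_mul, map_mul] at hGlt
    rcases hXle.lt_or_eq with hX | hX
    · -- `X` small
      have h1 : v (X - α) = 1 := by
        rw [Valuation.map_sub_eq_of_lt_right v (by rw [hva]; exact hX), hva]
      have h2' : v (X + β) = 1 := by
        rw [Valuation.map_add_eq_of_lt_right v (by rw [hvb]; exact hX), hvb]
      have hmain : v ((X - α) * (X + β)) = 1 := by rw [map_mul, h1, h2', one_mul]
      have hs : v (X * (X + β) + X * (X - α)) < v ((X - α) * (X + β)) := by
        rw [hmain]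
        apply Valuation.map_add_lt v
        · rw [map_mul, h2', mul_one]; exact hX
        · rw [map_mul, h1, mul_one]; exact hX
      rw [add_assoc, Valuation.map_add_eq_of_lt_left v hs, hmain]
    · rcases hXa.lt_or_eq with hXa' | hXa'
      · -- `X - α` small
        have h2' : v (X + β) = 1 := by
          have e : X + β = (X - α) + γ := by rw [← hFLT]; ring
          rw [e, Valuation.map_add_eq_of_lt_right v (by rw [hvc]; exact hXa'), hvc]
        have hmain : v (X * (X + β)) = 1 := by rw [map_mul, hX, h2', one_mul]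
        have e : (X - α) * (X + β) + X * (X + β) + X * (X - α) =
            ((X - α) * (X + β) + X * (X - α)) + X * (X + β) := by ring
        have hs : v ((X - α) * (X + β) + X * (X - α)) < v (X * (X + β)) := by
          rw [hmain]
          apply Valuation.map_add_lt v
          · rw [map_mul, h2', mul_one]; exact hXa'
          · rw [map_mul, hX, one_mul]; exact hXa'
        rw [e, Valuation.map_add_eq_of_lt_right v hs, hmain]
      · -- `X + β` small
        have hXb' : v (X + β) < 1 := by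
          rw [hX, hXa', one_mul, one_mul] at hGlt
          exact hGlt
        have hmain : v (X * (X - α)) = 1 := by rw [map_mul, hX, hXa', one_mul]
        have hs : v ((X - α) * (X + β) + X * (X + β)) < v (X * (X - α)) := by
          rw [hmain]
          apply Valuation.map_add_lt v
          · rw [map_mul, hXa', one_mul]; exact hXb'
          · rw [map_mul, hX, one_mul]; exact hXb'
        rw [Valuation.map_add_eq_of_lt_right v hs, hmain]
  · right; exact heq

end frey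

end Fermat.Agent.S05.NodeModel
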