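import Mathlib

/-!
# S05, step (D): points with the same nonsingular reduction

`W` is a Weierstrass curve over a field `L` with a valuation `v` such that the coefficients of `W`
are `v`-integral. The *kernel of reduction* is `{O} ∪ {(X, Y) | 1 < v X}`.

* `sub_mem_kernel_of_slope`, `sub_mem_kernel_of_tangent` : if the chord through `P'` and `-P`
  (resp. the tangent) has non-integral slope, then `P' - P` lies in the kernel of reduction.
* `sub_mem_kernel_of_same_reduction` : two integral points with the same nonsingular reduction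
  differ by an element of the kernel of reduction.
* `sub_mem_kernel_of_node` : the analogous statement near the node of `Y² = X³ + a X² + b X`
  (`v a = 1`, `v b < 1`) for points with `v b < v x < 1`.
-/

open WeierstrassCurve WeierstrassCurve.Affine

namespace Fermat.Agent.S05

namespace SameRed

variable {L : Type*} [Field L] {Γ₀ : Type*} [LinearOrderedCommGroupWithZero Γ₀]
  (v : Valuation L Γ₀)

theorem val_two_le : v (2 : L) ≤ 1 := by
  have h : (2 : L) = 1 + 1 := by norm_num
  rw [h]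
  exact v.map_add_le (le_of_eq v.map_one) (le_of_eq v.map_one)

theorem val_three_le : v (3 : L) ≤ 1 := by
  have h : (3 : L) = 2 + 1 := by norm_num
  rw [h]
  exact v.map_add_le (val_two_le v) (le_of_eq v.map_one)

theorem val_mul_le_one {a b : L} (ha : v a ≤ 1) (hb : v b ≤ 1) : v (a * b) ≤ 1 := by
  rw [v.map_mul]
  exact mul_le_one' ha hb

theorem val_mul_lt_one {a b : L} (ha : v a ≤ 1) (hb : v b < 1) : v (a * b) < 1 := by
  rw [v.map_mul]
  exact lt_of_le_of_lt (mul_le_of_le_one_left' ha) hb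

theorem one_lt_sq {g : Γ₀} (hg : 1 < g) : g < g ^ 2 := by
  have h0 : (0 : Γ₀) < g := zero_lt_one.trans hg
  calc g = g * 1 := (mul_one g).symm
    _ < g * g := mul_lt_mul_of_pos_left hg h0
    _ = g ^ 2 := (sq g).symm

variable (W : WeierstrassCurve L)

/-- a non-integral slope gives a non-integral `X`-coordinate of the sum. -/
theorem one_lt_val_addX (h₁ : v W.a₁ ≤ 1) (h₂ : v W.a₂ ≤ 1) {x₁ x₂ ℓ : L}
    (hx₁ : v x₁ ≤ 1) (hx₂ : v x₂ ≤ 1) (hℓ : 1 < v ℓ) : 1 < v (W.toAffine.addX x₁ x₂ ℓ) := by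
  have hsq : v ℓ < v (ℓ ^ 2) := by
    rw [v.map_pow]
    exact one_lt_sq hℓ
  have hrest : v (W.a₁ * ℓ - W.a₂ - x₁ - x₂) ≤ v ℓ := by
    refine v.map_sub_le (v.map_sub_le (v.map_sub_le ?_ (h₂.trans hℓ.le)) (hx₁.trans hℓ.le))
      (hx₂.trans hℓ.le)
    rw [v.map_mul]
    exact mul_le_of_le_one_left' h₁
  have e : W.toAffine.addX x₁ x₂ ℓ = ℓ ^ 2 + (W.a₁ * ℓ - W.a₂ - x₁ - x₂) := by
    simp only [addX]
    ring
  rw [e, v.map_add_eq_of_lt_left (lt_of_le_of_lt hrest hsq)]
  exact hℓ.trans hsq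

theorem one_lt_val_div {a b : L} (hb : b ≠ 0) (hlt : v b < v a) : 1 < v (a / b) := by
  rw [v.map_div]
  have hb0 : (0 : Γ₀) < v b := zero_lt_iff.mpr ((v.ne_zero_iff).mpr hb)
  exact (one_lt_div₀ hb0).mpr hlt

end SameRed

open SameRed

variable {L : Type*} [Field L] [DecidableEq L] {Γ₀ : Type*} [LinearOrderedCommGroupWithZero Γ₀]
  (v : Valuation L Γ₀) (W : WeierstrassCurve L)

/-- **(D-core), chord case**: if the chord through `P' = (x', y')` and `-P = (x, negY x y)` has
non-integral slope (and `x`, `x'` are integral), then `P' - P` lies in the kernel of reduction. -/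
theorem sub_mem_kernel_of_slope (h₁ : v W.a₁ ≤ 1) (h₂ : v W.a₂ ≤ 1) {x y x' y' : L}
    (h : W.toAffine.Nonsingular x y) (h' : W.toAffine.Nonsingular x' y')
    (hx : v x ≤ 1) (hx' : v x' ≤ 1) (hne : x' ≠ x)
    (hsl : v (x' - x) < v (y' - W.toAffine.negY x y)) :
    ∃ (X Y : L) (hXY : W.toAffine.Nonsingular X Y),
      Point.some x' y' h' - Point.some x y h = Point.some X Y hXY ∧ 1 < v X := by
  rw [sub_eq_add_neg, Point.neg_some, Point.add_of_X_ne hne]
  refine ⟨_, _, _, rfl, ?_⟩
  apply one_lt_val_addX v W h₁ h₂ hx' hx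
  rw [slope_of_X_ne hne]
  exact one_lt_val_div v (sub_ne_zero.mpr hne) hsl

/-- **(D-core), tangent case**: `P' = (x, y') ≠ P = (x, y)` (so `P' = -P`); if the tangent at `P'`
has non-integral slope, then `P' - P = 2 P'` lies in the kernel of reduction. -/
theorem sub_mem_kernel_of_tangent (h₁ : v W.a₁ ≤ 1) (h₂ : v W.a₂ ≤ 1) {x y y' : L}
    (h : W.toAffine.Nonsingular x y) (h' : W.toAffine.Nonsingular x y')
    (hx : v x ≤ 1) (hne : y' ≠ y)
    (hsl : v (y' - y) < v (3 * x ^ 2 + 2 * W.a₂ * x + W.a₄ - W.a₁ * y')) :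
    ∃ (X Y : L) (hXY : W.toAffine.Nonsingular X Y),
      Point.some x y' h' - Point.some x y h = Point.some X Y hXY ∧ 1 < v X := by
  have hy' : y' = W.toAffine.negY x y := (Y_eq_of_X_eq h'.1 h.1 rfl).resolve_left hne
  have hneg : W.toAffine.negY x y' = y := by rw [hy', negY_negY]
  have hne' : y' ≠ W.toAffine.negY x (W.toAffine.negY x y) := by rwa [negY_negY]
  rw [sub_eq_add_neg, Point.neg_some, Point.add_of_Y_ne hne']
  refine ⟨_, _, _, rfl, ?_⟩
  apply one_lt_val_addX v W h₁ h₂ hx hx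
  rw [slope_of_Y_ne rfl hne', hneg]
  exact one_lt_val_div v (sub_ne_zero.mpr hne) hsl

/-- **(D)**: two integral points of `W` with the same *nonsingular* reduction differ by an element
of the kernel of reduction (`O`, or a point with non-integral `X`-coordinate). -/
theorem sub_mem_kernel_of_same_reduction (h₁ : v W.a₁ ≤ 1) (h₂ : v W.a₂ ≤ 1) (h₃ : v W.a₃ ≤ 1)
    {x y x' y' : L} (h : W.toAffine.Nonsingular x y) (h' : W.toAffine.Nonsingular x' y')
    (hx : v x ≤ 1) (hy : v y ≤ 1) (hdx : v (x' - x) < 1) (hdy : v (y' - y) < 1)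
    (hns : v (W.a₁ * y - (3 * x ^ 2 + 2 * W.a₂ * x + W.a₄)) = 1 ∨
      v (2 * y + W.a₁ * x + W.a₃) = 1) :
    Point.some x' y' h' - Point.some x y h = 0 ∨
      ∃ (X Y : L) (hXY : W.toAffine.Nonsingular X Y),
        Point.some x' y' h' - Point.some x y h = Point.some X Y hXY ∧ 1 < v X := by
  have E := (equation_iff _ _).mp h.1
  have E' := (equation_iff _ _).mp h'.1
  have key : (y' - y) * ((y' - y) + (2 * y + W.a₁ * x + W.a₃))
      = -(x' - x) * ((W.a₁ * y - (3 * x ^ 2 + 2 * W.a₂ * x + W.a₄)) + W.a₁ * (y' - y)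
          - (3 * x + W.a₂) * (x' - x) - (x' - x) ^ 2) := by
    linear_combination E' - E
  have hx' : v x' ≤ 1 := by
    have e : x' = x + (x' - x) := by ring
    rw [e]
    exact v.map_add_le hx hdx.le
  have hWY : v (2 * y + W.a₁ * x + W.a₃) ≤ 1 :=
    v.map_add_le (v.map_add_le (val_mul_le_one v (val_two_le v) hy) (val_mul_le_one v h₁ hx)) h₃
  have hnegY : y' - W.toAffine.negY x y = (y' - y) + (2 * y + W.a₁ * x + W.a₃) := by
    simp only [negY]
    ring
  by_cases hxx : x' = x
  · subst hxx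
    by_cases hyy : y' = y
    · subst hyy
      exact Or.inl (sub_self _)
    · right
      have hdy0 : y' - y ≠ 0 := sub_ne_zero.mpr hyy
      rw [sub_self, neg_zero, zero_mul] at key
      have h0 : (y' - y) + (2 * y + W.a₁ * x' + W.a₃) = 0 :=
        (mul_eq_zero.mp key).resolve_left hdy0
      have hWYlt : v (2 * y + W.a₁ * x' + W.a₃) < 1 := by
        have e : 2 * y + W.a₁ * x' + W.a₃ = -(y' - y) := by linear_combination h0
        rw [e, v.map_neg]
        exact hdy
      have hWX : v (W.a₁ * y - (3 * x' ^ 2 + 2 * W.a₂ * x' + W.a₄)) = 1 :=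
        hns.resolve_right (ne_of_lt hWYlt)
      refine sub_mem_kernel_of_tangent v W h₁ h₂ h h' hx hyy ?_
      have e : 3 * x' ^ 2 + 2 * W.a₂ * x' + W.a₄ - W.a₁ * y'
          = -((W.a₁ * y - (3 * x' ^ 2 + 2 * W.a₂ * x' + W.a₄)) + W.a₁ * (y' - y)) := by ring
      rw [e, v.map_neg, v.map_add_eq_of_lt_left (by rw [hWX]; exact val_mul_lt_one v h₁ hdy), hWX]
      exact hdy
  · right
    refine sub_mem_kernel_of_slope v W h₁ h₂ h h' hx hx' hxx ?_
    rw [hnegY]
    have hdx0 : x' - x ≠ 0 := sub_ne_zero.mpr hxx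
    by_cases hWY1 : v (2 * y + W.a₁ * x + W.a₃) = 1
    · rw [v.map_add_eq_of_lt_right (by rw [hWY1]; exact hdy), hWY1]
      exact hdx
    · have hWYlt : v (2 * y + W.a₁ * x + W.a₃) < 1 := lt_of_le_of_ne hWY hWY1
      have hWX : v (W.a₁ * y - (3 * x ^ 2 + 2 * W.a₂ * x + W.a₄)) = 1 := hns.resolve_right hWY1
      have hrest : v (W.a₁ * (y' - y) - (3 * x + W.a₂) * (x' - x) - (x' - x) ^ 2) < 1 := by
        have t1 : v (W.a₁ * (y' - y)) < 1 := val_mul_lt_one v h₁ hdy
        have t2 : v ((3 * x + W.a₂) * (x' - x)) < 1 :=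
          val_mul_lt_one v (v.map_add_le (val_mul_le_one v (val_three_le v) hx) h₂) hdx
        have t3 : v ((x' - x) ^ 2) < 1 := by
          rw [sq]
          exact val_mul_lt_one v hdx.le hdx
        exact lt_of_le_of_lt (v.map_sub _ _)
          (max_lt (lt_of_le_of_lt (v.map_sub _ _) (max_lt t1 t2)) t3)
      have hU : v ((W.a₁ * y - (3 * x ^ 2 + 2 * W.a₂ * x + W.a₄)) + W.a₁ * (y' - y)
          - (3 * x + W.a₂) * (x' - x) - (x' - x) ^ 2) = 1 := by
        have e : (W.a₁ * y - (3 * x ^ 2 + 2 * W.a₂ * x + W.a₄)) + W.a₁ * (y' - y)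
            - (3 * x + W.a₂) * (x' - x) - (x' - x) ^ 2
            = (W.a₁ * y - (3 * x ^ 2 + 2 * W.a₂ * x + W.a₄))
              + (W.a₁ * (y' - y) - (3 * x + W.a₂) * (x' - x) - (x' - x) ^ 2) := by ring
        rw [e, v.map_add_eq_of_lt_left (by rw [hWX]; exact hrest), hWX]
      have hval := congrArg v key
      rw [v.map_mul, v.map_mul, v.map_neg, hU, mul_one] at hval
      have hdxpos : (0 : Γ₀) < v (x' - x) := zero_lt_iff.mpr ((v.ne_zero_iff).mpr hdx0)
      have hpos : (0 : Γ₀) < v ((y' - y) + (2 * y + W.a₁ * x + W.a₃)) := by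
        rw [zero_lt_iff]
        intro h0
        rw [h0, mul_zero] at hval
        exact hdxpos.ne' hval.symm
      calc v (x' - x) = v (y' - y) * v ((y' - y) + (2 * y + W.a₁ * x + W.a₃)) := hval.symm
        _ < 1 * v ((y' - y) + (2 * y + W.a₁ * x + W.a₃)) := mul_lt_mul_of_pos_right hdy hpos
        _ = v ((y' - y) + (2 * y + W.a₁ * x + W.a₃)) := one_mul _

/-- **(M), final step**: on `Y² = X³ + a X² + b X` with `v a = 1`, `v b < 1`, `v 2 = 1`, two points
`(x, y)`, `(x', y')` with `v b < v x < 1` whose coordinates are multiplicatively congruent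
(`v (x' - x) < v x`, `v (y' - y) < v y`) differ by an element of the kernel of reduction. -/
theorem sub_mem_kernel_of_node (ha₁ : W.a₁ = 0) (ha₃ : W.a₃ = 0) (ha₆ : W.a₆ = 0)
    (h₂ : v W.a₂ = 1) (hv2 : v (2 : L) = 1)
    {x y x' y' : L} (h : W.toAffine.Nonsingular x y) (h' : W.toAffine.Nonsingular x' y')
    (hxlt : v x < 1) (hxgt : v W.a₄ < v x) (hdx : v (x' - x) < v x) (hdy : v (y' - y) < v y) :
    Point.some x' y' h' - Point.some x y h = 0 ∨
      ∃ (X Y : L) (hXY : W.toAffine.Nonsingular X Y),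
        Point.some x' y' h' - Point.some x y h = Point.some X Y hXY ∧ 1 < v X := by
  have E := (equation_iff _ _).mp h.1
  have E' := (equation_iff _ _).mp h'.1
  rw [ha₁, ha₃, ha₆] at E E'
  have hxpos : (0 : Γ₀) < v x := lt_of_le_of_lt zero_le hxgt
  -- `v y = v x`
  have hyx : v y = v x := by
    have e : y ^ 2 = x * (W.a₂ * x + (x ^ 2 + W.a₄)) := by linear_combination E
    have hsmall : v (x ^ 2 + W.a₄) < v (W.a₂ * x) := by
      rw [v.map_mul, h₂, one_mul]
      refine lt_of_le_of_lt (v.map_add _ _) (max_lt ?_ hxgt)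
      rw [sq, v.map_mul]
      calc v x * v x < 1 * v x := mul_lt_mul_of_pos_right hxlt hxpos
        _ = v x := one_mul _
    have hv := congrArg v e
    rw [v.map_pow, v.map_mul, v.map_add_eq_of_lt_left hsmall, v.map_mul, h₂, one_mul, ← sq] at hv
    exact (pow_left_inj₀ zero_le zero_le two_ne_zero).mp hv
  have hx : v x ≤ 1 := hxlt.le
  have hx' : v x' ≤ 1 := by
    have e : x' = x + (x' - x) := by ring
    rw [e]
    exact v.map_add_le hx (hdx.le.trans hx)
  have hnegY : y' - W.toAffine.negY x y = (y' - y) + 2 * y := by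
    simp only [negY, ha₁, ha₃]
    ring
  have h2y : v (2 * y) = v y := by rw [v.map_mul, hv2, one_mul]
  have hsum : v ((y' - y) + 2 * y) = v y := by
    rw [v.map_add_eq_of_lt_right (by rw [h2y]; exact hdy), h2y]
  by_cases hxx : x' = x
  · subst hxx
    by_cases hyy : y' = y
    · subst hyy
      exact Or.inl (sub_self _)
    · exfalso
      have h0 : (y' - y) * ((y' - y) + 2 * y) = 0 := by linear_combination E' - E
      have h1 : (y' - y) + 2 * y = 0 := (mul_eq_zero.mp h0).resolve_left (sub_ne_zero.mpr hyy)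
      rw [h1, v.map_zero, hyx] at hsum
      exact hxpos.ne' hsum.symm
  · right
    refine sub_mem_kernel_of_slope v W (by rw [ha₁, v.map_zero]; exact zero_le) h₂.le h h' hx hx'
      hxx ?_
    rw [hnegY, hsum, hyx]
    exact hdx

/-- **(M), final step, model-free**: for any integral Weierstrass model and `v 2 = 1`, write
`Y(P) = 2 y + a₁ x + a₃`. If `P = (x, y)`, `P' = (x', y')` are integral points with
`v (x' - x) < v (Y P)` and `v (Y P' - Y P) < v (Y P)`, then `P' - P` lies in the kernel of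
reduction. (Near a node at `x = r` one has `v (Y P) = v (x - r)`, so the hypotheses say that the
coordinates `x - r` and `Y` of `P` and `P'` are multiplicatively congruent.) -/
theorem sub_mem_kernel_of_mul_congr (h₁ : v W.a₁ ≤ 1) (h₂ : v W.a₂ ≤ 1) (hv2 : v (2 : L) = 1)
    {x y x' y' : L} (h : W.toAffine.Nonsingular x y) (h' : W.toAffine.Nonsingular x' y')
    (hx : v x ≤ 1) (hx' : v x' ≤ 1)
    (hdx : v (x' - x) < v (2 * y + W.a₁ * x + W.a₃))
    (hdY : v ((2 * y' + W.a₁ * x' + W.a₃) - (2 * y + W.a₁ * x + W.a₃))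
      < v (2 * y + W.a₁ * x + W.a₃)) :
    Point.some x' y' h' - Point.some x y h = 0 ∨
      ∃ (X Y : L) (hXY : W.toAffine.Nonsingular X Y),
        Point.some x' y' h' - Point.some x y h = Point.some X Y hXY ∧ 1 < v X := by
  have h2 : (2 : L) ≠ 0 := by
    intro h0
    rw [h0, v.map_zero] at hv2
    exact zero_ne_one hv2
  -- `2 * (y' - negY x y) = 2 Y + (Y' - Y) - a₁ (x' - x)`
  have hkey : 2 * (y' - W.toAffine.negY x y)
      = 2 * (2 * y + W.a₁ * x + W.a₃)
        + (((2 * y' + W.a₁ * x' + W.a₃) - (2 * y + W.a₁ * x + W.a₃)) - W.a₁ * (x' - x)) := by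
    simp only [negY]
    ring
  have hsmall : v (((2 * y' + W.a₁ * x' + W.a₃) - (2 * y + W.a₁ * x + W.a₃)) - W.a₁ * (x' - x))
      < v (2 * (2 * y + W.a₁ * x + W.a₃)) := by
    rw [v.map_mul, hv2, one_mul]
    refine lt_of_le_of_lt (v.map_sub _ _) (max_lt hdY ?_)
    rw [v.map_mul]
    exact lt_of_le_of_lt (mul_le_of_le_one_left' h₁) hdx
  have hval : v (y' - W.toAffine.negY x y) = v (2 * y + W.a₁ * x + W.a₃) := by
    have := congrArg v hkey
    rwa [v.map_mul, hv2, one_mul, v.map_add_eq_of_lt_left hsmall, v.map_mul, hv2, one_mul] at this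
  by_cases hxx : x' = x
  · subst hxx
    by_cases hyy : y' = y
    · subst hyy
      exact Or.inl (sub_self _)
    · exfalso
      -- then `y' = negY x' y`, so `y' - negY x' y = 0`
      have hy' : y' = W.toAffine.negY x' y := (Y_eq_of_X_eq h'.1 h.1 rfl).resolve_left hyy
      rw [hy', sub_self, v.map_zero] at hval
      rw [← hval] at hdx
      exact not_lt_zero hdx
  · right
    refine sub_mem_kernel_of_slope v W h₁ h₂ h h' hx hx' hxx ?_
    rw [hval]
    exact hdx

end Fermat.Agent.S05
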