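import Mathlib
import Fermat.Agent.S05.NodeModel
import Fermat.Agent.S05.KerRed
import Fermat.Agent.S05.SameRed

/-!
# S05: inertia acts trivially on `p`-torsion at a node (`q ∣ abc`)

`BadCore.node_fixed_coord`: let `E` be a Weierstrass curve with integral coefficients over a valued
field, `r` a root of the 2-division polynomial at which the normal form
`Y² = X³ + An X² + Bn X` has `v An = 1`, `v Bn = v u ^ p < 1`, and `σ` a ring endomorphism which
moves integral elements by elements of the maximal ideal and fixes `u`, `r`, `a₁`, `a₃`.  If a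
`p`-torsion point `T = (x, y)` is either off the node (`v (4 (x - r)) = 1`) or in an annulus
`v (4 (x - r)) = v u ^ (2 j)` strictly between `v Bn` and `1`, then `σ T = T`.
-/

set_option autoImplicit false

namespace Fermat.Agent.S05

namespace BadCore

open WeierstrassCurve WeierstrassCurve.Affine Fermat.Agent.S05.XPair Fermat.Agent.S05.NodeModel

variable {K : Type*} [Field K] {Γ₀ : Type*} [LinearOrderedCommGroupWithZero Γ₀]

/-- The `y`-coordinate of an integral point of an integral Weierstrass equation is integral. -/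
theorem val_y_le_one (v : Valuation K Γ₀) (W : WeierstrassCurve K) (h₁ : v W.a₁ ≤ 1)
    (h₂ : v W.a₂ ≤ 1) (h₃ : v W.a₃ ≤ 1) (h₄ : v W.a₄ ≤ 1)
    (h₆ : v W.a₆ ≤ 1) {x y : K} (h : W.toAffine.Equation x y) (hx : v x ≤ 1) : v y ≤ 1 := by
  by_contra hy
  rw [not_le] at hy
  have hpos : 0 < v y := zero_lt_one.trans hy
  rw [Affine.equation_iff] at h
  have hy2 : v y < v (y ^ 2) := by
    rw [map_pow, sq]
    exact lt_mul_of_one_lt_left hpos hy
  have hl : v (y ^ 2 + W.a₁ * x * y + W.a₃ * y) = v (y ^ 2) := by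
    rw [add_assoc]
    apply v.map_add_eq_of_lt_left
    refine v.map_add_lt (lt_of_le_of_lt ?_ hy2) (lt_of_le_of_lt ?_ hy2)
    · rw [map_mul, map_mul]
      exact mul_le_of_le_one_left hpos.le (mul_le_one' h₁ hx)
    · rw [map_mul]
      exact mul_le_of_le_one_left hpos.le h₃
  have hr : v (x ^ 3 + W.a₂ * x ^ 2 + W.a₄ * x + W.a₆) ≤ 1 := by
    refine v.map_add_le (v.map_add_le (v.map_add_le ?_ ?_) ?_) h₆
    · rw [map_pow]; exact pow_le_one' hx 3
    · rw [map_mul, map_pow]; exact mul_le_one' h₂ (pow_le_one' hx 2)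
    · rw [map_mul]; exact mul_le_one' h₄ hx
  rw [h] at hl
  rw [hl] at hr
  exact absurd (hy.trans hy2) (not_lt.mpr hr)

/-- An endomorphism fixing `u` and moving integral elements by elements of the maximal ideal
moves every element whose valuation is a power of `v u` by a strictly smaller element. -/
theorem val_map_sub_lt (v : Valuation K Γ₀) (σ : K →+* K)
    (hσ : ∀ z : K, v z ≤ 1 → v (σ z - z) < 1) {u : K} (hu0 : u ≠ 0) (hσu : σ u = u) {z : K}
    {j : ℕ} (hz : v z = v u ^ j) : v (σ z - z) < v z := by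
  have huj : u ^ j ≠ 0 := pow_ne_zero _ hu0
  have hvuj : v (u ^ j) ≠ 0 := by simpa using huj
  have hw : v (z / u ^ j) ≤ 1 := by
    rw [map_div₀, map_pow, hz, div_self (by simpa using hvuj)]
  have h1 := hσ _ hw
  have e : σ z - z = u ^ j * (σ (z / u ^ j) - z / u ^ j) := by
    rw [map_div₀, map_pow, hσu]
    field_simp
  rw [e, map_mul, hz, map_pow]
  have hpos : 0 < v u ^ j := by
    rw [← map_pow]
    exact zero_lt_iff.mpr hvuj
  calc v u ^ j * v (σ (z / u ^ j) - z / u ^ j) < v u ^ j * 1 :=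
        mul_lt_mul_of_pos_left h1 hpos
    _ = v u ^ j := mul_one _

variable [DecidableEq K]

/-- A difference of two `p`-torsion points which lies in the kernel of reduction vanishes. -/
theorem eq_of_sub_mem_kernel (v : Valuation K Γ₀) (E : WeierstrassCurve K)
    (h₁ : v E.a₁ ≤ 1) (h₂ : v E.a₂ ≤ 1) (h₃ : v E.a₃ ≤ 1) (h₄ : v E.a₄ ≤ 1) (h₆ : v E.a₆ ≤ 1)
    {p : ℕ} (hp : p.Prime) (hp5 : 5 ≤ p) (hvp : v (p : K) = 1)
    {T T' : E.toAffine.Point} (hT : p • T = 0) (hT' : p • T' = 0)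
    (hker : T' - T = 0 ∨ ∃ (X Y : K) (hXY : E.toAffine.Nonsingular X Y),
      T' - T = Point.some X Y hXY ∧ 1 < v X) : T' = T := by
  rcases hker with h0 | ⟨X, Y, hXY, hsub, hX⟩
  · exact sub_eq_zero.mp h0
  · exfalso
    refine no_torsion_in_kernel v E h₁ h₂ h₃ h₄ h₆ hp hp5 hvp hXY hX ?_
    rw [← hsub, smul_sub, hT, hT', sub_zero]

/-- **Inertia fixes the `p`-torsion points at a node**, in coordinates, given the classification
`hκ` of the position of the point relative to the node. -/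
theorem node_fixed_coord (v : Valuation K Γ₀) (E : WeierstrassCurve K)
    (h₁ : v E.a₁ ≤ 1) (h₂ : v E.a₂ ≤ 1) (h₃ : v E.a₃ ≤ 1) (h₄ : v E.a₄ ≤ 1) (h₆ : v E.a₆ ≤ 1)
    (h2 : v (2 : K) = 1) {p : ℕ} (hp : p.Prime) (hp5 : 5 ≤ p) (hvp : v (p : K) = 1)
    {r : K} (hr : dblDen E r = 0) (hvr : v r ≤ 1) (hA : v (An E r) = 1)
    {u : K} (hu1 : v u < 1) (hu0 : u ≠ 0) (hB : v (Bn E r) = v u ^ p)
    (σ : K →+* K) (hσ : ∀ z : K, v z ≤ 1 → v (σ z - z) < 1) (hσu : σ u = u) (hσr : σ r = r)
    (hσa₁ : σ E.a₁ = E.a₁) (hσa₃ : σ E.a₃ = E.a₃)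
    {x y : K} (h : E.toAffine.Nonsingular x y) (h' : E.toAffine.Nonsingular (σ x) (σ y))
    (hT : p • (Point.some x y h : E.toAffine.Point) = 0)
    (hT' : p • (Point.some (σ x) (σ y) h' : E.toAffine.Point) = 0)
    (hκ : v (4 * (x - r)) = 1 ∨ ∃ j : ℕ, v (4 * (x - r)) = v u ^ j ∧
      v (Bn E r) < v (4 * (x - r)) ∧ v (4 * (x - r)) < 1) :
    Point.some (σ x) (σ y) h' = Point.some x y h := by
  obtain ⟨h4, h8, h16⟩ := v_ofNat_pow v h2
  have hp0 : p ≠ 0 := hp.ne_zero
  have hBlt : v (Bn E r) < 1 := by rw [hB]; exact pow_lt_one₀ zero_le hu1 hp0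
  have hXle : v (4 * (x - r)) ≤ 1 := by
    rcases hκ with h0 | ⟨j, -, -, h0⟩
    · exact h0.le
    · exact h0.le
  have hxr : v (x - r) ≤ 1 := by rwa [map_mul, h4, one_mul] at hXle
  have hx : v x ≤ 1 := by
    have e : x = (x - r) + r := by ring
    rw [e]
    exact v.map_add_le hxr hvr
  have hy : v y ≤ 1 := val_y_le_one v E h₁ h₂ h₃ h₄ h₆ h.1 hx
  have hdx : v (σ x - x) < 1 := hσ x hx
  have hdy : v (σ y - y) < 1 := hσ y hy
  have hx' : v (σ x) ≤ 1 := by
    have e : σ x = (σ x - x) + x := by ring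
    rw [e]
    exact v.map_add_le hdx.le hx
  refine eq_of_sub_mem_kernel v E h₁ h₂ h₃ h₄ h₆ hp hp5 hvp hT hT' ?_
  rcases hκ with hX | ⟨j, hXj, hBX, hX1⟩
  · -- off the node: nonsingular reduction
    have hns := nonsing_of_Xn_unit v E h2 h₁ hr hA hBlt h.1 hX
    exact sub_mem_kernel_of_same_reduction v E h₁ h₂ h₃ h h' hx hy hdx hdy hns
  · -- in the annulus
    set X := 4 * (x - r) with hXdef
    set η := 2 * y + E.a₁ * x + E.a₃ with hηdef
    have hXpos : 0 < v X := lt_of_le_of_lt zero_le hBX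
    have hX0 : X ≠ 0 := by
      intro h0
      rw [h0, map_zero] at hXpos
      exact lt_irrefl _ hXpos
    have hsq : (4 * η) ^ 2 = Gn E r X := sq_eq_Gn E hr h.1
    have hfac : Gn E r X = X * (X ^ 2 + An E r * X + Bn E r) := by
      simp only [Gn]; ring
    -- `v (X² + An X + Bn) = v X`
    have hQ : v (X ^ 2 + An E r * X + Bn E r) = v X := by
      have hAX : v (An E r * X) = v X := by rw [map_mul, hA, one_mul]
      have hX2 : v (X ^ 2) < v (An E r * X) := by
        rw [hAX, map_pow, sq]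
        calc v X * v X < v X * 1 := mul_lt_mul_of_pos_left hX1 hXpos
          _ = v X := mul_one _
      have hB' : v (Bn E r) < v (X ^ 2 + An E r * X) := by
        rw [v.map_add_eq_of_lt_right hX2, hAX]
        exact hBX
      rw [v.map_add_eq_of_lt_left hB', v.map_add_eq_of_lt_right hX2, hAX]
    have hη : v η = v X := by
      have h5 := congrArg v hsq
      rw [hfac, map_pow, map_mul, h4, one_mul, map_mul, hQ, ← sq] at h5
      exact (pow_left_inj₀ zero_le zero_le (by norm_num)).mp h5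
    have hηj : v η = v u ^ j := hη.trans hXj
    have hxrj : v (x - r) = v u ^ j := by
      have : v X = v (x - r) := by rw [hXdef, map_mul, h4, one_mul]
      rw [← this]
      exact hXj
    have hd1 := val_map_sub_lt v σ hσ hu0 hσu hxrj
    have hd2 := val_map_sub_lt v σ hσ hu0 hσu hηj
    have e1 : σ (x - r) - (x - r) = σ x - x := by
      rw [map_sub, hσr]; ring
    have e2 : σ η - η = (2 * σ y + E.a₁ * σ x + E.a₃) - (2 * y + E.a₁ * x + E.a₃) := by
      rw [hηdef, map_add, map_add, map_mul, map_mul, hσa₁, hσa₃, map_ofNat]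
    rw [e1, hxrj, ← hηj] at hd1
    rw [e2] at hd2
    exact sub_mem_kernel_of_mul_congr v E h₁ h₂ h2 h h' hx hx' hd1 hd2

end BadCore

end Fermat.Agent.S05
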