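import Mathlib
import Fermat.Prelude.Def_FLTPrelim_Ramification

/-!
# S05: elementary API for the inertia subgroup of a valuation subring

For a valuation subring `A` of `L` (a field extension of `K`) and `σ ∈ A.inertiaSubgroupIn K`:
`σ` preserves `A`, preserves the valuation, and `σ x - x` is a nonunit of `A` for `x ∈ A`.
-/

set_option autoImplicit false

namespace Fermat.Agent.S05.InertiaAPI

open scoped Pointwise

variable {K L : Type*} [Field K] [Field L] [Algebra K L] {A : ValuationSubring L}
  {σ : L ≃ₐ[K] L}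

theorem mem_decompositionSubgroup (hσ : σ ∈ A.inertiaSubgroupIn K) :
    σ ∈ A.decompositionSubgroup K := by
  obtain ⟨τ, -, rfl⟩ := hσ
  exact τ.2

theorem smul_eq (hσ : σ ∈ A.inertiaSubgroupIn K) : σ • A = A :=
  mem_decompositionSubgroup hσ

theorem inv_mem_inertia (hσ : σ ∈ A.inertiaSubgroupIn K) : σ⁻¹ ∈ A.inertiaSubgroupIn K :=
  Subgroup.inv_mem _ hσ

theorem apply_mem (hσ : σ ∈ A.inertiaSubgroupIn K) {x : L} (hx : x ∈ A) : σ x ∈ A := by
  have h := ValuationSubring.smul_mem_pointwise_smul σ x A hx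
  rwa [smul_eq hσ] at h

theorem apply_mem_iff (hσ : σ ∈ A.inertiaSubgroupIn K) {x : L} : σ x ∈ A ↔ x ∈ A := by
  refine ⟨fun h => ?_, apply_mem hσ⟩
  have := apply_mem (inv_mem_inertia hσ) h
  simpa using this

/-- Inertia acts trivially on the residue field: `σ x - x` is a nonunit for integral `x`. -/
theorem apply_sub_mem_nonunits (hσ : σ ∈ A.inertiaSubgroupIn K) {x : L} (hx : x ∈ A) :
    σ x - x ∈ A.nonunits := by
  obtain ⟨τ, hτ, rfl⟩ := hσ
  have h1 : MulSemiringAction.toRingAut (A.decompositionSubgroup K)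
      (IsLocalRing.ResidueField A) τ = 1 := hτ
  have h2 : τ • IsLocalRing.residue A ⟨x, hx⟩ = IsLocalRing.residue A ⟨x, hx⟩ := by
    have := congrArg (fun f => f (IsLocalRing.residue A ⟨x, hx⟩)) h1
    simpa using this
  rw [← IsLocalRing.ResidueField.residue_smul] at h2
  have h3 : τ • (⟨x, hx⟩ : A) - ⟨x, hx⟩ ∈ IsLocalRing.maximalIdeal A := by
    rw [← Ideal.Quotient.eq]
    exact h2
  exact ValuationSubring.coe_mem_nonunits_iff.mpr h3

/-- Elements of the inertia group are monotone for the valuation. -/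
theorem valuation_apply_le (hσ : σ ∈ A.inertiaSubgroupIn K) {x y : L}
    (hxy : A.valuation x ≤ A.valuation y) : A.valuation (σ x) ≤ A.valuation (σ y) := by
  by_cases hy : y = 0
  · subst hy
    have hx : x = 0 := by simpa using hxy
    simp [hx]
  · have hy0 : 0 < A.valuation y := zero_lt_iff.mpr (by simpa using hy)
    have h1 : A.valuation (x / y) ≤ 1 := by
      rw [map_div₀]
      exact (div_le_one₀ hy0).mpr hxy
    rw [ValuationSubring.valuation_le_one_iff] at h1
    have h2 := apply_mem hσ h1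
    rw [map_div₀, ← ValuationSubring.valuation_le_one_iff, map_div₀] at h2
    have hy' : 0 < A.valuation (σ y) := zero_lt_iff.mpr (by simpa using hy)
    exact (div_le_one₀ hy').mp h2

theorem valuation_apply_lt (hσ : σ ∈ A.inertiaSubgroupIn K) {x y : L}
    (hxy : A.valuation x < A.valuation y) : A.valuation (σ x) < A.valuation (σ y) := by
  by_contra hcon
  rw [not_lt] at hcon
  have h3 : A.valuation (σ⁻¹ (σ y)) ≤ A.valuation (σ⁻¹ (σ x)) :=
    valuation_apply_le (inv_mem_inertia hσ) hcon
  have e : ∀ z : L, σ⁻¹ (σ z) = z := fun z => σ.symm_apply_apply z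
  rw [e, e] at h3
  exact absurd hxy (not_lt.mpr h3)

/-- An automorphism has finite order on each algebraic element. -/
theorem exists_pow_apply_eq [Algebra.IsAlgebraic K L] (σ : L ≃ₐ[K] L) (x : L) :
    ∃ n : ℕ, 0 < n ∧ (σ ^ n) x = x := by
  classical
  have hx : IsAlgebraic K x := Algebra.IsAlgebraic.isAlgebraic x
  set S := (minpoly K x).rootSet L with hS
  have hfin : S.Finite := Polynomial.rootSet_finite _ _
  have hmem : ∀ n : ℕ, (σ ^ n) x ∈ S := by
    intro n
    rw [hS, Polynomial.mem_rootSet]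
    refine ⟨minpoly.ne_zero hx.isIntegral, ?_⟩
    have : Polynomial.aeval ((σ ^ n) x) (minpoly K x) = (σ ^ n) (Polynomial.aeval x (minpoly K x)) := by
      change Polynomial.aeval (((σ ^ n : L ≃ₐ[K] L) : L →ₐ[K] L) x) (minpoly K x) = _
      rw [Polynomial.aeval_algHom_apply]
      rfl
    rw [this, minpoly.aeval, map_zero]
  obtain ⟨m, n, hmn, h⟩ : ∃ m n : ℕ, m < n ∧ (σ ^ m) x = (σ ^ n) x := by
    by_contra hcon
    push Not at hcon
    have hinj : Function.Injective (fun n : ℕ => (⟨(σ ^ n) x, hmem n⟩ : S)) := by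
      intro m n hmn
      have h' : (σ ^ m) x = (σ ^ n) x := congrArg Subtype.val hmn
      rcases lt_trichotomy m n with h1 | h1 | h1
      · exact absurd h' (hcon m n h1)
      · exact h1
      · exact absurd h'.symm (hcon n m h1)
    have := hfin.to_subtype
    exact not_injective_infinite_finite _ hinj
  refine ⟨n - m, by omega, ?_⟩
  have e : σ ^ n = σ ^ m * σ ^ (n - m) := by
    rw [← pow_add]; congr 1; omega
  rw [e, AlgEquiv.mul_apply] at h
  exact ((σ ^ m).injective h).symm

/-- Inertia preserves the valuation (for algebraic extensions). -/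
theorem valuation_apply [Algebra.IsAlgebraic K L] (hσ : σ ∈ A.inertiaSubgroupIn K) (x : L) :
    A.valuation (σ x) = A.valuation x := by
  obtain ⟨n, hn, hnx⟩ := exists_pow_apply_eq σ x
  have hmem : ∀ k : ℕ, σ ^ k ∈ A.inertiaSubgroupIn K := fun k => Subgroup.pow_mem _ hσ k
  rcases lt_trichotomy (A.valuation (σ x)) (A.valuation x) with h | h | h
  · exfalso
    have key : ∀ k : ℕ, A.valuation ((σ ^ (k + 1)) x) < A.valuation x := by
      intro k
      induction k with
      | zero => simpa using h
      | succ k ih =>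
        have := valuation_apply_lt hσ ih
        rw [pow_succ' σ (k + 1), AlgEquiv.mul_apply]
        exact this.trans h
    have := key (n - 1)
    rw [Nat.sub_add_cancel hn, hnx] at this
    exact lt_irrefl _ this
  · exact h
  · exfalso
    have key : ∀ k : ℕ, A.valuation x < A.valuation ((σ ^ (k + 1)) x) := by
      intro k
      induction k with
      | zero => simpa using h
      | succ k ih =>
        have := valuation_apply_lt hσ ih
        rw [pow_succ' σ (k + 1), AlgEquiv.mul_apply]
        exact h.trans this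
    have := key (n - 1)
    rw [Nat.sub_add_cancel hn, hnx] at this
    exact lt_irrefl _ this

section Prime

variable {L : Type*} [Field L] {A : ValuationSubring L} {q : ℕ}

theorem intCast_mem_nonunits_of_dvd (hA : A.LiesOverPrime q) {n : ℤ} (h : (q : ℤ) ∣ n) :
    (n : L) ∈ A.nonunits := by
  obtain ⟨k, rfl⟩ := h
  have hq : A.valuation (q : L) < 1 := A.mem_nonunits_iff.mp hA
  have hk : A.valuation (k : L) ≤ 1 := (A.valuation_le_one_iff _).mpr (intCast_mem A k)
  rw [A.mem_nonunits_iff]
  push_cast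
  rw [map_mul]
  exact lt_of_le_of_lt (mul_le_mul' le_rfl hk) (by rwa [mul_one])

theorem intCast_mem_nonunits_iff (hq : q.Prime) (hA : A.LiesOverPrime q) {n : ℤ} :
    (n : L) ∈ A.nonunits ↔ (q : ℤ) ∣ n := by
  refine ⟨fun h => ?_, intCast_mem_nonunits_of_dvd hA⟩
  by_contra hn
  have hcop : IsCoprime (q : ℤ) n :=
    (Nat.prime_iff_prime_int.mp hq).coprime_iff_not_dvd.mpr hn
  obtain ⟨u, v, huv⟩ := hcop
  have h1 : ((u : L) * (q : L) + (v : L) * (n : L)) = 1 := by exact_mod_cast congrArg (Int.cast : ℤ → L) huv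
  have hq' : A.valuation (q : L) < 1 := A.mem_nonunits_iff.mp hA
  have hn' : A.valuation (n : L) < 1 := A.mem_nonunits_iff.mp h
  have hu : A.valuation (u : L) ≤ 1 := (A.valuation_le_one_iff _).mpr (intCast_mem A u)
  have hv : A.valuation (v : L) ≤ 1 := (A.valuation_le_one_iff _).mpr (intCast_mem A v)
  have h2 : A.valuation ((u : L) * (q : L) + (v : L) * (n : L)) < 1 := by
    refine lt_of_le_of_lt (A.valuation.map_add _ _) (max_lt ?_ ?_)
    · rw [map_mul]; exact lt_of_le_of_lt (mul_le_mul' hu le_rfl) (by rwa [one_mul])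
    · rw [map_mul]; exact lt_of_le_of_lt (mul_le_mul' hv le_rfl) (by rwa [one_mul])
  rw [h1, map_one] at h2
  exact lt_irrefl _ h2

theorem valuation_intCast_eq_one (hq : q.Prime) (hA : A.LiesOverPrime q) {n : ℤ}
    (hn : ¬ (q : ℤ) ∣ n) : A.valuation (n : L) = 1 := by
  have h1 : A.valuation (n : L) ≤ 1 := (A.valuation_le_one_iff _).mpr (intCast_mem A n)
  rcases lt_or_eq_of_le h1 with h | h
  · exact absurd ((intCast_mem_nonunits_iff hq hA).mp (A.mem_nonunits_iff.mpr h)) hn
  · exact h

theorem valuation_intCast_lt_one (hA : A.LiesOverPrime q) {n : ℤ}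
    (hn : (q : ℤ) ∣ n) : A.valuation (n : L) < 1 :=
  A.mem_nonunits_iff.mp (intCast_mem_nonunits_of_dvd hA hn)

end Prime

end Fermat.Agent.S05.InertiaAPI
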