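import Mathlib

/-!
# S05, step (D): congruent integral points with nonsingular reduction

Let `v` be a valuation on a field `K` and `W` a Weierstrass curve over `K` with `v`-integral
coefficients `a₁`, `a₂`.  If `P = (x, y)` and `P' = (x', y')` are `v`-integral points of `W` which
are congruent modulo the maximal ideal, and whose common reduction is a nonsingular point of the
reduced cubic, then `P' - P` lies in the kernel of reduction: it is `0` or has a non-integral
`x`-coordinate.
-/

set_option autoImplicit false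

namespace Fermat.Agent.S05

open WeierstrassCurve

namespace NonsingRed

variable {K : Type*} [Field K] {Γ₀ : Type*} [LinearOrderedCommGroupWithZero Γ₀]
  (v : Valuation K Γ₀)

theorem lt_sq_of_one_lt {g : Γ₀} (hg : 1 < g) : g < g ^ 2 := by
  have h0 : 0 < g := lt_trans zero_lt_one hg
  calc g = g * 1 := (mul_one g).symm
    _ < g * g := (mul_lt_mul_iff_right₀ h0).mpr hg
    _ = g ^ 2 := (sq g).symm

/-- If the slope is non-integral, then so is the `x`-coordinate of the sum. -/
theorem one_lt_addX (W : WeierstrassCurve K) (h₁ : v W.a₁ ≤ 1) (h₂ : v W.a₂ ≤ 1) {x₁ x₂ ℓ : K}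
    (hx₁ : v x₁ ≤ 1) (hx₂ : v x₂ ≤ 1) (hℓ : 1 < v ℓ) : 1 < v (W.toAffine.addX x₁ x₂ ℓ) := by
  have hsq : v ℓ < v ℓ ^ 2 := lt_sq_of_one_lt hℓ
  have h1 : (1 : Γ₀) < v ℓ ^ 2 := hℓ.trans hsq
  have ha : v (W.a₁ * ℓ) < v ℓ ^ 2 := by
    rw [map_mul]
    exact lt_of_le_of_lt (mul_le_mul' h₁ le_rfl) (by rwa [one_mul])
  have hrest : v (W.a₁ * ℓ - W.a₂ - x₁ - x₂) < v (ℓ ^ 2) := by
    rw [map_pow]
    exact v.map_sub_lt (v.map_sub_lt (v.map_sub_lt ha (lt_of_le_of_lt h₂ h1))
      (lt_of_le_of_lt hx₁ h1)) (lt_of_le_of_lt hx₂ h1)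
  have e : W.toAffine.addX x₁ x₂ ℓ = ℓ ^ 2 + (W.a₁ * ℓ - W.a₂ - x₁ - x₂) := by
    simp only [Affine.addX]; ring
  rw [e, v.map_add_eq_of_lt_left hrest, map_pow]
  exact h1

end NonsingRed

open NonsingRed in
/-- **Step (D).**  Two integral points which are congruent modulo the maximal ideal and reduce
to a nonsingular point of the reduced curve differ by an element of the kernel of reduction. -/
theorem sub_mem_kernel_of_nonsingular_reduction {K : Type*} [Field K] [DecidableEq K]
    {Γ₀ : Type*} [LinearOrderedCommGroupWithZero Γ₀] (v : Valuation K Γ₀) (W : WeierstrassCurve K)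
    (h₁ : v W.a₁ ≤ 1) (h₂ : v W.a₂ ≤ 1) {x y x' y' : K}
    (h : W.toAffine.Nonsingular x y) (h' : W.toAffine.Nonsingular x' y')
    (hx : v x ≤ 1) (hy : v y ≤ 1) (hxx : v (x' - x) < 1) (hyy : v (y' - y) < 1)
    (hns : v (W.toAffine.polynomialX.evalEval x y) = 1 ∨
      v (W.toAffine.polynomialY.evalEval x y) = 1) :
    Affine.Point.some x' y' h' - Affine.Point.some x y h = 0 ∨
      ∃ (x₀ y₀ : K) (h₀ : W.toAffine.Nonsingular x₀ y₀),
        Affine.Point.some x' y' h' - Affine.Point.some x y h = Affine.Point.some x₀ y₀ h₀ ∧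
          1 < v x₀ := by
  have hx' : v x' ≤ 1 := by
    have : x' = (x' - x) + x := by ring
    rw [this]
    exact v.map_add_le hxx.le hx
  have hy' : v y' ≤ 1 := by
    have : y' = (y' - y) + y := by ring
    rw [this]
    exact v.map_add_le hyy.le hy
  have eq := (Affine.equation_iff _ _).mp h.1
  have eq' := (Affine.equation_iff _ _).mp h'.1
  rw [Affine.evalEval_polynomialX, Affine.evalEval_polynomialY] at hns
  rw [sub_eq_add_neg, Affine.Point.neg_some]
  by_cases hxe : x' = x
  · -- same x-coordinate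
    subst hxe
    rcases Affine.Y_eq_of_X_eq h'.1 h.1 rfl with hye | hye
    · left
      subst hye
      exact Affine.Point.add_of_Y_eq rfl (by rw [Affine.negY_negY])
    · -- `y' = negY x' y ≠ y`
      by_cases hyy0 : y' = y
      · left
        subst hyy0
        exact Affine.Point.add_of_Y_eq rfl (by rw [Affine.negY_negY])
      right
      have hne : y' ≠ W.toAffine.negY x' (W.toAffine.negY x' y) := by
        rw [Affine.negY_negY]; exact hyy0
      rw [Affine.Point.add_of_Y_ne hne]
      refine ⟨_, _, _, rfl, ?_⟩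
      rw [Affine.slope_of_Y_ne rfl hne]
      apply one_lt_addX v W h₁ h₂ hx' hx'
      -- the numerator is a unit, the denominator is in the maximal ideal
      have hden : W.toAffine.negY x' y' = y := by rw [hye, Affine.negY_negY]
      rw [hden, map_div₀]
      have hWY : v (2 * y + W.a₁ * x' + W.a₃) < 1 := by
        have : 2 * y + W.a₁ * x' + W.a₃ = -(y' - y) := by
          rw [hye]; simp only [Affine.negY]; ring
        rw [this, Valuation.map_neg]
        exact hyy
      have hWX : v (W.a₁ * y - (3 * x' ^ 2 + 2 * W.a₂ * x' + W.a₄)) = 1 := by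
        rcases hns with h | h
        · exact h
        · exact absurd h (ne_of_lt hWY)
      have hnum : v (3 * x' ^ 2 + 2 * W.a₂ * x' + W.a₄ - W.a₁ * y') = 1 := by
        have e : 3 * x' ^ 2 + 2 * W.a₂ * x' + W.a₄ - W.a₁ * y' =
            -(W.a₁ * y - (3 * x' ^ 2 + 2 * W.a₂ * x' + W.a₄)) - W.a₁ * (y' - y) := by ring
        have hsmall : v (W.a₁ * (y' - y)) < v (-(W.a₁ * y - (3 * x' ^ 2 + 2 * W.a₂ * x' + W.a₄))) := by
          rw [Valuation.map_neg, hWX, map_mul]
          exact lt_of_le_of_lt (mul_le_mul' h₁ le_rfl) (by rwa [one_mul])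
        rw [e, v.map_sub_eq_of_lt_left hsmall, Valuation.map_neg, hWX]
      rw [hnum]
      have hd0 : 0 < v (y' - y) := by
        rw [Valuation.pos_iff]; exact sub_ne_zero.mpr hyy0
      rw [one_div]
      exact (one_lt_inv₀ hd0).mpr hyy
  · -- different x-coordinates
    right
    rw [Affine.Point.add_of_X_ne hxe]
    refine ⟨_, _, _, rfl, ?_⟩
    rw [Affine.slope_of_X_ne hxe]
    apply one_lt_addX v W h₁ h₂ hx' hx
    rw [map_div₀]
    have hd0 : 0 < v (x' - x) := by
      rw [Valuation.pos_iff]; exact sub_ne_zero.mpr hxe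
    by_cases hWY : v (2 * y + W.a₁ * x + W.a₃) = 1
    · -- numerator is a unit
      have hnum : v (y' - W.toAffine.negY x y) = 1 := by
        have e : y' - W.toAffine.negY x y = (2 * y + W.a₁ * x + W.a₃) + (y' - y) := by
          simp only [Affine.negY]; ring
        rw [e, v.map_add_eq_of_lt_left (by rw [hWY]; exact hyy), hWY]
      rw [hnum, one_div]
      exact (one_lt_inv₀ hd0).mpr hxx
    · have hWX : v (W.a₁ * y - (3 * x ^ 2 + 2 * W.a₂ * x + W.a₄)) = 1 := by
        rcases hns with h | h
        · exact h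
        · exact absurd h hWY
      -- secant identity
      set N := x' ^ 2 + x' * x + x ^ 2 + W.a₂ * (x' + x) + W.a₄ - W.a₁ * y' with hN
      have hsec : (y' - W.toAffine.negY x y) * (y' - y) = (x' - x) * N := by
        simp only [Affine.negY, hN]
        linear_combination eq' - eq
      have hNv : v N = 1 := by
        have e : N = -(W.a₁ * y - (3 * x ^ 2 + 2 * W.a₂ * x + W.a₄)) +
            ((x' - x) * (x' + x) + x * (x' - x) + W.a₂ * (x' - x) - W.a₁ * (y' - y)) := by
          simp only [hN]; ring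
        have hsmall : v ((x' - x) * (x' + x) + x * (x' - x) + W.a₂ * (x' - x) - W.a₁ * (y' - y))
            < v (-(W.a₁ * y - (3 * x ^ 2 + 2 * W.a₂ * x + W.a₄))) := by
          rw [Valuation.map_neg, hWX]
          have hxs : v (x' + x) ≤ 1 := v.map_add_le hx' hx
          refine v.map_sub_lt (v.map_add_lt (v.map_add_lt ?_ ?_) ?_) ?_
          · rw [map_mul]; exact lt_of_le_of_lt (mul_le_mul' le_rfl hxs) (by rwa [mul_one])
          · rw [map_mul]; exact lt_of_le_of_lt (mul_le_mul' hx le_rfl) (by rwa [one_mul])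
          · rw [map_mul]; exact lt_of_le_of_lt (mul_le_mul' h₂ le_rfl) (by rwa [one_mul])
          · rw [map_mul]; exact lt_of_le_of_lt (mul_le_mul' h₁ le_rfl) (by rwa [one_mul])
        rw [e, v.map_add_eq_of_lt_left hsmall, Valuation.map_neg, hWX]
      have hN0 : N ≠ 0 := by
        intro h0; rw [h0, map_zero] at hNv; exact zero_ne_one hNv
      have hyy0 : y' ≠ y := by
        intro h0
        rw [h0, sub_self, mul_zero] at hsec
        rcases mul_eq_zero.mp hsec.symm with h1 | h1
        · exact hxe (sub_eq_zero.mp h1)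
        · exact hN0 h1
      have hd1 : 0 < v (y' - y) := by
        rw [Valuation.pos_iff]; exact sub_ne_zero.mpr hyy0
      have hv : v (y' - W.toAffine.negY x y) * v (y' - y) = v (x' - x) * 1 := by
        rw [← hNv, ← map_mul, ← map_mul, hsec]
      rw [mul_one] at hv
      have hn0 : v (y' - W.toAffine.negY x y) ≠ 0 := by
        intro h0
        rw [h0, zero_mul] at hv
        exact (ne_of_gt hd0) hv.symm
      have : v (y' - W.toAffine.negY x y) / v (x' - x) = (v (y' - y))⁻¹ := by
        rw [← hv, div_mul_eq_div_div, div_self hn0, one_div]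
      rw [this]
      exact (one_lt_inv₀ hd1).mpr hyy

end Fermat.Agent.S05
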