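import Mathlib
import Fermat.Prelude.Def_FLTPrelim_FreyPackage
import Fermat.Prelude.Def_FLTPrelim_GaloisRep
import Fermat.Prelude.Def_FLTPrelim_Ramification
import Fermat.Agent.S05.InertiaAPI
import Fermat.Agent.S05.NonsingRed
import Fermat.Agent.S05.KerRed

/-!
# S05: Galois glue and the case of good reduction

* `GoodRed.smul_some`: the frozen Galois action on affine points.
* `GoodRed.val_y_le_one`: integrality of the `y`-coordinate.
* `GoodRed.smul_eq_of_nonsingular_reduction`: an element of the inertia group fixes every torsion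
  point with integral coordinates and nonsingular reduction, provided the kernel of reduction has
  no torsion of that order.
* `GoodRed.smul_eq_of_good`: the same for all torsion points if every integral point has
  nonsingular reduction.
-/

set_option autoImplicit false

namespace Fermat.Agent.S05

open WeierstrassCurve WeierstrassCurve.Affine

namespace GoodRed

section Integral

variable {K : Type*} [Field K] {Γ₀ : Type*} [LinearOrderedCommGroupWithZero Γ₀]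
  (v : Valuation K Γ₀)

/-- (G2) On a Weierstrass curve with integral coefficients, a point with integral `x`-coordinate
has integral `y`-coordinate. -/
theorem val_y_le_one (W : WeierstrassCurve K) (h₁ : v W.a₁ ≤ 1) (h₂ : v W.a₂ ≤ 1)
    (h₃ : v W.a₃ ≤ 1) (h₄ : v W.a₄ ≤ 1) (h₆ : v W.a₆ ≤ 1) {x y : K}
    (h : W.toAffine.Equation x y) (hx : v x ≤ 1) : v y ≤ 1 := by
  by_contra hy
  rw [not_le] at hy
  have eq := (Affine.equation_iff _ _).mp h
  have hsq : v y < v y ^ 2 := NonsingRed.lt_sq_of_one_lt hy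
  have e : y ^ 2 = x ^ 3 + W.a₂ * x ^ 2 + W.a₄ * x + W.a₆ - W.a₁ * x * y - W.a₃ * y := by
    linear_combination eq
  have hx2 : v (x ^ 2) ≤ 1 := by rw [map_pow]; exact pow_le_one' hx 2
  have hx3 : v (x ^ 3) ≤ 1 := by rw [map_pow]; exact pow_le_one' hx 3
  have hy1 : (1 : Γ₀) ≤ v y := hy.le
  have hbound : v (x ^ 3 + W.a₂ * x ^ 2 + W.a₄ * x + W.a₆ - W.a₁ * x * y - W.a₃ * y) ≤ v y := by
    refine v.map_sub_le (v.map_sub_le (v.map_add_le (v.map_add_le (v.map_add_le ?_ ?_) ?_) ?_) ?_) ?_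
    · exact hx3.trans hy1
    · rw [map_mul]; exact (mul_le_one' h₂ hx2).trans hy1
    · rw [map_mul]; exact (mul_le_one' h₄ hx).trans hy1
    · exact h₆.trans hy1
    · rw [map_mul, map_mul]
      calc v W.a₁ * v x * v y ≤ 1 * v y := mul_le_mul' (mul_le_one' h₁ hx) le_rfl
        _ = v y := one_mul _
    · rw [map_mul]
      calc v W.a₃ * v y ≤ 1 * v y := mul_le_mul' h₃ le_rfl
        _ = v y := one_mul _
  rw [← e, map_pow] at hbound
  exact absurd hsq (not_lt.mpr hbound)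

end Integral

section Glue

variable {F K : Type*} [Field F] [Field K] [Algebra F K] [DecidableEq K]
  {W' : WeierstrassCurve.Affine F}

/-- (G1) The frozen Galois action on an affine point. -/
theorem smul_some (σ : K ≃ₐ[F] K) {x y : K} (h : (W'⁄K).Nonsingular x y) :
    σ • (Point.some x y h : (W'⁄K).Point) =
      Point.some (σ x) (σ y)
        ((W'.baseChange_nonsingular (f := σ.toAlgHom) σ.injective x y).mpr h) :=
  rfl

theorem smul_nsmul (σ : K ≃ₐ[F] K) (n : ℕ) (T : (W'⁄K).Point) : σ • (n • T) = n • (σ • T) :=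
  map_nsmul (Point.map (W' := W') σ.toAlgHom) n T

theorem smul_sub' (σ : K ≃ₐ[F] K) (T T' : (W'⁄K).Point) : σ • (T - T') = σ • T - σ • T' :=
  map_sub (Point.map (W' := W') σ.toAlgHom) T T'

theorem smul_zero' (σ : K ≃ₐ[F] K) : σ • (0 : (W'⁄K).Point) = 0 := rfl

variable (A : ValuationSubring K) {σ : K ≃ₐ[F] K}

/-- (G3) An element of the inertia group fixes every `n`-torsion point with integral coordinates
and nonsingular reduction, if the kernel of reduction has no `n`-torsion. -/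
theorem smul_eq_of_nonsingular_reduction (hσ : σ ∈ A.inertiaSubgroupIn F)
    (h₁ : A.valuation (W'⁄K).a₁ ≤ 1) (h₂ : A.valuation (W'⁄K).a₂ ≤ 1)
    (h₃ : A.valuation (W'⁄K).a₃ ≤ 1) (h₄ : A.valuation (W'⁄K).a₄ ≤ 1)
    (h₆ : A.valuation (W'⁄K).a₆ ≤ 1) {n : ℕ}
    (hF : ∀ {x y : K} (h : (W'⁄K).Nonsingular x y), 1 < A.valuation x →
      n • (Point.some x y h : (W'⁄K).Point) = 0 → False)
    {x y : K} (h : (W'⁄K).Nonsingular x y) (hx : A.valuation x ≤ 1)
    (hns : A.valuation ((W'⁄K).polynomialX.evalEval x y) = 1 ∨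
      A.valuation ((W'⁄K).polynomialY.evalEval x y) = 1)
    (htors : n • (Point.some x y h : (W'⁄K).Point) = 0) :
    σ • (Point.some x y h : (W'⁄K).Point) = Point.some x y h := by
  have hy : A.valuation y ≤ 1 := val_y_le_one A.valuation (W'⁄K) h₁ h₂ h₃ h₄ h₆ h.1 hx
  have hxx : A.valuation (σ x - x) < 1 :=
    A.mem_nonunits_iff.mp (InertiaAPI.apply_sub_mem_nonunits hσ ((A.valuation_le_one_iff x).mp hx))
  have hyy : A.valuation (σ y - y) < 1 :=
    A.mem_nonunits_iff.mp (InertiaAPI.apply_sub_mem_nonunits hσ ((A.valuation_le_one_iff y).mp hy))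
  have h' : (W'⁄K).Nonsingular (σ x) (σ y) :=
    (W'.baseChange_nonsingular (f := σ.toAlgHom) σ.injective x y).mpr h
  have hD := sub_mem_kernel_of_nonsingular_reduction A.valuation (W'⁄K) h₁ h₂ h h' hx hy hxx hyy hns
  have htors' : n • (σ • (Point.some x y h : (W'⁄K).Point) - Point.some x y h) = 0 := by
    rw [smul_sub, ← smul_nsmul, htors, smul_zero', sub_zero]
  rw [smul_some] at htors' ⊢
  rcases hD with h0 | ⟨x₀, y₀, h₀, hd, hlt⟩
  · exact sub_eq_zero.mp h0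
  · rw [hd] at htors'
    exact (hF h₀ hlt htors').elim

/-- (G4) If every integral point has nonsingular reduction and the kernel of reduction has no
`n`-torsion, then the inertia group fixes every `n`-torsion point. -/
theorem smul_eq_of_good (hσ : σ ∈ A.inertiaSubgroupIn F)
    (h₁ : A.valuation (W'⁄K).a₁ ≤ 1) (h₂ : A.valuation (W'⁄K).a₂ ≤ 1)
    (h₃ : A.valuation (W'⁄K).a₃ ≤ 1) (h₄ : A.valuation (W'⁄K).a₄ ≤ 1)
    (h₆ : A.valuation (W'⁄K).a₆ ≤ 1) {n : ℕ}
    (hF : ∀ {x y : K} (h : (W'⁄K).Nonsingular x y), 1 < A.valuation x →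
      n • (Point.some x y h : (W'⁄K).Point) = 0 → False)
    (hgood : ∀ {x y : K}, (W'⁄K).Nonsingular x y → A.valuation x ≤ 1 →
      A.valuation ((W'⁄K).polynomialX.evalEval x y) = 1 ∨
        A.valuation ((W'⁄K).polynomialY.evalEval x y) = 1)
    (T : (W'⁄K).Point) (htors : n • T = 0) : σ • T = T := by
  rcases T with _ | ⟨x, y, h⟩
  · rfl
  · by_cases hx : A.valuation x ≤ 1
    · exact smul_eq_of_nonsingular_reduction A hσ h₁ h₂ h₃ h₄ h₆ hF h hx (hgood h hx) htors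
    · exact (hF h (not_le.mp hx) htors).elim

end Glue

section Disc

variable {K : Type*} [Field K] (A : ValuationSubring K)

/-- Nonsingular reduction from a unit discriminant, for the model
`y² + xy = x³ + a₂x² + a₄x` (with `q4 = 1/4`). -/
theorem nonsing_of_disc {a₂ a₄ x y q4 : K}
    (ha₂ : a₂ ∈ A) (ha₄ : a₄ ∈ A) (hq4 : q4 ∈ A) (h4 : 4 * q4 = 1) (hx : x ∈ A) (hy : y ∈ A)
    (heq : y ^ 2 + x * y = x ^ 3 + a₂ * x ^ 2 + a₄ * x)
    (hdisc : A.valuation (4 * a₄ ^ 2 * ((a₂ + q4) ^ 2 - 4 * a₄)) = 1) :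
    A.valuation (y - (3 * x ^ 2 + 2 * a₂ * x + a₄)) = 1 ∨ A.valuation (2 * y + x) = 1 := by
  have hWX : y - (3 * x ^ 2 + 2 * a₂ * x + a₄) ∈ A := by clear heq hdisc h4; aesop
  have hWY : 2 * y + x ∈ A := by clear heq hdisc h4; aesop
  have hU : 3 * (6 * a₄ - 2 * (a₂ + q4) ^ 2) * x + 3 * ((a₂ + q4) * a₄) +
      2 * (a₂ + q4) * (6 * a₄ - 2 * (a₂ + q4) ^ 2) ∈ A := by clear heq hdisc h4; aesop
  have hV : -((6 * a₄ - 2 * (a₂ + q4) ^ 2) * x ^ 2 +
      ((a₂ + q4) * (6 * a₄ - 2 * (a₂ + q4) ^ 2) + (a₂ + q4) * a₄) * x +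
      a₄ * (4 * a₄ - (a₂ + q4) ^ 2)) ∈ A := by clear heq hdisc h4; aesop
  set U := 3 * (6 * a₄ - 2 * (a₂ + q4) ^ 2) * x + 3 * ((a₂ + q4) * a₄) +
      2 * (a₂ + q4) * (6 * a₄ - 2 * (a₂ + q4) ^ 2) with hUdef
  set V := -((6 * a₄ - 2 * (a₂ + q4) ^ 2) * x ^ 2 +
      ((a₂ + q4) * (6 * a₄ - 2 * (a₂ + q4) ^ 2) + (a₂ + q4) * a₄) * x +
      a₄ * (4 * a₄ - (a₂ + q4) ^ 2)) with hVdef
  have key : 4 * a₄ ^ 2 * ((a₂ + q4) ^ 2 - 4 * a₄) =
      (2 * y + x) * (U * (2 * y + x) + 2 * V) -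
        (y - (3 * x ^ 2 + 2 * a₂ * x + a₄)) * (4 * V) := by
    rw [hUdef, hVdef]
    linear_combination (-4 * (3 * (6 * a₄ - 2 * (a₂ + q4) ^ 2) * x + 3 * ((a₂ + q4) * a₄) +
      2 * (a₂ + q4) * (6 * a₄ - 2 * (a₂ + q4) ^ 2))) * heq +
      ((3 * (6 * a₄ - 2 * (a₂ + q4) ^ 2) * x + 3 * ((a₂ + q4) * a₄) +
      2 * (a₂ + q4) * (6 * a₄ - 2 * (a₂ + q4) ^ 2)) * x ^ 2 +
      2 * (-((6 * a₄ - 2 * (a₂ + q4) ^ 2) * x ^ 2 +
      ((a₂ + q4) * (6 * a₄ - 2 * (a₂ + q4) ^ 2) + (a₂ + q4) * a₄) * x +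
      a₄ * (4 * a₄ - (a₂ + q4) ^ 2))) * x) * h4
  have hc1 : U * (2 * y + x) + 2 * V ∈ A :=
    add_mem (mul_mem hU hWY) (mul_mem (ofNat_mem A 2) hV)
  have hc2 : 4 * V ∈ A := mul_mem (ofNat_mem A 4) hV
  by_contra hcon
  rw [not_or] at hcon
  have h1 : A.valuation (y - (3 * x ^ 2 + 2 * a₂ * x + a₄)) < 1 :=
    lt_of_le_of_ne ((A.valuation_le_one_iff _).mpr hWX) hcon.1
  have h2 : A.valuation (2 * y + x) < 1 :=
    lt_of_le_of_ne ((A.valuation_le_one_iff _).mpr hWY) hcon.2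
  have h3 : A.valuation ((2 * y + x) * (U * (2 * y + x) + 2 * V) -
      (y - (3 * x ^ 2 + 2 * a₂ * x + a₄)) * (4 * V)) < 1 := by
    refine A.valuation.map_sub_lt ?_ ?_
    · rw [map_mul]
      exact lt_of_le_of_lt (mul_le_mul' le_rfl ((A.valuation_le_one_iff _).mpr hc1))
        (by rwa [mul_one])
    · rw [map_mul]
      exact lt_of_le_of_lt (mul_le_mul' le_rfl ((A.valuation_le_one_iff _).mpr hc2))
        (by rwa [mul_one])
  rw [← key, hdisc] at h3
  exact lt_irrefl _ h3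

end Disc

section Frey

variable (P : FreyPackage)

theorem frey_a₁ : (P.freyCurve⁄(AlgebraicClosure ℚ)).a₁ = 1 := by
  simp [FreyPackage.freyCurve]

theorem frey_a₂ : (P.freyCurve⁄(AlgebraicClosure ℚ)).a₂ =
    ((P.b : AlgebraicClosure ℚ) ^ P.p - 1 - (P.a : AlgebraicClosure ℚ) ^ P.p) / 4 := by
  simp [FreyPackage.freyCurve]

theorem frey_a₃ : (P.freyCurve⁄(AlgebraicClosure ℚ)).a₃ = 0 := by
  simp [FreyPackage.freyCurve]

theorem frey_a₄ : (P.freyCurve⁄(AlgebraicClosure ℚ)).a₄ =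
    -((P.a : AlgebraicClosure ℚ) ^ P.p) * (P.b : AlgebraicClosure ℚ) ^ P.p / 16 := by
  simp [FreyPackage.freyCurve]

theorem frey_a₆ : (P.freyCurve⁄(AlgebraicClosure ℚ)).a₆ = 0 := by
  simp [FreyPackage.freyCurve]

variable {q : ℕ} (hq : q.Prime) (hq2 : q ≠ 2) (A : ValuationSubring (AlgebraicClosure ℚ))
  (hA : A.LiesOverPrime q)

include hq hq2 hA in
theorem val_two : A.valuation (2 : AlgebraicClosure ℚ) = 1 := by
  have h : ¬ (q : ℤ) ∣ 2 := by
    intro h
    have h' : q ∣ 2 := by exact_mod_cast h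
    exact hq2 ((Nat.prime_dvd_prime_iff_eq hq Nat.prime_two).mp h')
  have := InertiaAPI.valuation_intCast_eq_one (L := AlgebraicClosure ℚ) hq hA h
  simpa using this

include hq hq2 hA in
theorem inv_four_mem : (4 : AlgebraicClosure ℚ)⁻¹ ∈ A := by
  rw [← A.valuation_le_one_iff, map_inv₀]
  have h4 : A.valuation (4 : AlgebraicClosure ℚ) = 1 := by
    have e : (4 : AlgebraicClosure ℚ) = 2 ^ 2 := by norm_num
    rw [e, map_pow, val_two hq hq2 A hA, one_pow]
  rw [h4, inv_one]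

include hq hq2 hA in
theorem frey_a₂_mem : (P.freyCurve⁄(AlgebraicClosure ℚ)).a₂ ∈ A := by
  rw [frey_a₂, div_eq_mul_inv]
  have h := inv_four_mem hq hq2 A hA
  have ha : (P.a : AlgebraicClosure ℚ) ∈ A := intCast_mem A _
  have hb : (P.b : AlgebraicClosure ℚ) ∈ A := intCast_mem A _
  aesop

include hq hq2 hA in
theorem frey_a₄_mem : (P.freyCurve⁄(AlgebraicClosure ℚ)).a₄ ∈ A := by
  rw [frey_a₄, div_eq_mul_inv]
  have h := inv_four_mem hq hq2 A hA
  have e : (16 : AlgebraicClosure ℚ)⁻¹ = 4⁻¹ * 4⁻¹ := by norm_num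
  have ha : (P.a : AlgebraicClosure ℚ) ∈ A := intCast_mem A _
  have hb : (P.b : AlgebraicClosure ℚ) ∈ A := intCast_mem A _
  rw [e]
  aesop

include hq hq2 hA in
/-- The coefficients of the Frey curve are integral at every odd prime. -/
theorem frey_integral :
    A.valuation (P.freyCurve⁄(AlgebraicClosure ℚ)).a₁ ≤ 1 ∧
    A.valuation (P.freyCurve⁄(AlgebraicClosure ℚ)).a₂ ≤ 1 ∧
    A.valuation (P.freyCurve⁄(AlgebraicClosure ℚ)).a₃ ≤ 1 ∧
    A.valuation (P.freyCurve⁄(AlgebraicClosure ℚ)).a₄ ≤ 1 ∧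
    A.valuation (P.freyCurve⁄(AlgebraicClosure ℚ)).a₆ ≤ 1 := by
  refine ⟨?_, ?_, ?_, ?_, ?_⟩
  · rw [frey_a₁, map_one]
  · exact (A.valuation_le_one_iff _).mpr (frey_a₂_mem P hq hq2 A hA)
  · rw [frey_a₃, map_zero]; exact zero_le_one
  · exact (A.valuation_le_one_iff _).mpr (frey_a₄_mem P hq hq2 A hA)
  · rw [frey_a₆, map_zero]; exact zero_le_one

include hq hq2 hA in
/-- If `q ∤ abc`, every integral point of the Frey curve has nonsingular reduction at `q`. -/
theorem frey_nonsingular_reduction (hgood : ¬ (q : ℤ) ∣ P.a * P.b * P.c)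
    {x y : AlgebraicClosure ℚ} (h : (P.freyCurve⁄(AlgebraicClosure ℚ)).Nonsingular x y)
    (hx : A.valuation x ≤ 1) :
    A.valuation ((P.freyCurve⁄(AlgebraicClosure ℚ)).polynomialX.evalEval x y) = 1 ∨
      A.valuation ((P.freyCurve⁄(AlgebraicClosure ℚ)).polynomialY.evalEval x y) = 1 := by
  obtain ⟨h₁, h₂, h₃, h₄, h₆⟩ := frey_integral P hq hq2 A hA
  have hy : A.valuation y ≤ 1 :=
    val_y_le_one A.valuation (P.freyCurve⁄(AlgebraicClosure ℚ)) h₁ h₂ h₃ h₄ h₆ h.1 hx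
  have eq := (Affine.equation_iff _ _).mp h.1
  rw [Affine.evalEval_polynomialX, Affine.evalEval_polynomialY]
  rw [frey_a₁, frey_a₃, frey_a₆] at eq
  rw [frey_a₁, frey_a₃]
  have ha : ¬ (q : ℤ) ∣ P.a := fun h' => hgood (Dvd.dvd.mul_right (Dvd.dvd.mul_right h' _) _)
  have hb : ¬ (q : ℤ) ∣ P.b := fun h' => hgood (Dvd.dvd.mul_right (Dvd.dvd.mul_left h' _) _)
  have hc : ¬ (q : ℤ) ∣ P.c := fun h' => hgood (Dvd.dvd.mul_left h' _)
  have hva : A.valuation (P.a : AlgebraicClosure ℚ) = 1 :=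
    InertiaAPI.valuation_intCast_eq_one hq hA ha
  have hvb : A.valuation (P.b : AlgebraicClosure ℚ) = 1 :=
    InertiaAPI.valuation_intCast_eq_one hq hA hb
  have hvc : A.valuation (P.c : AlgebraicClosure ℚ) = 1 :=
    InertiaAPI.valuation_intCast_eq_one hq hA hc
  have hFLT : (P.a : AlgebraicClosure ℚ) ^ P.p + (P.b : AlgebraicClosure ℚ) ^ P.p =
      (P.c : AlgebraicClosure ℚ) ^ P.p := by
    have := congrArg (Int.cast : ℤ → AlgebraicClosure ℚ) P.hFLT
    push_cast at this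
    exact this
  have h2 := val_two hq hq2 A hA
  have hdisc : A.valuation (4 * (P.freyCurve⁄(AlgebraicClosure ℚ)).a₄ ^ 2 *
      (((P.freyCurve⁄(AlgebraicClosure ℚ)).a₂ + 4⁻¹) ^ 2 -
        4 * (P.freyCurve⁄(AlgebraicClosure ℚ)).a₄)) = 1 := by
    have e : 4 * (P.freyCurve⁄(AlgebraicClosure ℚ)).a₄ ^ 2 *
        (((P.freyCurve⁄(AlgebraicClosure ℚ)).a₂ + 4⁻¹) ^ 2 -
          4 * (P.freyCurve⁄(AlgebraicClosure ℚ)).a₄) =
        ((P.a : AlgebraicClosure ℚ) ^ P.p * (P.b : AlgebraicClosure ℚ) ^ P.p *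
          (P.c : AlgebraicClosure ℚ) ^ P.p) ^ 2 / 2 ^ 10 := by
      rw [frey_a₂, frey_a₄, ← hFLT]
      field_simp
      ring
    rw [e, map_div₀, map_pow, map_mul, map_mul, map_pow, map_pow, map_pow, map_pow, hva, hvb,
      hvc, h2]
    simp
  have key := nonsing_of_disc A (frey_a₂_mem P hq hq2 A hA) (frey_a₄_mem P hq hq2 A hA)
    (inv_four_mem hq hq2 A hA) (by norm_num) ((A.valuation_le_one_iff _).mp hx)
    ((A.valuation_le_one_iff _).mp hy)
    (show y ^ 2 + x * y = x ^ 3 + (P.freyCurve⁄(AlgebraicClosure ℚ)).a₂ * x ^ 2 +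
      (P.freyCurve⁄(AlgebraicClosure ℚ)).a₄ * x by linear_combination eq) hdisc
  rcases key with k | k
  · left
    rw [one_mul]
    exact k
  · right
    rw [one_mul, add_zero]
    exact k

end Frey

section FreyKernel

variable (P : FreyPackage) {q : ℕ} (hq : q.Prime) (hq2 : q ≠ 2) (hqp : q ≠ P.p)
  (A : ValuationSubring (AlgebraicClosure ℚ)) (hA : A.LiesOverPrime q)

include hq hqp hA in
theorem frey_val_p : A.valuation (P.p : AlgebraicClosure ℚ) = 1 := by
  have h : ¬ (q : ℤ) ∣ (P.p : ℤ) := by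
    intro h
    have h' : q ∣ P.p := by exact_mod_cast h
    exact hqp ((Nat.prime_dvd_prime_iff_eq hq P.pp).mp h')
  have := InertiaAPI.valuation_intCast_eq_one (L := AlgebraicClosure ℚ) hq hA h
  simpa using this

include hq hq2 hqp hA in
/-- (F) for the Frey curve: the kernel of reduction at a prime `q ≠ 2, p` has no `p`-torsion. -/
theorem frey_no_torsion_in_kernel {x y : AlgebraicClosure ℚ}
    (h : (P.freyCurve⁄(AlgebraicClosure ℚ)).Nonsingular x y) (hx : 1 < A.valuation x)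
    (htors : P.p • (Point.some x y h : (P.freyCurve⁄(AlgebraicClosure ℚ)).Point) = 0) :
    False := by
  obtain ⟨h₁, h₂, h₃, h₄, h₆⟩ := frey_integral P hq hq2 A hA
  exact no_torsion_in_kernel A.valuation _ h₁ h₂ h₃ h₄ h₆ P.pp P.hp5
    (frey_val_p P hq hqp A hA) h hx htors

include hq hq2 hqp hA in
/-- An element of the inertia group at `q ≠ 2, p` fixes every `p`-torsion point of the Frey curve
with integral `x`-coordinate and nonsingular reduction. -/
theorem frey_smul_eq_of_nonsingular_reduction {σ : AlgebraicClosure ℚ ≃ₐ[ℚ] AlgebraicClosure ℚ}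
    (hσ : σ ∈ A.inertiaSubgroupIn ℚ) {x y : AlgebraicClosure ℚ}
    (h : (P.freyCurve⁄(AlgebraicClosure ℚ)).Nonsingular x y) (hx : A.valuation x ≤ 1)
    (hns : A.valuation ((P.freyCurve⁄(AlgebraicClosure ℚ)).polynomialX.evalEval x y) = 1 ∨
      A.valuation ((P.freyCurve⁄(AlgebraicClosure ℚ)).polynomialY.evalEval x y) = 1)
    (htors : P.p • (Point.some x y h : (P.freyCurve⁄(AlgebraicClosure ℚ)).Point) = 0) :
    σ • (Point.some x y h : (P.freyCurve⁄(AlgebraicClosure ℚ)).Point) = Point.some x y h := by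
  obtain ⟨h₁, h₂, h₃, h₄, h₆⟩ := frey_integral P hq hq2 A hA
  exact smul_eq_of_nonsingular_reduction A hσ h₁ h₂ h₃ h₄ h₆
    (fun h' hx' ht' => frey_no_torsion_in_kernel P hq hq2 hqp A hA h' hx' ht') h hx hns htors

end FreyKernel

end GoodRed

/-- **S05, good reduction.**  The mod-`p` representation of the Frey curve is unramified at every
prime `q ≠ 2, p` not dividing `abc`. -/
theorem unramified_of_not_dvd (P : FreyPackage) {q : ℕ} (hq : q.Prime) (hq2 : q ≠ 2)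
    (hqp : q ≠ P.p) (hgood : ¬ (q : ℤ) ∣ P.a * P.b * P.c) : P.GaloisRepUnramifiedAt q := by
  intro A hA σ hσ T
  apply Subtype.ext
  obtain ⟨h₁, h₂, h₃, h₄, h₆⟩ := GoodRed.frey_integral P hq hq2 A hA
  have htors : P.p • T.1 = 0 := by
    have := (Submodule.mem_torsionBy_iff _ _).mp T.2
    rwa [natCast_zsmul] at this
  exact GoodRed.smul_eq_of_good A hσ h₁ h₂ h₃ h₄ h₆
    (fun h hx ht => GoodRed.frey_no_torsion_in_kernel P hq hq2 hqp A hA h hx ht)
    (fun h hx => GoodRed.frey_nonsingular_reduction P hq hq2 A hA hgood h hx) T.1 htors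

end Fermat.Agent.S05
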