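import Fermat.Agent.S05.PairLaw

/-!
# S05, module (N): iterating the pair law

`Γ₀` is a linearly ordered commutative group with zero and `β : Γ₀`, `β ≠ 0`.  Two elements
`s`, `t` are *dihedrally related* (`Rel β s t`) if `t = s * β ^ (2 * j)` or
`t = s⁻¹ * β ^ (2 * j)` for some `j : ℤ`.  This is an equivalence relation; the folded product
`PairLaw.Fm β k₁ k₂` is related to `k₁ * k₂` and the folded quotient `PairLaw.Fd k₁ k₂` to
`k₁ / k₂`.  Consequently a sequence `k : ℕ → Γ₀` with `k 0 = 1` satisfying the pair law between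
`(k (n + 1), k (n - 1))` and `(k n, k 1)` has `k n` related to `k 1 ^ n` (`iter`).

Corollaries: `k p = 1` (or `k (m + 1) = k m` with `p = 2 * m + 1`) forces
`k 1 ^ p = β ^ (2 * j)` (`pow_mem_of_eq_one`, `pow_mem_of_half`), and if moreover `β = u ^ p` with
`p` odd and `β ≤ k 1 ≤ 1`, then `k 1 = 1` or `β < k 1 < 1` and `k 1 = u ^ (2 * j)` (`final`).
-/

namespace Fermat.Agent.S05.PairIter

open Fermat.Agent.S05.PairLaw

variable {Γ₀ : Type*} [LinearOrderedCommGroupWithZero Γ₀]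

/-! ### Even powers of `β` -/

/-- `c` is an even (integer) power of `β`. -/
def IsEvenPow (β c : Γ₀) : Prop := ∃ j : ℤ, c = β ^ (2 * j)

theorem IsEvenPow.ne_zero {β c : Γ₀} (hβ : β ≠ 0) (h : IsEvenPow β c) : c ≠ 0 := by
  obtain ⟨j, rfl⟩ := h
  exact zpow_ne_zero _ hβ

theorem isEvenPow_one (β : Γ₀) : IsEvenPow β 1 := ⟨0, by simp⟩

theorem isEvenPow_sq (β : Γ₀) : IsEvenPow β (β ^ 2) := ⟨1, by norm_num [zpow_ofNat]⟩

theorem IsEvenPow.mul {β c d : Γ₀} (hβ : β ≠ 0) (hc : IsEvenPow β c) (hd : IsEvenPow β d) :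
    IsEvenPow β (c * d) := by
  obtain ⟨i, rfl⟩ := hc
  obtain ⟨j, rfl⟩ := hd
  exact ⟨i + j, by rw [← zpow_add₀ hβ, mul_add]⟩

theorem IsEvenPow.inv {β c : Γ₀} (hc : IsEvenPow β c) : IsEvenPow β c⁻¹ := by
  obtain ⟨i, rfl⟩ := hc
  exact ⟨-i, by rw [← zpow_neg, mul_neg]⟩

theorem IsEvenPow.div {β c d : Γ₀} (hβ : β ≠ 0) (hc : IsEvenPow β c) (hd : IsEvenPow β d) :
    IsEvenPow β (c / d) := by
  rw [div_eq_mul_inv]
  exact hc.mul hβ hd.inv

theorem IsEvenPow.pow {β c : Γ₀} (hc : IsEvenPow β c) (n : ℕ) : IsEvenPow β (c ^ n) := by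
  obtain ⟨i, rfl⟩ := hc
  exact ⟨i * n, by rw [← zpow_natCast, ← zpow_mul, mul_assoc]⟩

/-! ### The dihedral relation -/

/-- The dihedral relation: `t = s * c` or `t = s⁻¹ * c` with `c` an even power of `β`. -/
def Rel (β s t : Γ₀) : Prop := ∃ c : Γ₀, IsEvenPow β c ∧ (t = s * c ∨ t = s⁻¹ * c)

theorem rel_iff {β s t : Γ₀} :
    Rel β s t ↔ ∃ j : ℤ, t = s * β ^ (2 * j) ∨ t = s⁻¹ * β ^ (2 * j) := by
  constructor
  · rintro ⟨c, ⟨j, rfl⟩, h⟩
    exact ⟨j, h⟩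
  · rintro ⟨j, h⟩
    exact ⟨_, ⟨j, rfl⟩, h⟩

theorem Rel.refl (β s : Γ₀) : Rel β s s := ⟨1, isEvenPow_one β, Or.inl (mul_one s).symm⟩

theorem Rel.symm {β s t : Γ₀} (hβ : β ≠ 0) (h : Rel β s t) : Rel β t s := by
  obtain ⟨c, hc, h | h⟩ := h
  · refine ⟨c⁻¹, hc.inv, Or.inl ?_⟩
    rw [h, mul_assoc, mul_inv_cancel₀ (hc.ne_zero hβ), mul_one]
  · refine ⟨c, hc, Or.inr ?_⟩
    rw [h, mul_inv, inv_inv, mul_assoc, inv_mul_cancel₀ (hc.ne_zero hβ), mul_one]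

theorem Rel.trans {β s t r : Γ₀} (hβ : β ≠ 0) (h₁ : Rel β s t) (h₂ : Rel β t r) : Rel β s r := by
  obtain ⟨c, hc, h₁ | h₁⟩ := h₁ <;> obtain ⟨d, hd, h₂ | h₂⟩ := h₂
  · exact ⟨c * d, hc.mul hβ hd, Or.inl (by rw [h₂, h₁, mul_assoc])⟩
  · exact ⟨c⁻¹ * d, hc.inv.mul hβ hd, Or.inr (by rw [h₂, h₁, mul_inv, mul_assoc])⟩
  · exact ⟨c * d, hc.mul hβ hd, Or.inr (by rw [h₂, h₁, mul_assoc])⟩
  · exact ⟨c⁻¹ * d, hc.inv.mul hβ hd, Or.inl (by rw [h₂, h₁, mul_inv, inv_inv, mul_assoc])⟩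

/-- The folded product is dihedrally related to the product. -/
theorem rel_Fm (β k₁ k₂ : Γ₀) : Rel β (k₁ * k₂) (Fm β k₁ k₂) := by
  unfold Fm
  split_ifs
  · exact Rel.refl _ _
  · exact ⟨β ^ 2, isEvenPow_sq β, Or.inr (by rw [div_eq_mul_inv, mul_comm])⟩

/-- The folded quotient is dihedrally related to the quotient. -/
theorem rel_Fd (β k₁ k₂ : Γ₀) : Rel β (k₁ / k₂) (Fd k₁ k₂) := by
  unfold Fd
  rcases le_total k₁ k₂ with h | h
  · rw [min_eq_left h, max_eq_right h]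
    exact Rel.refl _ _
  · rw [min_eq_right h, max_eq_left h]
    exact ⟨1, isEvenPow_one β, Or.inr (by rw [inv_div, mul_one])⟩

/-- One step: if `a` is related to `x ^ (n + 1)`, then `a * x` and `a / x` are related to
`x ^ (n + 2)` and `x ^ n`, in some order. -/
theorem rel_step {β x a : Γ₀} (hx : x ≠ 0) {n : ℕ} (h : Rel β (x ^ (n + 1)) a) :
    (Rel β (x ^ (n + 2)) (a * x) ∧ Rel β (x ^ n) (a / x)) ∨
      (Rel β (x ^ n) (a * x) ∧ Rel β (x ^ (n + 2)) (a / x)) := by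
  obtain ⟨c, hc, h | h⟩ := h
  · left
    refine ⟨⟨c, hc, Or.inl ?_⟩, ⟨c, hc, Or.inl ?_⟩⟩
    · rw [h, pow_succ x (n + 1), mul_right_comm]
    · rw [h, pow_succ x n, mul_right_comm, mul_div_assoc, div_self hx, mul_one]
  · right
    refine ⟨⟨c, hc, Or.inr ?_⟩, ⟨c, hc, Or.inr ?_⟩⟩
    · rw [h, pow_succ x n, mul_inv, mul_right_comm, mul_assoc _ x⁻¹ x, inv_mul_cancel₀ hx,
        mul_one]
    · rw [h, pow_succ x (n + 1), mul_inv, div_eq_mul_inv, mul_right_comm]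

/-! ### The iteration -/

/-- The pair law at index `n` for a sequence `k`. -/
def PairHyp (β : Γ₀) (k : ℕ → Γ₀) (n : ℕ) : Prop :=
  (k (n + 1) = Fm β (k n) (k 1) ∧ k (n - 1) = Fd (k n) (k 1)) ∨
    (k (n + 1) = Fd (k n) (k 1) ∧ k (n - 1) = Fm β (k n) (k 1))

theorem iter_rel {β : Γ₀} (hβ : β ≠ 0) {k : ℕ → Γ₀} (h0 : k 0 = 1) (h1 : k 1 ≠ 0) (M : ℕ)
    (hpair : ∀ n, 1 ≤ n → n ≤ M → PairHyp β k n) :
    ∀ n, n ≤ M + 1 → Rel β (k 1 ^ n) (k n) := by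
  have key : ∀ n, n ≤ M → Rel β (k 1 ^ n) (k n) ∧ Rel β (k 1 ^ (n + 1)) (k (n + 1)) := by
    intro n
    induction n with
    | zero =>
      intro _
      refine ⟨?_, ?_⟩
      · rw [pow_zero, h0]; exact Rel.refl _ _
      · rw [zero_add, pow_one]; exact Rel.refl _ _
    | succ n ih =>
      intro hn
      obtain ⟨ihn, ihn1⟩ := ih (by omega)
      refine ⟨ihn1, ?_⟩
      have hp := hpair (n + 1) (by omega) hn
      have hFm := rel_Fm β (k (n + 1)) (k 1)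
      have hFd := rel_Fd β (k (n + 1)) (k 1)
      simp only [PairHyp, Nat.add_sub_cancel] at hp
      rcases rel_step h1 ihn1 with ⟨hA, hB⟩ | ⟨hA, hB⟩
      · -- `Fm ~ x ^ (n + 2)`, `Fd ~ x ^ n`
        rcases hp with ⟨e1, e2⟩ | ⟨e1, e2⟩
        · rw [e1]; exact hA.trans hβ hFm
        · -- `k (n + 2) = Fd ~ x ^ n ~ k n = Fm ~ x ^ (n + 2)`
          have a1 : Rel β (k 1 ^ (n + 2)) (k n) := by rw [e2]; exact hA.trans hβ hFm
          have a2 : Rel β (k 1 ^ n) (k (n + 2)) := by rw [e1]; exact hB.trans hβ hFd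
          exact (a1.trans hβ (ihn.symm hβ)).trans hβ a2
      · -- `Fm ~ x ^ n`, `Fd ~ x ^ (n + 2)`
        rcases hp with ⟨e1, e2⟩ | ⟨e1, e2⟩
        · have a1 : Rel β (k 1 ^ (n + 2)) (k n) := by rw [e2]; exact hB.trans hβ hFd
          have a2 : Rel β (k 1 ^ n) (k (n + 2)) := by rw [e1]; exact hA.trans hβ hFm
          exact (a1.trans hβ (ihn.symm hβ)).trans hβ a2
        · rw [e1]; exact hB.trans hβ hFd
  intro n hn
  rcases Nat.eq_zero_or_pos n with rfl | hpos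
  · exact (key 0 (Nat.zero_le _)).1
  · obtain ⟨m, rfl⟩ : ∃ m, n = m + 1 := ⟨n - 1, by omega⟩
    exact (key m (by omega)).2

/-- **Iteration (N)**, bounded range: if `k 0 = 1` and the pair law holds at all indices
`1 ≤ n ≤ M`, then `k n` is dihedrally related to `k 1 ^ n` for all `n ≤ M + 1`. -/
theorem iter {β : Γ₀} (hβ0 : 0 < β) {k : ℕ → Γ₀} (h0 : k 0 = 1) (h1 : k 1 ≠ 0) (M : ℕ)
    (hpair : ∀ n, 1 ≤ n → n ≤ M →
      (k (n + 1) = Fm β (k n) (k 1) ∧ k (n - 1) = Fd (k n) (k 1)) ∨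
        (k (n + 1) = Fd (k n) (k 1) ∧ k (n - 1) = Fm β (k n) (k 1))) :
    ∀ n, n ≤ M + 1 → ∃ j : ℤ, k n = k 1 ^ n * β ^ (2 * j) ∨ k n * k 1 ^ n = β ^ (2 * j) := by
  intro n hn
  obtain ⟨j, h | h⟩ := rel_iff.mp (iter_rel hβ0.ne' h0 h1 M hpair n hn)
  · exact ⟨j, Or.inl h⟩
  · refine ⟨j, Or.inr ?_⟩
    rw [h, mul_right_comm, inv_mul_cancel₀ (pow_ne_zero n h1), one_mul]

/-- **Iteration (N)**, all indices. -/
theorem iter_all {β : Γ₀} (hβ0 : 0 < β) {k : ℕ → Γ₀} (h0 : k 0 = 1) (h1 : k 1 ≠ 0)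
    (hpair : ∀ n, 1 ≤ n →
      (k (n + 1) = Fm β (k n) (k 1) ∧ k (n - 1) = Fd (k n) (k 1)) ∨
        (k (n + 1) = Fd (k n) (k 1) ∧ k (n - 1) = Fm β (k n) (k 1))) :
    ∀ n, ∃ j : ℤ, k n = k 1 ^ n * β ^ (2 * j) ∨ k n * k 1 ^ n = β ^ (2 * j) :=
  fun n => iter hβ0 h0 h1 n (fun m hm _ => hpair m hm) n (Nat.le_succ n)

/-- **(N1)** If the pair law holds at `1 ≤ n ≤ p - 1` and `k p = 1`, then `k 1 ^ p` is an even
power of `β`. -/
theorem pow_mem_of_eq_one {β : Γ₀} (hβ0 : 0 < β) {k : ℕ → Γ₀} (h0 : k 0 = 1) (h1 : k 1 ≠ 0)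
    {p : ℕ} (hpair : ∀ n, 1 ≤ n → n ≤ p - 1 →
      (k (n + 1) = Fm β (k n) (k 1) ∧ k (n - 1) = Fd (k n) (k 1)) ∨
        (k (n + 1) = Fd (k n) (k 1) ∧ k (n - 1) = Fm β (k n) (k 1)))
    (hp : k p = 1) : ∃ j : ℤ, k 1 ^ p = β ^ (2 * j) := by
  have hβ : β ≠ 0 := hβ0.ne'
  obtain ⟨c, hc, h | h⟩ := iter_rel hβ h0 h1 (p - 1) hpair p (by omega)
  · -- `1 = x ^ p * c`
    have hc0 := hc.ne_zero hβ
    have : k 1 ^ p = c⁻¹ := by
      rw [hp] at h
      exact eq_inv_of_mul_eq_one_left h.symm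
    rw [this]
    exact hc.inv
  · have hx0 : k 1 ^ p ≠ 0 := pow_ne_zero p h1
    have : k 1 ^ p = c := by
      rw [hp] at h
      have h2 : k 1 ^ p * 1 = k 1 ^ p * ((k 1 ^ p)⁻¹ * c) := by rw [← h]
      rw [mul_one, ← mul_assoc, mul_inv_cancel₀ hx0, one_mul] at h2
      exact h2
    rw [this]
    exact hc

/-- **(N2)** If the pair law holds at `1 ≤ n ≤ m` and `k (m + 1) = k m`, then `k 1 ^ (2 * m + 1)`
is an even power of `β`. -/
theorem pow_mem_of_half {β : Γ₀} (hβ0 : 0 < β) {k : ℕ → Γ₀} (h0 : k 0 = 1) (h1 : k 1 ≠ 0)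
    {m : ℕ} (hpair : ∀ n, 1 ≤ n → n ≤ m →
      (k (n + 1) = Fm β (k n) (k 1) ∧ k (n - 1) = Fd (k n) (k 1)) ∨
        (k (n + 1) = Fd (k n) (k 1) ∧ k (n - 1) = Fm β (k n) (k 1)))
    (hm : k (m + 1) = k m) : ∃ j : ℤ, k 1 ^ (2 * m + 1) = β ^ (2 * j) := by
  have hβ : β ≠ 0 := hβ0.ne'
  set x := k 1 with hx
  have hxm : x ^ m ≠ 0 := pow_ne_zero m h1
  have hxm1 : x ^ (m + 1) ≠ 0 := pow_ne_zero (m + 1) h1
  have hsplit : x ^ (2 * m + 1) = x ^ (m + 1) * x ^ m := by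
    rw [← pow_add]; congr 1; omega
  obtain ⟨c, hc, h | h⟩ := iter_rel hβ h0 h1 m hpair (m + 1) le_rfl <;>
  obtain ⟨d, hd, h' | h'⟩ := iter_rel hβ h0 h1 m hpair m (Nat.le_succ m)
  · -- `x ^ (m + 1) * c = x ^ m * d`, so `x = d / c`
    have hc0 := hc.ne_zero hβ
    have e : x ^ m * (x * c) = x ^ m * d := by
      rw [← mul_assoc, ← pow_succ, ← h, ← h', hm]
    have e2 : x * c = d := mul_left_cancel₀ hxm e
    have e3 : x = d / c := by rw [← e2, mul_div_assoc, div_self hc0, mul_one]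
    rw [e3]
    exact (hd.div hβ hc).pow _
  · -- `x ^ (m + 1) * c = (x ^ m)⁻¹ * d`
    have hc0 := hc.ne_zero hβ
    have e : x ^ (m + 1) * x ^ m * c = d := by
      have : x ^ (m + 1) * c = (x ^ m)⁻¹ * d := by rw [← h, ← h', hm]
      rw [mul_right_comm, this, mul_right_comm, inv_mul_cancel₀ hxm, one_mul]
    have e3 : x ^ (2 * m + 1) = d / c := by
      rw [hsplit, ← e, mul_div_assoc, div_self hc0, mul_one]
    rw [e3]
    exact hd.div hβ hc
  · -- `(x ^ (m + 1))⁻¹ * c = x ^ m * d`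
    have hd0 := hd.ne_zero hβ
    have e : x ^ (m + 1) * x ^ m * d = c := by
      have : (x ^ (m + 1))⁻¹ * c = x ^ m * d := by rw [← h, ← h', hm]
      rw [mul_assoc, ← this, ← mul_assoc, mul_inv_cancel₀ hxm1, one_mul]
    have e3 : x ^ (2 * m + 1) = c / d := by
      rw [hsplit, ← e, mul_div_assoc, div_self hd0, mul_one]
    rw [e3]
    exact hc.div hβ hd
  · -- `(x ^ (m + 1))⁻¹ * c = (x ^ m)⁻¹ * d`, so `x = c / d`
    have hd0 := hd.ne_zero hβ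
    have e : c = x * d := by
      have : (x ^ (m + 1))⁻¹ * c = (x ^ m)⁻¹ * d := by rw [← h, ← h', hm]
      have e1 : x ^ (m + 1) * ((x ^ (m + 1))⁻¹ * c) = x ^ (m + 1) * ((x ^ m)⁻¹ * d) := by
        rw [this]
      rw [← mul_assoc, mul_inv_cancel₀ hxm1, one_mul, pow_succ, ← mul_assoc,
        mul_right_comm (x ^ m) x, mul_inv_cancel₀ hxm, one_mul] at e1
      exact e1
    have e3 : x = c / d := by rw [e, mul_div_assoc, div_self hd0, mul_one]
    rw [e3]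
    exact (hc.div hβ hd).pow _

/-- **(N3)** If `β = u ^ p` with `p` odd, `β ≤ x ≤ 1` and `x ^ p` is an even power of `β`, then
`x = 1`, or `β < x < 1` and `x = u ^ (2 * j)` with `0 < 2 * j < p`.  In particular `x ≠ β`. -/
theorem final {β u x : Γ₀} (hu0 : 0 < u) (hu1 : u < 1) {p : ℕ} (hodd : Odd p) (hβ : β = u ^ p)
    (hx : β ≤ x ∧ x ≤ 1) (hpow : ∃ j : ℤ, x ^ p = β ^ (2 * j)) :
    x = 1 ∨ (β < x ∧ x < 1 ∧ ∃ j : ℕ, 0 < j ∧ 2 * j < p ∧ x = u ^ (2 * j)) := by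
  obtain ⟨j, hj⟩ := hpow
  have hp0 : p ≠ 0 := by
    rintro rfl
    exact absurd hodd (by decide)
  -- `x = u ^ (2 * j)`
  have hxu : x = u ^ (2 * j) := by
    have h2 : x ^ p = (u ^ (2 * j)) ^ p := by
      rw [hj, hβ, ← zpow_natCast (u ^ (2 * j)) p, ← zpow_mul, ← zpow_natCast u p, ← zpow_mul,
        mul_comm]
    exact (pow_left_inj hp0).mp h2
  -- `0 ≤ 2 * j ≤ p`
  have hj0 : 0 ≤ 2 * j := by
    have h3 : u ^ (2 * j) ≤ u ^ (0 : ℤ) := by rw [zpow_zero, ← hxu]; exact hx.2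
    exact (zpow_le_zpow_iff_right_of_lt_one₀ hu0 hu1).mp h3
  have hjp : 2 * j ≤ (p : ℤ) := by
    have h3 : u ^ (p : ℤ) ≤ u ^ (2 * j) := by rw [zpow_natCast, ← hxu, ← hβ]; exact hx.1
    exact (zpow_le_zpow_iff_right_of_lt_one₀ hu0 hu1).mp h3
  have hjp' : 2 * j < (p : ℤ) := by
    rcases lt_or_eq_of_le hjp with h | h
    · exact h
    · exfalso
      obtain ⟨r, hr⟩ := hodd
      rw [hr] at h
      push_cast at h
      omega
  rcases eq_or_lt_of_le hj0 with h | h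
  · left
    rw [hxu, ← h, zpow_zero]
  · right
    refine ⟨?_, ?_, j.toNat, by omega, by omega, ?_⟩
    · rw [hβ, hxu, ← zpow_natCast]
      exact (zpow_lt_zpow_iff_right_of_lt_one₀ hu0 hu1).mpr hjp'
    · rw [hxu, ← zpow_zero u]
      exact (zpow_lt_zpow_iff_right_of_lt_one₀ hu0 hu1).mpr h
    · rw [hxu, ← zpow_natCast]
      congr 1
      have : ((j.toNat : ℕ) : ℤ) = j := Int.toNat_of_nonneg (by omega)
      push_cast
      rw [this]

/-- Under the hypotheses of `final`, `x ≠ β`. -/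
theorem final_ne {β u x : Γ₀} (hu0 : 0 < u) (hu1 : u < 1) {p : ℕ} (hodd : Odd p)
    (hβ : β = u ^ p) (hx : β ≤ x ∧ x ≤ 1) (hpow : ∃ j : ℤ, x ^ p = β ^ (2 * j)) : x ≠ β := by
  have hp0 : p ≠ 0 := by
    rintro rfl
    exact absurd hodd (by decide)
  have hβ1 : β < 1 := by
    rw [hβ]; exact pow_lt_one₀ hu0.le hu1 hp0
  rcases final hu0 hu1 hodd hβ hx hpow with h | ⟨h, -, -⟩
  · rw [h]; exact hβ1.ne'
  · exact h.ne'

/-! ### Uniqueness of orbit representatives in `[β, 1]` -/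

/-- Two dihedrally related elements of the interval `[β, 1]` are equal. -/
theorem Rel.eq_of_mem_Icc {β s t : Γ₀} (hβ0 : 0 < β) (hβ1 : β < 1) (h : Rel β s t)
    (hs : β ≤ s ∧ s ≤ 1) (ht : β ≤ t ∧ t ≤ 1) : s = t := by
  have hβ : β ≠ 0 := hβ0.ne'
  have hs0 : s ≠ 0 := (lt_of_lt_of_le hβ0 hs.1).ne'
  obtain ⟨j, h | h⟩ := rel_iff.mp h
  · -- `t = s * β ^ (2 * j)`: then `j = 0`
    have hj : j = 0 := by
      by_contra hne
      rcases lt_or_gt_of_ne hne with hneg | hpos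
      · -- `β ^ (2 * j) ≥ β⁻¹ ^ 2 > β⁻¹`, so `t > 1`
        have h1 : β ^ (-1 : ℤ) ≤ β ^ (2 * j) :=
          (zpow_le_zpow_iff_right_of_lt_one₀ hβ0 hβ1).mpr (by omega)
        have h2 : (1 : Γ₀) < β * β ^ (2 * j) := by
          have h3 : β * β ^ (-1 : ℤ) ≤ β * β ^ (2 * j) := by gcongr
          have h4 : β * β ^ (-1 : ℤ) = 1 := by
            rw [zpow_neg_one, mul_inv_cancel₀ hβ]
          rw [h4] at h3
          rcases eq_or_lt_of_le h3 with h5 | h5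
          · exfalso
            have h6 : β ^ (1 + 2 * j) = β ^ (0 : ℤ) := by
              rw [zpow_add₀ hβ, zpow_one, zpow_zero, ← h5]
            have := zpow_right_injective₀ hβ0 hβ1.ne h6
            omega
          · exact h5
        have h7 : β * β ^ (2 * j) ≤ s * β ^ (2 * j) := by gcongr; exact hs.1
        rw [← h] at h7
        exact absurd ht.2 (not_le.mpr (lt_of_lt_of_le h2 h7))
      · -- `β ^ (2 * j) ≤ β ^ 2 < β`, so `t < β`
        have h1 : β ^ (2 * j) < β ^ (1 : ℤ) :=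
          (zpow_lt_zpow_iff_right_of_lt_one₀ hβ0 hβ1).mpr (by omega)
        rw [zpow_one] at h1
        have h2 : s * β ^ (2 * j) ≤ 1 * β ^ (2 * j) := by gcongr; exact hs.2
        rw [one_mul, ← h] at h2
        exact absurd ht.1 (not_le.mpr (lt_of_le_of_lt h2 h1))
    rw [h, hj, mul_zero, zpow_zero, mul_one]
  · -- `t * s = β ^ (2 * j)` with `β ^ 2 ≤ t * s ≤ 1`: `j = 0` or `j = 1`
    have hts : t * s = β ^ (2 * j) := by
      rw [h, mul_right_comm, inv_mul_cancel₀ hs0, one_mul]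
    have hle1 : t * s ≤ 1 := by
      calc t * s ≤ 1 * 1 := by gcongr; exacts [ht.2, hs.2]
        _ = 1 := mul_one 1
    have hge : β ^ 2 ≤ t * s := by
      calc β ^ 2 = β * β := sq β
        _ ≤ t * s := by gcongr; exacts [ht.1, hs.1]
    have hj0 : 0 ≤ 2 * j := by
      have h3 : β ^ (2 * j) ≤ β ^ (0 : ℤ) := by rw [zpow_zero, ← hts]; exact hle1
      exact (zpow_le_zpow_iff_right_of_lt_one₀ hβ0 hβ1).mp h3
    have hj2 : 2 * j ≤ 2 := by
      have h3 : β ^ (2 : ℤ) ≤ β ^ (2 * j) := by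
        rw [← hts]; exact_mod_cast hge
      exact (zpow_le_zpow_iff_right_of_lt_one₀ hβ0 hβ1).mp h3
    have hj : j = 0 ∨ j = 1 := by omega
    rcases hj with rfl | rfl
    · -- `t * s = 1`, both `≤ 1`
      rw [mul_zero, zpow_zero] at hts
      have hs1 : s = 1 := by
        refine le_antisymm hs.2 ?_
        by_contra hlt
        have hlt' : s < 1 := not_le.mp hlt
        have ht0 : 0 < t := lt_of_lt_of_le hβ0 ht.1
        have : t * s < t * 1 := by gcongr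
        rw [hts, mul_one] at this
        exact absurd ht.2 (not_le.mpr this)
      rw [hs1, mul_one] at hts
      rw [hs1, hts]
    · -- `t * s = β ^ 2`, both `≥ β`
      have hts' : t * s = β * β := by
        rw [hts]; norm_num [zpow_ofNat, sq]
      have hsβ : s = β := by
        refine le_antisymm ?_ hs.1
        by_contra hlt
        have hlt' : β < s := not_le.mp hlt
        have ht0 : 0 < t := lt_of_lt_of_le hβ0 ht.1
        have h5 : t * β < t * s := by gcongr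
        have h6 : β * β ≤ t * β := by gcongr; exact ht.1
        rw [hts'] at h5
        exact absurd h6 (not_le.mpr h5)
      rw [hsβ] at hts'
      have := mul_right_cancel₀ hβ hts'
      rw [hsβ, this]

end Fermat.Agent.S05.PairIter
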