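import Fermat.Agent.S05.NodeModel
import Fermat.Agent.S05.PairIter

/-!
# S05 (K1 + K2, hedge): the clamped absolute value of a point at a node, and torsion points

Single-file version of the chain `KapPoint → NodeKap`: for a Weierstrass curve `E` over a valued
field with a 2-torsion abscissa `r` such that `v (An E r) = 1`, `v (Bn E r) = v u ^ p < 1`,
every nonzero `p`-torsion point `T` (`p` an odd prime) has `1 ≤ v (Xn T)` or
`v (Bn) < v (Xn T) < 1` with `v (Xn T) = v (u ^ (2 * j))`.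
-/

set_option autoImplicit false

namespace Fermat.Agent.S05.NodeKapB

open WeierstrassCurve Fermat.Agent.S05.XPair Fermat.Agent.S05.NodeModel Fermat.Agent.S05.PairLaw

variable {K : Type*} [Field K] [DecidableEq K] {Γ₀ : Type*} [LinearOrderedCommGroupWithZero Γ₀]

open Classical in
/-- The clamped absolute value of the normalized abscissa of a point (`1` at the origin). -/
noncomputable def kapP (v : Valuation K Γ₀) (E : WeierstrassCurve K) (r : K)
    (T : E.toAffine.Point) : Γ₀ :=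
  if T = 0 then 1 else kap v (Bn E r) (Xn E r T)

variable (v : Valuation K Γ₀) (E : WeierstrassCurve K) (r : K)

theorem kapP_zero : kapP v E r 0 = 1 := by
  simp [kapP]

theorem kapP_of_ne {T : E.toAffine.Point} (hT : T ≠ 0) :
    kapP v E r T = kap v (Bn E r) (Xn E r T) := by
  simp [kapP, hT]

theorem kapP_neg (T : E.toAffine.Point) : kapP v E r (-T) = kapP v E r T := by
  by_cases hT : T = 0
  · subst hT; rw [neg_zero]
  · rw [kapP_of_ne v E r hT, kapP_of_ne v E r (neg_ne_zero.mpr hT), Xn_neg]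

theorem le_kapP (hB1 : v (Bn E r) ≤ 1) (T : E.toAffine.Point) : v (Bn E r) ≤ kapP v E r T := by
  by_cases hT : T = 0
  · subst hT; rw [kapP_zero]; exact hB1
  · rw [kapP_of_ne v E r hT]; exact le_kap _ _

theorem kapP_le_one (hB1 : v (Bn E r) ≤ 1) (T : E.toAffine.Point) : kapP v E r T ≤ 1 := by
  by_cases hT : T = 0
  · subst hT; rw [kapP_zero]
  · rw [kapP_of_ne v E r hT]; exact kap_le_one hB1 _

variable {v E r}

/-- the doubling case of the pair law. -/
theorem kapP_dbl (hr : dblDen E r = 0) (hv2 : v 2 = 1) (hA : v (An E r) = 1)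
    (hB0 : Bn E r ≠ 0) (hB1 : v (Bn E r) < 1) {P : E.toAffine.Point} (hP : P ≠ 0) :
    kapP v E r (P + P) = Fm (v (Bn E r)) (kapP v E r P) (kapP v E r P) := by
  have h2 : (2 : K) ≠ 0 := by
    intro h; rw [h, map_zero] at hv2; exact zero_ne_one hv2
  rw [kapP_of_ne v E r hP]
  by_cases hPP : P + P = 0
  · rw [hPP, kapP_zero]
    have hG := (add_self_eq_zero_iff_Gn E hr h2 hP).mp hPP
    exact (dbl_law_zero hA hB0 hB1 (by simpa [Gn] using hG)).symm
  · rw [kapP_of_ne v E r hPP]
    have hG : Gn E r (Xn E r P) ≠ 0 := fun h => hPP ((add_self_eq_zero_iff_Gn E hr h2 hP).mpr h)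
    have hY := Yc_sq E hr hP
    have hY0 : Yc E P ≠ 0 := by
      intro h; rw [h] at hY; exact hG (by rw [← hY]; ring)
    have hd := node_dbl E hr hP hPP
    refine dbl_law (Y := Yc E P) hv2 hA hB0 hB1 hY0 (by rw [hY]; rfl) ?_
    rw [hY]
    linear_combination hd

/-- **Total pair law** for the clamped absolute value at a node. -/
theorem kapP_pair (hr : dblDen E r = 0) (hv2 : v 2 = 1) (hA : v (An E r) = 1)
    (hB0 : Bn E r ≠ 0) (hB1 : v (Bn E r) < 1) (P Q : E.toAffine.Point) :
    (kapP v E r (P + Q) = Fm (v (Bn E r)) (kapP v E r P) (kapP v E r Q) ∧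
        kapP v E r (P - Q) = Fd (kapP v E r P) (kapP v E r Q)) ∨
      (kapP v E r (P + Q) = Fd (kapP v E r P) (kapP v E r Q) ∧
        kapP v E r (P - Q) = Fm (v (Bn E r)) (kapP v E r P) (kapP v E r Q)) := by
  have hβ0 : 0 < v (Bn E r) := zero_lt_iff.mpr ((Valuation.ne_zero_iff v).mpr hB0)
  have hk0 : ∀ T : E.toAffine.Point, kapP v E r T ≠ 0 := fun T =>
    (lt_of_lt_of_le hβ0 (le_kapP v E r hB1.le T)).ne'
  have h4 : (4 : K) ≠ 0 := by
    have : v (4 : K) = 1 := by
      rw [show (4 : K) = 2 * 2 by norm_num, map_mul, hv2, mul_one]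
    intro h; rw [h, map_zero] at this; exact zero_ne_one this
  by_cases hP : P = 0
  · subst hP
    left
    rw [zero_add, zero_sub, kapP_neg, kapP_zero, Fm_comm, Fd_comm,
      Fm_one_right (le_kapP v E r hB1.le Q), Fd_one_right (kapP_le_one v E r hB1.le Q)]
    exact ⟨rfl, rfl⟩
  by_cases hQ : Q = 0
  · subst hQ
    left
    rw [add_zero, sub_zero, kapP_zero,
      Fm_one_right (le_kapP v E r hB1.le P), Fd_one_right (kapP_le_one v E r hB1.le P)]
    exact ⟨rfl, rfl⟩
  by_cases hx : xc E P = xc E Q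
  · rcases (xc_eq_iff E hP hQ).mp hx with h | h
    · subst h
      left
      rw [sub_self, kapP_zero, Fd_self (hk0 P)]
      exact ⟨kapP_dbl hr hv2 hA hB0 hB1 hP, rfl⟩
    · subst h
      right
      rw [neg_add_cancel, kapP_zero, kapP_neg, Fd_self (hk0 Q)]
      refine ⟨rfl, ?_⟩
      rw [show -Q - Q = -(Q + Q) by abel, kapP_neg]
      exact kapP_dbl hr hv2 hA hB0 hB1 hQ
  · obtain ⟨hPQ, hPQ', hs, hp⟩ := node_pair E hr hP hQ hx
    rw [kapP_of_ne v E r hP, kapP_of_ne v E r hQ, kapP_of_ne v E r hPQ, kapP_of_ne v E r hPQ']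
    have hX : Xn E r P ≠ Xn E r Q := by
      intro h
      apply hx
      simp only [Xn] at h
      have := mul_left_cancel₀ h4 h
      linear_combination this
    exact pair_law hv2 hA hB0 hB1 hX (by linear_combination hs) (by linear_combination hp)

/-- **(K2)** the position of a nonzero `p`-torsion point relative to the node. -/
theorem node_torsion_val (h2 : v 2 = 1) (hr : dblDen E r = 0) (hA : v (An E r) = 1) {u : K}
    (hu0 : u ≠ 0) (hu1 : v u < 1) {p : ℕ} (hp : p.Prime) (hp2 : p ≠ 2)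
    (hB : v (Bn E r) = v u ^ p) {T : E.toAffine.Point} (hT : T ≠ 0) (hpT : p • T = 0) :
    1 ≤ v (Xn E r T) ∨ (v (Bn E r) < v (Xn E r T) ∧ v (Xn E r T) < 1 ∧
      ∃ j : ℕ, v (Xn E r T) = v (u ^ (2 * j))) := by
  have hvu0 : 0 < v u := zero_lt_iff.mpr ((Valuation.ne_zero_iff v).mpr hu0)
  have hβ0 : 0 < v (Bn E r) := by rw [hB]; exact pow_pos hvu0 p
  have hB0 : Bn E r ≠ 0 := (Valuation.ne_zero_iff v).mp hβ0.ne'
  have hB1 : v (Bn E r) < 1 := by rw [hB]; exact pow_lt_one₀ hvu0.le hu1 hp.ne_zero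
  set k : ℕ → Γ₀ := fun n => kapP v E r (n • T) with hk
  have hk0 : k 0 = 1 := by simp only [hk, zero_smul]; exact kapP_zero v E r
  have hk1 : k 1 = kapP v E r T := by simp only [hk, one_smul]
  have hk1' : k 1 ≠ 0 := by
    rw [hk1]; exact (lt_of_lt_of_le hβ0 (le_kapP v E r hB1.le T)).ne'
  have hpair : ∀ n, 1 ≤ n → n ≤ p - 1 →
      (k (n + 1) = Fm (v (Bn E r)) (k n) (k 1) ∧ k (n - 1) = Fd (k n) (k 1)) ∨
        (k (n + 1) = Fd (k n) (k 1) ∧ k (n - 1) = Fm (v (Bn E r)) (k n) (k 1)) := by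
    intro n hn _
    have e1 : (n + 1) • T = n • T + T := succ_nsmul T n
    have e2 : (n - 1) • T = n • T - T := by
      obtain ⟨m, rfl⟩ : ∃ m, n = m + 1 := ⟨n - 1, by omega⟩
      rw [Nat.add_sub_cancel, succ_nsmul, add_sub_cancel_right]
    have := kapP_pair hr h2 hA hB0 hB1 (n • T) T
    simp only [hk, one_smul, e1, e2]
    exact this
  have hkp : k p = 1 := by simp only [hk, hpT]; exact kapP_zero v E r
  have hpow := PairIter.pow_mem_of_eq_one hβ0 hk0 hk1' hpair hkp
  have hfin := PairIter.final hvu0 hu1 (hp.odd_of_ne_two hp2) hB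
    ⟨hk1 ▸ le_kapP v E r hB1.le T, hk1 ▸ kapP_le_one v E r hB1.le T⟩ hpow
  rw [hk1, kapP_of_ne v E r hT] at hfin
  rcases hfin with h | ⟨hlt, hlt1, j, -, -, hj⟩
  · left
    by_contra hcon
    rw [not_le] at hcon
    simp only [kap, clamp] at h
    rw [min_eq_left hcon.le] at h
    rcases max_choice (v (Bn E r)) (v (Xn E r T)) with h' | h'
    · rw [h'] at h; exact hB1.ne h
    · rw [h'] at h; exact hcon.ne h
  · right
    simp only [kap, clamp] at hlt hlt1 hj
    have hm : v (Bn E r) < min (v (Xn E r T)) 1 := by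
      by_contra hcon
      rw [not_lt] at hcon
      rw [max_eq_left hcon] at hlt
      exact lt_irrefl _ hlt
    rw [max_eq_right hm.le] at hlt1 hj
    have hX1 : v (Xn E r T) < 1 := by
      by_contra hcon
      rw [not_lt] at hcon
      rw [min_eq_right hcon] at hlt1
      exact lt_irrefl _ hlt1
    rw [min_eq_left hX1.le] at hj hm
    exact ⟨hm, hX1, j, by rw [hj, map_pow]⟩

end Fermat.Agent.S05.NodeKapB
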