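import Mathlib

/-!
# The pair law for a nodal Weierstrass equation (valuation core of S05, step (M))

Pure valuation algebra, no elliptic curve API.  Setting: a field `L` with a valuation `v`,
`v 2 = 1`, and the equation `Y ^ 2 = X ^ 3 + a * X ^ 2 + b * X` with `v a = 1`, `0 < v b < 1`
(a node at `X = 0`).  For the `x`-coordinates `r₁ = X(P + Q)`, `r₂ = X(P - Q)` one has
`(r₁ + r₂) * (X₁ - X₂) ^ 2 = 2 * ((X₁ * X₂ + b) * (X₁ + X₂) + 2 * a * X₁ * X₂)` and
`r₁ * r₂ * (X₁ - X₂) ^ 2 = (X₁ * X₂ - b) ^ 2`; the clamped absolute value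
`kap x = max (v b) (min (v x) 1)` then satisfies the pair law `pair_law`.
-/

set_option autoImplicit false

namespace Fermat.Agent.S05.PairLaw

variable {L : Type*} [Field L] {Γ₀ : Type*} [LinearOrderedCommGroupWithZero Γ₀]
variable (v : Valuation L Γ₀)

/-! ### Roots of a quadratic: four Newton polygon lemmas -/

section Quadratic

variable {v} {α σ π r₁ r₂ : L}

/-- If the two roots have different absolute values, the sum has the larger one. -/
theorem quad_aux (hs : (r₁ + r₂) * α = σ) (hp : r₁ * r₂ * α = π) (h : v r₂ < v r₁) :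
    v r₁ * v α = v σ ∧ v r₂ * v σ = v π := by
  have h1 : v (r₁ + r₂) = v r₁ := Valuation.map_add_eq_of_lt_left v h
  constructor
  · rw [← hs, map_mul, h1]
  · rw [← hs, ← hp, map_mul, map_mul, map_mul, h1]
    rw [mul_comm (v r₁) (v r₂), mul_assoc]

theorem quad_one (hs : (r₁ + r₂) * α = σ) (hp : r₁ * r₂ * α = π)
    (h : v π * v α < v σ ^ 2) :
    (v r₁ * v α = v σ ∧ v r₂ * v σ = v π) ∨ (v r₂ * v α = v σ ∧ v r₁ * v σ = v π) := by
  rcases lt_trichotomy (v r₁) (v r₂) with h12 | h12 | h12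
  · right
    exact quad_aux (by rw [add_comm]; exact hs) (by rw [mul_comm r₂ r₁]; exact hp) h12
  · exfalso
    have h1 : v (r₁ + r₂) ≤ v r₁ := Valuation.map_add_le v le_rfl h12.ge
    have h2 : v σ ≤ v r₁ * v α := by
      rw [← hs, map_mul]
      gcongr
    have h3 : v π * v α = (v r₁ * v α) ^ 2 := by
      rw [← hp, map_mul, map_mul, ← h12]
      rw [mul_pow, sq, sq]
      simp only [mul_assoc]
    rw [h3] at h
    have : v σ ^ 2 ≤ (v r₁ * v α) ^ 2 := by gcongr
    exact absurd h (not_lt.mpr this)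
  · left
    exact quad_aux hs hp h12

theorem quad_two (hα : α ≠ 0) (hs : (r₁ + r₂) * α = σ) (hp : r₁ * r₂ * α = π) (c : Γ₀)
    (h1 : v σ ≤ c * v α) (h2 : v π = c ^ 2 * v α) : v r₁ = c ∧ v r₂ = c := by
  have hα' : v α ≠ 0 := (Valuation.ne_zero_iff v).mpr hα
  have hα0 : 0 < v α := zero_lt_iff.mpr hα'
  have h3 : v r₁ * v r₂ = c ^ 2 := by
    rw [← hp, map_mul, map_mul] at h2
    exact mul_right_cancel₀ hα' h2
  have key : ∀ {s₁ s₂ : L}, (s₁ + s₂) * α = σ → v s₁ * v s₂ = c ^ 2 → v s₂ < v s₁ → False := by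
    intro s₁ s₂ hs' h3' h12
    have h4 : v (s₁ + s₂) = v s₁ := Valuation.map_add_eq_of_lt_left v h12
    have h5 : v s₁ ≤ c := by
      rw [← hs', map_mul, h4] at h1
      exact le_of_mul_le_mul_right h1 hα0
    have h6 : 0 < v s₁ := lt_of_le_of_lt zero_le h12
    have h7 : v s₁ * v s₂ < c ^ 2 := by
      calc v s₁ * v s₂ < v s₁ * v s₁ := by gcongr
        _ ≤ c * c := by gcongr
        _ = c ^ 2 := (sq c).symm
    exact absurd h3' h7.ne
  rcases lt_trichotomy (v r₁) (v r₂) with h12 | h12 | h12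
  · exact (key (by rw [add_comm]; exact hs) (by rw [mul_comm]; exact h3) h12).elim
  · have h4 : v r₁ ^ 2 = c ^ 2 := by rw [sq, ← h3, ← h12]
    have h5 : v r₁ = c := (pow_left_inj₀ zero_le zero_le (by norm_num)).mp h4
    exact ⟨h5, h12 ▸ h5⟩
  · exact (key hs h3 h12).elim

theorem quad_three (hα : α ≠ 0) (hs : (r₁ + r₂) * α = σ) (hp : r₁ * r₂ * α = π) (c : Γ₀)
    (h1 : v σ ≤ c * v α) (h2 : v π ≤ c ^ 2 * v α) : v r₁ ≤ c ∧ v r₂ ≤ c := by
  have hα' : v α ≠ 0 := (Valuation.ne_zero_iff v).mpr hα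
  have hα0 : 0 < v α := zero_lt_iff.mpr hα'
  have h3 : v r₁ * v r₂ ≤ c ^ 2 := by
    rw [← hp, map_mul, map_mul] at h2
    exact le_of_mul_le_mul_right h2 hα0
  have key : ∀ {s₁ s₂ : L}, (s₁ + s₂) * α = σ → v s₂ < v s₁ → v s₁ ≤ c := by
    intro s₁ s₂ hs' h12
    have h4 : v (s₁ + s₂) = v s₁ := Valuation.map_add_eq_of_lt_left v h12
    rw [← hs', map_mul, h4] at h1
    exact le_of_mul_le_mul_right h1 hα0
  rcases lt_trichotomy (v r₁) (v r₂) with h12 | h12 | h12
  · have := key (by rw [add_comm]; exact hs) h12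
    exact ⟨h12.le.trans this, this⟩
  · have h4 : v r₁ ≤ c := by
      by_contra hc
      have hc' : c < v r₁ := not_le.mp hc
      have : c ^ 2 < v r₁ * v r₂ := by
        rw [← h12, ← sq]
        exact pow_lt_pow_left₀ hc' zero_le (by norm_num)
      exact absurd h3 (not_le.mpr this)
    exact ⟨h4, h12 ▸ h4⟩
  · have := key hs h12
    exact ⟨this, h12.le.trans this⟩

theorem quad_four (hα : α ≠ 0) (hs : (r₁ + r₂) * α = σ) (hp : r₁ * r₂ * α = π)
    (h1 : v σ ≤ v π) (h2 : v α ≤ v π) : 1 ≤ v r₁ ∧ 1 ≤ v r₂ := by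
  have hα' : v α ≠ 0 := (Valuation.ne_zero_iff v).mpr hα
  have hα0 : 0 < v α := zero_lt_iff.mpr hα'
  have h3 : 1 ≤ v r₁ * v r₂ := by
    rw [← hp, map_mul, map_mul] at h2
    have : 1 * v α ≤ v r₁ * v r₂ * v α := by rwa [one_mul]
    exact le_of_mul_le_mul_right this hα0
  have key : ∀ {s₁ s₂ : L}, (s₁ + s₂) * α = σ → s₁ * s₂ * α = π → 1 ≤ v s₁ * v s₂ →
      1 ≤ v s₁ := by
    intro s₁ s₂ hs' hp' h3'
    by_contra hc
    have hc' : v s₁ < 1 := not_le.mp hc
    have h0 : 0 < v s₁ * v s₂ := lt_of_lt_of_le zero_lt_one h3'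
    have h20 : 0 < v s₂ := by
      rcases eq_or_ne (v s₂) 0 with h | h
      · rw [h, mul_zero] at h0; exact absurd h0 (lt_irrefl _)
      · exact zero_lt_iff.mpr h
    have h4 : 1 < v s₂ := by
      by_contra hc2
      have hc2' : v s₂ ≤ 1 := not_lt.mp hc2
      have : v s₁ * v s₂ < 1 := by
        calc v s₁ * v s₂ ≤ v s₁ * 1 := by gcongr
          _ = v s₁ := mul_one _
          _ < 1 := hc'
      exact absurd h3' (not_le.mpr this)
    have h5 : v (s₁ + s₂) = v s₂ := Valuation.map_add_eq_of_lt_right v (hc'.trans h4)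
    have h6 : v s₂ * v α ≤ v s₁ * (v s₂ * v α) := by
      have := h1
      rw [← hs', ← hp', map_mul, map_mul, map_mul, h5, mul_assoc] at this
      exact this
    have h7 : 1 * (v s₂ * v α) ≤ v s₁ * (v s₂ * v α) := by rwa [one_mul]
    exact hc (le_of_mul_le_mul_right h7 (by positivity))
  exact ⟨key hs hp h3, key (by rw [add_comm]; exact hs) (by rw [mul_comm r₂ r₁]; exact hp)
    (by rw [mul_comm]; exact h3)⟩

end Quadratic


/-! ### The clamped absolute value and the fold functions -/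

/-- The folded product. -/
def Fm (β k₁ k₂ : Γ₀) : Γ₀ := if β ≤ k₁ * k₂ then k₁ * k₂ else β ^ 2 / (k₁ * k₂)

/-- The folded quotient. -/
def Fd (k₁ k₂ : Γ₀) : Γ₀ := min k₁ k₂ / max k₁ k₂

theorem Fm_comm (β k₁ k₂ : Γ₀) : Fm β k₁ k₂ = Fm β k₂ k₁ := by
  unfold Fm; rw [mul_comm k₁ k₂]

theorem Fd_comm (k₁ k₂ : Γ₀) : Fd k₁ k₂ = Fd k₂ k₁ := by
  unfold Fd; rw [min_comm, max_comm]

/-- Clamp to the interval `[β, 1]`. -/
def clamp (β ρ : Γ₀) : Γ₀ := max β (min ρ 1)

theorem clamp_one {β ρ : Γ₀} (hβ : β ≤ 1) (h : 1 ≤ ρ) : clamp β ρ = 1 := by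
  unfold clamp; rw [min_eq_right h, max_eq_right hβ]

theorem clamp_self {β ρ : Γ₀} (h1 : β ≤ ρ) (h2 : ρ ≤ 1) : clamp β ρ = ρ := by
  unfold clamp; rw [min_eq_left h2, max_eq_right h1]

theorem clamp_beta {β ρ : Γ₀} (hβ : β ≤ 1) (h : ρ ≤ β) : clamp β ρ = β := by
  unfold clamp; rw [min_eq_left (h.trans hβ), max_eq_left h]

theorem le_mul_of_one_le_right'' {x y : Γ₀} (h : 1 ≤ y) : x ≤ x * y := by
  calc x = x * 1 := (mul_one _).symm
    _ ≤ x * y := by gcongr

theorem mul_le_of_le_one_right'' {x y : Γ₀} (h : y ≤ 1) : x * y ≤ x := by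
  calc x * y ≤ x * 1 := by gcongr
    _ = x := mul_one _

theorem mul_lt_of_lt_one_right'' {x y : Γ₀} (hx : 0 < x) (h : y < 1) : x * y < x := by
  calc x * y < x * 1 := by gcongr
    _ = x := mul_one _

theorem master {x₁ x₂ β D N p ρ₁ ρ₂ : Γ₀} (hβ0 : 0 < β) (hβ1 : β < 1) (h12 : x₂ ≤ x₁)
    (hD0 : D ≠ 0) (hDle : D ≤ x₁) (hDeq : x₂ < x₁ → D = x₁)
    (hNle : N ≤ max (x₁ * x₂) β) (hNl : β < x₁ * x₂ → N = x₁ * x₂)
    (hNr : x₁ * x₂ < β → N = β)
    (hple : ∀ g, max (x₁ * x₂) β * x₁ ≤ g → x₁ * x₂ ≤ g → p ≤ g)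
    (hpeq : max (x₁ * x₂) β * x₁ < x₁ * x₂ → p = x₁ * x₂)
    (Q1 : N ^ 2 * D ^ 2 < p ^ 2 →
      (ρ₁ * D ^ 2 = p ∧ ρ₂ * p = N ^ 2) ∨ (ρ₂ * D ^ 2 = p ∧ ρ₁ * p = N ^ 2))
    (Q2 : ∀ c, p ≤ c * D ^ 2 → N ^ 2 = c ^ 2 * D ^ 2 → ρ₁ = c ∧ ρ₂ = c)
    (Q3 : ∀ c, p ≤ c * D ^ 2 → N ^ 2 ≤ c ^ 2 * D ^ 2 → ρ₁ ≤ c ∧ ρ₂ ≤ c)
    (Q4 : p ≤ N ^ 2 → D ^ 2 ≤ N ^ 2 → 1 ≤ ρ₁ ∧ 1 ≤ ρ₂) :
    (clamp β ρ₁ = Fm β (clamp β x₁) (clamp β x₂) ∧ clamp β ρ₂ = Fd (clamp β x₁) (clamp β x₂)) ∨
    (clamp β ρ₁ = Fd (clamp β x₁) (clamp β x₂) ∧ clamp β ρ₂ = Fm β (clamp β x₁) (clamp β x₂)) := by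
  have hβ1' : β ≤ 1 := hβ1.le
  have hβne : β ≠ 0 := hβ0.ne'
  have hD0' : 0 < D := zero_lt_iff.mpr hD0
  rcases le_or_gt 1 x₁ with hx1 | hx1
  · -- x₁ ≥ 1
    have k1 : clamp β x₁ = 1 := clamp_one hβ1' hx1
    have hx10 : 0 < x₁ := lt_of_lt_of_le zero_lt_one hx1
    rcases le_or_gt 1 x₂ with hx2 | hx2
    · -- AA
      have k2 : clamp β x₂ = 1 := clamp_one hβ1' hx2
      have h11 : 1 ≤ x₁ * x₂ := hx1.trans (le_mul_of_one_le_right'' hx2)
      have hN : N = x₁ * x₂ := hNl (lt_of_lt_of_le hβ1 h11)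
      have hD : D ≤ x₁ * x₂ := hDle.trans (le_mul_of_one_le_right'' hx2)
      obtain ⟨a1, a2⟩ := Q4 (by
          rw [hN]
          refine hple _ ?_ ?_
          · rw [max_eq_left (hβ1'.trans h11), sq]
            gcongr
            exact le_mul_of_one_le_right'' hx2
          · rw [sq]
            exact le_mul_of_one_le_right'' h11) (by rw [hN]; gcongr)
      left
      rw [clamp_one hβ1' a1, clamp_one hβ1' a2, k1, k2]
      refine ⟨?_, ?_⟩
      · simp [Fm, hβ1']
      · simp [Fd]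
    · rcases le_or_gt x₂ β with hx2b | hx2b
      · -- AC
        have k2 : clamp β x₂ = β := clamp_beta hβ1' hx2b
        have hD : D = x₁ := hDeq (lt_of_lt_of_le hx2 hx1)
        have hmax : max (x₁ * x₂) β ≤ x₁ * β := by
          refine max_le (by gcongr) ?_
          calc β = 1 * β := (one_mul _).symm
            _ ≤ x₁ * β := by gcongr
        obtain ⟨a1, a2⟩ := Q3 β (by
            rw [hD]
            refine hple _ ?_ ?_
            · calc max (x₁ * x₂) β * x₁ ≤ x₁ * β * x₁ := by gcongr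
                _ = β * x₁ ^ 2 := by rw [sq, mul_comm x₁ β, mul_assoc]
            · calc x₁ * x₂ ≤ x₁ * β := by gcongr
                _ ≤ x₁ * β * x₁ := le_mul_of_one_le_right'' hx1
                _ = β * x₁ ^ 2 := by rw [sq, mul_comm x₁ β, mul_assoc]) (by
            rw [hD, ← mul_pow]
            have : N ≤ β * x₁ := by rw [mul_comm]; exact hNle.trans hmax
            gcongr)
        left
        rw [clamp_beta hβ1' a1, clamp_beta hβ1' a2, k1, k2]
        refine ⟨?_, ?_⟩
        · simp [Fm]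
        · simp [Fd, min_eq_right hβ1', max_eq_left hβ1']
      · -- AB
        have k2 : clamp β x₂ = x₂ := clamp_self hx2b.le hx2.le
        have hD : D = x₁ := hDeq (lt_of_lt_of_le hx2 hx1)
        have hx20 : 0 < x₂ := hβ0.trans hx2b
        have hbx : β < x₁ * x₂ := by
          calc β < x₂ := hx2b
            _ = 1 * x₂ := (one_mul _).symm
            _ ≤ x₁ * x₂ := by gcongr
        have hN : N = x₁ * x₂ := hNl hbx
        obtain ⟨a1, a2⟩ := Q2 x₂ (by
            rw [hD]
            refine hple _ ?_ ?_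
            · rw [max_eq_left hbx.le]
              exact le_of_eq (by rw [sq, mul_comm x₁ x₂, mul_assoc])
            · calc x₁ * x₂ ≤ x₁ * x₂ * x₁ := le_mul_of_one_le_right'' hx1
                _ = x₂ * x₁ ^ 2 := by rw [sq, mul_comm x₁ x₂, mul_assoc]) (by
            rw [hD, hN, mul_pow, mul_comm])
        left
        rw [a1, a2, k1, k2]
        refine ⟨?_, ?_⟩
        · simp [Fm, hx2b.le]
        · simp [Fd, min_eq_right hx2.le, max_eq_left hx2.le]
  · -- x₁ < 1
    rcases le_or_gt x₁ β with hx1b | hx1b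
    · -- CC
      have hx2b : x₂ ≤ β := h12.trans hx1b
      have k1 : clamp β x₁ = β := clamp_beta hβ1' hx1b
      have k2 : clamp β x₂ = β := clamp_beta hβ1' hx2b
      have hbb : β * β < β := mul_lt_of_lt_one_right'' hβ0 hβ1
      have hxx : x₁ * x₂ ≤ β * β := by gcongr
      have hN : N = β := hNr (lt_of_le_of_lt hxx hbb)
      obtain ⟨a1, a2⟩ := Q4 (by
          rw [hN]
          refine hple _ ?_ ?_
          · rw [max_eq_right (hxx.trans hbb.le), sq]
            gcongr
          · rw [sq]; exact hxx) (by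
          rw [hN]
          have : D ≤ β := hDle.trans hx1b
          gcongr)
      left
      rw [clamp_one hβ1' a1, clamp_one hβ1' a2, k1, k2]
      refine ⟨?_, ?_⟩
      · have : ¬ β ≤ β * β := not_le.mpr hbb
        simp only [Fm, this, if_false]
        rw [sq, div_self (mul_ne_zero hβne hβne)]
      · simp [Fd, hβne]
    · -- β < x₁ < 1
      have k1 : clamp β x₁ = x₁ := clamp_self hx1b.le hx1.le
      have hx10 : 0 < x₁ := hβ0.trans hx1b
      have hx1ne : x₁ ≠ 0 := hx10.ne'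
      rcases le_or_gt x₂ β with hx2b | hx2b
      · -- BC
        have k2 : clamp β x₂ = β := clamp_beta hβ1' hx2b
        have hD : D = x₁ := hDeq (lt_of_le_of_lt hx2b hx1b)
        have hxx : x₁ * x₂ < β := by
          calc x₁ * x₂ ≤ x₁ * β := by gcongr
            _ < 1 * β := by gcongr
            _ = β := one_mul _
        have hN : N = β := hNr hxx
        obtain ⟨a1, a2⟩ := Q2 (β / x₁) (by
            rw [hD]
            refine hple _ ?_ ?_
            · rw [max_eq_right hxx.le]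
              exact le_of_eq (by field_simp)
            · calc x₁ * x₂ ≤ x₁ * β := by gcongr
                _ = β / x₁ * x₁ ^ 2 := by field_simp) (by
            rw [hD, hN]; field_simp)
        have c1 : β ≤ β / x₁ := by
          rw [le_div_iff₀ hx10]
          exact mul_le_of_le_one_right'' hx1.le
        have c2 : β / x₁ ≤ 1 := by
          rw [div_le_iff₀ hx10, one_mul]; exact hx1b.le
        left
        rw [a1, a2, k1, k2, clamp_self c1 c2]
        refine ⟨?_, ?_⟩
        · have : ¬ β ≤ x₁ * β := by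
            rw [not_le]
            calc x₁ * β < 1 * β := by gcongr
              _ = β := one_mul _
          simp only [Fm, this, if_false]
          field_simp
        · simp [Fd, min_eq_right hx1b.le, max_eq_left hx1b.le]
      · -- BB
        have k2 : clamp β x₂ = x₂ := clamp_self hx2b.le (h12.trans hx1.le)
        have hx20 : 0 < x₂ := hβ0.trans hx2b
        have hx2ne : x₂ ≠ 0 := hx20.ne'
        have hxx0 : 0 < x₁ * x₂ := by positivity
        have hp : p = x₁ * x₂ := hpeq (by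
          rcases le_total (x₁ * x₂) β with h | h
          · rw [max_eq_right h]
            calc β * x₁ < x₂ * x₁ := by gcongr
              _ = x₁ * x₂ := mul_comm _ _
          · rw [max_eq_left h]
            exact mul_lt_of_lt_one_right'' hxx0 hx1)
        have hD1 : D < 1 := lt_of_le_of_lt hDle hx1
        have hDD : D ^ 2 < 1 := by
          calc D ^ 2 = D * D := sq D
            _ < 1 * 1 := by gcongr
            _ = 1 := one_mul 1
        have hxx1 : x₁ * x₂ ≤ 1 := (mul_le_of_le_one_right'' (h12.trans hx1.le)).trans hx1.le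
        have hbb : β * β ≤ x₁ * x₂ := by
          have := hx1b.le
          have := hx2b.le
          gcongr
        have hFd : Fd x₁ x₂ = x₂ / x₁ := by simp [Fd, min_eq_right h12, max_eq_left h12]
        -- the generic shape of the second root
        have hsecond : ∀ ρ' : Γ₀, (β < x₁ * x₂ → ρ' = x₁ * x₂) →
            (x₁ * x₂ < β → ρ' = β ^ 2 / (x₁ * x₂)) → (x₁ * x₂ = β → ρ' ≤ β) →
            clamp β ρ' = Fm β x₁ x₂ := by
          intro ρ' ha hb hc
          rcases lt_trichotomy β (x₁ * x₂) with h | h | h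
          · rw [ha h, clamp_self h.le hxx1]
            simp [Fm, h.le]
          · rw [clamp_beta hβ1' (hc h.symm)]
            simp [Fm, h.symm]
          · rw [hb h]
            have c1 : β ≤ β ^ 2 / (x₁ * x₂) := by
              rw [le_div_iff₀ hxx0, sq]
              gcongr
            have c2 : β ^ 2 / (x₁ * x₂) ≤ 1 := by
              rw [div_le_iff₀ hxx0, one_mul, sq]; exact hbb
            rw [clamp_self c1 c2]
            simp [Fm, not_le.mpr h]
        have hQ1 : N ^ 2 * D ^ 2 < p ^ 2 := by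
          rw [hp]
          rcases lt_trichotomy β (x₁ * x₂) with h | h | h
          · rw [hNl h]
            exact mul_lt_of_lt_one_right'' (pow_pos hxx0 2) hDD
          · have hN : N ≤ β := by
              have := hNle
              rwa [← h, max_self] at this
            calc N ^ 2 * D ^ 2 ≤ β ^ 2 * D ^ 2 := by gcongr
              _ < β ^ 2 := mul_lt_of_lt_one_right'' (pow_pos hβ0 2) hDD
              _ = (x₁ * x₂) ^ 2 := by rw [h]
          · rw [hNr h, ← mul_pow]
            refine pow_lt_pow_left₀ ?_ zero_le (by norm_num)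
            calc β * D ≤ β * x₁ := by gcongr
              _ < x₂ * x₁ := by gcongr
              _ = x₁ * x₂ := mul_comm _ _
        have key : ∀ ρ ρ' : Γ₀, ρ * D ^ 2 = p → ρ' * p = N ^ 2 →
            clamp β ρ = Fd x₁ x₂ ∧ clamp β ρ' = Fm β x₁ x₂ := by
          intro ρ ρ' h1 h2
          rw [hp] at h1 h2
          refine ⟨?_, hsecond ρ' ?_ ?_ ?_⟩
          · rw [hFd]
            rcases lt_or_eq_of_le h12 with hlt | heq
            · have hD : D = x₁ := hDeq hlt
              rw [hD] at h1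
              have e1 : ρ = x₂ / x₁ := by
                rw [eq_div_iff hx1ne]
                apply mul_right_cancel₀ hx1ne
                rw [mul_assoc, ← sq, h1, mul_comm]
              have c1 : β ≤ x₂ / x₁ := by
                rw [le_div_iff₀ hx10]
                exact (mul_le_of_le_one_right'' hx1.le).trans hx2b.le
              have c2 : x₂ / x₁ ≤ 1 := by
                rw [div_le_iff₀ hx10, one_mul]; exact h12
              rw [e1, clamp_self c1 c2]
            · have e1 : 1 ≤ ρ := by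
                have h3 : 1 * D ^ 2 ≤ ρ * D ^ 2 := by
                  rw [one_mul, h1, sq]
                  have hDx2 : D ≤ x₂ := heq ▸ hDle
                  gcongr
                exact le_of_mul_le_mul_right h3 (pow_pos hD0' 2)
              rw [clamp_one hβ1' e1, heq, div_self hx1ne]
          · intro h
            rw [hNl h, sq] at h2
            exact mul_right_cancel₀ hxx0.ne' h2
          · intro h
            rw [hNr h] at h2
            rw [eq_div_iff hxx0.ne']
            exact h2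
          · intro h
            have hN : N ≤ β := by
              have := hNle
              rwa [h, max_self] at this
            rw [h] at h2
            have h3 : ρ' * β ≤ β * β := by
              rw [h2, sq]; gcongr
            exact le_of_mul_le_mul_right h3 hβ0
        rw [k1, k2]
        rcases Q1 hQ1 with h | h
        · right; exact key ρ₁ ρ₂ h.1 h.2
        · left; exact (key ρ₂ ρ₁ h.1 h.2).symm


/-- The absolute value of `x`, clamped to the interval `[v b, 1]`. -/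
def kap (b x : L) : Γ₀ := clamp (v b) (v x)

variable {v}

theorem kap_eq_one {b x : L} (hb : v b ≤ 1) (h : 1 ≤ v x) : kap v b x = 1 := clamp_one hb h

theorem kap_eq_self {b x : L} (h1 : v b ≤ v x) (h2 : v x ≤ 1) : kap v b x = v x :=
  clamp_self h1 h2

theorem kap_eq_beta {b x : L} (hb : v b ≤ 1) (h : v x ≤ v b) : kap v b x = v b :=
  clamp_beta hb h

theorem le_kap (b x : L) : v b ≤ kap v b x := le_max_left _ _

theorem kap_le_one {b : L} (hb : v b ≤ 1) (x : L) : kap v b x ≤ 1 :=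
  max_le hb (min_le_right _ _)

/-! ### Valuations of the ingredients of the addition formulas -/

section Ingredients

variable {a b X₁ X₂ : L}

theorem v_P_le (hv2 : v 2 = 1) (ha : v a = 1) (h12 : v X₂ ≤ v X₁) {g : Γ₀}
    (h1 : max (v X₁ * v X₂) (v b) * v X₁ ≤ g) (h2 : v X₁ * v X₂ ≤ g) :
    v ((X₁ * X₂ + b) * (X₁ + X₂) + 2 * a * X₁ * X₂) ≤ g := by
  refine Valuation.map_add_le v ?_ ?_
  · rw [map_mul]
    refine le_trans ?_ h1
    have h3 : v (X₁ * X₂ + b) ≤ max (v X₁ * v X₂) (v b) := by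
      rw [← map_mul]; exact Valuation.map_add v _ _
    have h4 : v (X₁ + X₂) ≤ v X₁ := Valuation.map_add_le v le_rfl h12
    gcongr
  · rw [map_mul, map_mul, map_mul, hv2, ha, one_mul, one_mul]
    exact h2

theorem v_P_eq (hv2 : v 2 = 1) (ha : v a = 1) (h12 : v X₂ ≤ v X₁)
    (h : max (v X₁ * v X₂) (v b) * v X₁ < v X₁ * v X₂) :
    v ((X₁ * X₂ + b) * (X₁ + X₂) + 2 * a * X₁ * X₂) = v X₁ * v X₂ := by
  have h0 : v (2 * a * X₁ * X₂) = v X₁ * v X₂ := by
    rw [map_mul, map_mul, map_mul, hv2, ha, one_mul, one_mul]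
  rw [← h0]
  refine Valuation.map_add_eq_of_lt_right v ?_
  rw [h0]
  refine lt_of_le_of_lt ?_ h
  rw [map_mul]
  have h3 : v (X₁ * X₂ + b) ≤ max (v X₁ * v X₂) (v b) := by
    rw [← map_mul]; exact Valuation.map_add v _ _
  have h4 : v (X₁ + X₂) ≤ v X₁ := Valuation.map_add_le v le_rfl h12
  gcongr

theorem v_N_le : v (X₁ * X₂ - b) ≤ max (v X₁ * v X₂) (v b) := by
  rw [← map_mul]; exact Valuation.map_sub v _ _

theorem v_N_eq_left (h : v b < v X₁ * v X₂) : v (X₁ * X₂ - b) = v X₁ * v X₂ := by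
  rw [← map_mul] at h ⊢; exact Valuation.map_sub_eq_of_lt_left v h

theorem v_N_eq_right (h : v X₁ * v X₂ < v b) : v (X₁ * X₂ - b) = v b := by
  rw [← map_mul] at h; exact Valuation.map_sub_eq_of_lt_right v h

end Ingredients

/-! ### The pair law -/

/-- **Pair law.**  For the nodal equation `Y ^ 2 = X ^ 3 + a * X ^ 2 + b * X` (`v a = 1`,
`0 < v b < 1`, `v 2 = 1`): if `r₁`, `r₂` are the `x`-coordinates of `P + Q` and `P - Q`
(so that their sum and product are given by the classical formulas), then the clamped absolute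
values of `r₁`, `r₂` are the folded product and the folded quotient of those of `X₁`, `X₂`,
in some order. -/
theorem pair_law {a b : L} (hv2 : v 2 = 1) (ha : v a = 1) (hb0 : b ≠ 0) (hb1 : v b < 1)
    {X₁ X₂ r₁ r₂ : L} (hX : X₁ ≠ X₂)
    (hs : (r₁ + r₂) * (X₁ - X₂) ^ 2 = 2 * ((X₁ * X₂ + b) * (X₁ + X₂) + 2 * a * X₁ * X₂))
    (hp : r₁ * r₂ * (X₁ - X₂) ^ 2 = (X₁ * X₂ - b) ^ 2) :
    (kap v b r₁ = Fm (v b) (kap v b X₁) (kap v b X₂) ∧
        kap v b r₂ = Fd (kap v b X₁) (kap v b X₂)) ∨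
      (kap v b r₁ = Fd (kap v b X₁) (kap v b X₂) ∧
        kap v b r₂ = Fm (v b) (kap v b X₁) (kap v b X₂)) := by
  wlog h12 : v X₂ ≤ v X₁ generalizing X₁ X₂
  · have := this (X₁ := X₂) (X₂ := X₁) hX.symm (by linear_combination hs)
      (by linear_combination hp) (le_of_not_ge h12)
    rwa [Fm_comm, Fd_comm] at this
  have hα : (X₁ - X₂) ^ 2 ≠ 0 := pow_ne_zero 2 (sub_ne_zero.mpr hX)
  have hD0 : v (X₁ - X₂) ≠ 0 := (Valuation.ne_zero_iff v).mpr (sub_ne_zero.mpr hX)
  have hσ : v (2 * ((X₁ * X₂ + b) * (X₁ + X₂) + 2 * a * X₁ * X₂)) =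
      v ((X₁ * X₂ + b) * (X₁ + X₂) + 2 * a * X₁ * X₂) := by
    rw [map_mul, hv2, one_mul]
  refine master (zero_lt_iff.mpr ((Valuation.ne_zero_iff v).mpr hb0)) hb1 h12 hD0
    (Valuation.map_sub_le v le_rfl h12) (Valuation.map_sub_eq_of_lt_left v)
    v_N_le v_N_eq_left v_N_eq_right (fun g h1 h2 => v_P_le hv2 ha h12 h1 h2)
    (v_P_eq hv2 ha h12) ?_ ?_ ?_ ?_
  · intro h
    have := quad_one (v := v) hs hp (by rw [hσ, map_pow, map_pow]; exact h)
    rwa [hσ, map_pow, map_pow] at this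
  · intro c h1 h2
    exact quad_two (v := v) hα hs hp c (by rw [hσ, map_pow]; exact h1)
      (by rw [map_pow, map_pow]; exact h2)
  · intro c h1 h2
    exact quad_three (v := v) hα hs hp c (by rw [hσ, map_pow]; exact h1)
      (by rw [map_pow, map_pow]; exact h2)
  · intro h1 h2
    exact quad_four (v := v) hα hs hp (by rw [hσ, map_pow]; exact h1)
      (by rw [map_pow, map_pow]; exact h2)

/-! ### Degenerate cases: the point at infinity and doubling -/

theorem Fm_one_right {β k : Γ₀} (h : β ≤ k) : Fm β k 1 = k := by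
  simp [Fm, h]

theorem Fd_one_right {k : Γ₀} (h : k ≤ 1) : Fd k 1 = k := by
  simp [Fd, min_eq_left h, max_eq_right h]

theorem Fd_self {k : Γ₀} (h : k ≠ 0) : Fd k k = 1 := by
  simp [Fd, h]

theorem Fm_one_one {β : Γ₀} (h : β ≤ 1) : Fm β 1 1 = 1 := by
  simp [Fm, h]

theorem Fm_beta_beta {β : Γ₀} (h0 : 0 < β) (h1 : β < 1) : Fm β β β = 1 := by
  have hbb : β * β < β := mul_lt_of_lt_one_right'' h0 h1
  have : ¬ β ≤ β * β := not_le.mpr hbb
  simp only [Fm, this, if_false]
  rw [sq, div_self (mul_ne_zero h0.ne' h0.ne')]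

/-- The clamp of the "second root" in the interior case. -/
theorem clamp_second {β x₁ x₂ ρ' : Γ₀} (hβ0 : 0 < β) (hβ1 : β < 1) (hx1b : β < x₁)
    (hx1 : x₁ ≤ 1) (hx2b : β < x₂) (hx2 : x₂ ≤ 1) (ha : β < x₁ * x₂ → ρ' = x₁ * x₂)
    (hb : x₁ * x₂ < β → ρ' = β ^ 2 / (x₁ * x₂)) (hc : x₁ * x₂ = β → ρ' ≤ β) :
    clamp β ρ' = Fm β x₁ x₂ := by
  have hx10 : 0 < x₁ := hβ0.trans hx1b
  have hx20 : 0 < x₂ := hβ0.trans hx2b
  have hxx0 : 0 < x₁ * x₂ := by positivity
  have hxx1 : x₁ * x₂ ≤ 1 := (mul_le_of_le_one_right'' hx2).trans hx1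
  have hbb : β * β ≤ x₁ * x₂ := by
    have := hx1b.le
    have := hx2b.le
    gcongr
  rcases lt_trichotomy β (x₁ * x₂) with h | h | h
  · rw [ha h, clamp_self h.le hxx1]
    simp [Fm, h.le]
  · rw [clamp_beta hβ1.le (hc h.symm)]
    simp [Fm, h.symm]
  · rw [hb h]
    have c1 : β ≤ β ^ 2 / (x₁ * x₂) := by
      rw [le_div_iff₀ hxx0, sq]
      gcongr
    have c2 : β ^ 2 / (x₁ * x₂) ≤ 1 := by
      rw [div_le_iff₀ hxx0, one_mul, sq]; exact hbb
    rw [clamp_self c1 c2]
    simp [Fm, not_le.mpr h]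

/-- The doubling law for abstract absolute values. -/
theorem master_dbl {x β Y2 N ρ : Γ₀} (hβ0 : 0 < β) (hβ1 : β < 1) (hY0 : Y2 ≠ 0)
    (hYA : 1 ≤ x → Y2 ≤ x * (x * x)) (hYB : β < x → x < 1 → Y2 = x * x)
    (hYC : x ≤ β → Y2 ≤ β * β)
    (hNle : N ≤ max (x * x) β) (hNl : β < x * x → N = x * x) (hNr : x * x < β → N = β)
    (hr : ρ * Y2 = N ^ 2) :
    clamp β ρ = Fm β (clamp β x) (clamp β x) := by
  have hβ1' : β ≤ 1 := hβ1.le
  have hY0' : 0 < Y2 := zero_lt_iff.mpr hY0
  rcases le_or_gt 1 x with hx1 | hx1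
  · -- type A
    have h11 : 1 ≤ x * x := hx1.trans (le_mul_of_one_le_right'' hx1)
    have hN : N = x * x := hNl (lt_of_lt_of_le hβ1 h11)
    have h3 : 1 * Y2 ≤ ρ * Y2 := by
      rw [one_mul, hr, hN, sq]
      calc Y2 ≤ x * (x * x) := hYA hx1
        _ ≤ x * x * (x * x) := by
          gcongr
          exact le_mul_of_one_le_right'' hx1
    have h4 : 1 ≤ ρ := le_of_mul_le_mul_right h3 hY0'
    rw [clamp_one hβ1' h4, clamp_one hβ1' hx1, Fm_one_one hβ1']
  · rcases le_or_gt x β with hxb | hxb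
    · -- type C
      have hbb : β * β < β := mul_lt_of_lt_one_right'' hβ0 hβ1
      have hxx : x * x ≤ β * β := by gcongr
      have hN : N = β := hNr (lt_of_le_of_lt hxx hbb)
      have h3 : 1 * Y2 ≤ ρ * Y2 := by
        rw [one_mul, hr, hN, sq]
        exact hYC hxb
      have h4 : 1 ≤ ρ := le_of_mul_le_mul_right h3 hY0'
      rw [clamp_one hβ1' h4, clamp_beta hβ1' hxb, Fm_beta_beta hβ0 hβ1]
    · -- type B
      have hx0 : 0 < x := hβ0.trans hxb
      have hxx0 : 0 < x * x := by positivity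
      rw [hYB hxb hx1] at hr
      rw [clamp_self hxb.le hx1.le]
      refine clamp_second hβ0 hβ1 hxb hx1.le hxb hx1.le ?_ ?_ ?_
      · intro h
        rw [hNl h, sq] at hr
        exact mul_right_cancel₀ hxx0.ne' hr
      · intro h
        rw [hNr h] at hr
        rw [eq_div_iff hxx0.ne']
        exact hr
      · intro h
        have hN : N ≤ β := by
          have := hNle
          rwa [h, max_self] at this
        rw [h] at hr
        have h3 : ρ * β ≤ β * β := by
          rw [hr, sq]; gcongr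
        exact le_of_mul_le_mul_right h3 hβ0

/-- **Doubling law.**  If `r` is the `x`-coordinate of `2P` for a point `P = (X, Y)`, `Y ≠ 0`,
of `Y ^ 2 = X ^ 3 + a * X ^ 2 + b * X`, then `kap r` is the folded square of `kap X`. -/
theorem dbl_law {a b : L} (hv2 : v 2 = 1) (ha : v a = 1) (hb0 : b ≠ 0) (hb1 : v b < 1)
    {X Y r : L} (hY : Y ≠ 0) (hE : Y ^ 2 = X ^ 3 + a * X ^ 2 + b * X)
    (hr : r * (4 * Y ^ 2) = (X ^ 2 - b) ^ 2) :
    kap v b r = Fm (v b) (kap v b X) (kap v b X) := by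
  have hβ0 : 0 < v b := zero_lt_iff.mpr ((Valuation.ne_zero_iff v).mpr hb0)
  have hv4 : v (4 : L) = 1 := by
    rw [show (4 : L) = 2 * 2 by norm_num, map_mul, hv2, mul_one]
  have hE' : Y ^ 2 = X * (X ^ 2 + a * X + b) := by rw [hE]; ring
  have hY2 : v (Y ^ 2) = v X * v (X ^ 2 + a * X + b) := by rw [hE', map_mul]
  have haX : v (a * X) = v X := by rw [map_mul, ha, one_mul]
  have hX2 : v (X ^ 2) = v X * v X := by rw [map_pow, sq]
  refine master_dbl (Y2 := v (Y ^ 2)) (N := v (X * X - b)) hβ0 hb1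
    ((Valuation.ne_zero_iff v).mpr (pow_ne_zero 2 hY)) ?_ ?_ ?_ v_N_le v_N_eq_left v_N_eq_right ?_
  · intro hx1
    rw [hY2]
    have h11 : 1 ≤ v X * v X := hx1.trans (le_mul_of_one_le_right'' hx1)
    have : v (X ^ 2 + a * X + b) ≤ v X * v X := by
      refine Valuation.map_add_le v (Valuation.map_add_le v hX2.le ?_) (hb1.le.trans h11)
      rw [haX]
      exact le_mul_of_one_le_right'' hx1
    gcongr
  · intro hxb hx1
    have hx0 : 0 < v X := hβ0.trans hxb
    rw [hY2]
    have h1 : v (X ^ 2 + b) < v (a * X) := by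
      rw [haX]
      refine lt_of_le_of_lt (Valuation.map_add v _ _) (max_lt ?_ hxb)
      rw [hX2]
      exact mul_lt_of_lt_one_right'' hx0 hx1
    have h2 : v (X ^ 2 + a * X + b) = v X := by
      rw [show X ^ 2 + a * X + b = a * X + (X ^ 2 + b) by ring,
        Valuation.map_add_eq_of_lt_left v h1, haX]
    rw [h2]
  · intro hxb
    rw [hY2]
    have hx1 : v X ≤ 1 := hxb.trans hb1.le
    have : v (X ^ 2 + a * X + b) ≤ v b := by
      refine Valuation.map_add_le v (Valuation.map_add_le v ?_ ?_) le_rfl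
      · rw [hX2]
        exact (mul_le_of_le_one_right'' hx1).trans hxb
      · rw [haX]; exact hxb
    gcongr
  · have h := congrArg v hr
    have hN : v ((X ^ 2 - b) ^ 2) = v (X * X - b) ^ 2 := by
      rw [Valuation.map_pow, sq X]
    rw [map_mul, map_mul, hv4, one_mul, hN] at h
    exact h

/-- If `(X, 0)` is a point of `Y ^ 2 = X ^ 3 + a * X ^ 2 + b * X` (a point of order two), then
the folded square of `kap X` is `1`. -/
theorem dbl_law_zero {a b : L} (ha : v a = 1) (hb0 : b ≠ 0) (hb1 : v b < 1)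
    {X : L} (hE : X ^ 3 + a * X ^ 2 + b * X = 0) :
    Fm (v b) (kap v b X) (kap v b X) = 1 := by
  have hβ0 : 0 < v b := zero_lt_iff.mpr ((Valuation.ne_zero_iff v).mpr hb0)
  rcases le_or_gt 1 (v X) with hx1 | hx1
  · rw [kap_eq_one hb1.le hx1, Fm_one_one hb1.le]
  · rcases le_or_gt (v X) (v b) with hxb | hxb
    · rw [kap_eq_beta hb1.le hxb, Fm_beta_beta hβ0 hb1]
    · exfalso
      have hX0 : X ≠ 0 := by
        rintro rfl
        rw [map_zero] at hxb
        exact absurd hxb (not_lt.mpr zero_le)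
      have h1 : X * (X + a) = -b := by
        have h2 : X * (X ^ 2 + a * X + b) = 0 := by rw [← hE]; ring
        have h3 : X ^ 2 + a * X + b = 0 := (mul_eq_zero.mp h2).resolve_left hX0
        linear_combination h3
      have h4 : v (X + a) = 1 := by
        rw [← ha]
        exact Valuation.map_add_eq_of_lt_right v (by rw [ha]; exact hx1)
      have h5 := congrArg v h1
      rw [map_mul, h4, mul_one, Valuation.map_neg] at h5
      exact absurd h5 hxb.ne'

end Fermat.Agent.S05.PairLaw
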