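import Mathlib
import Fermat.Agent.S05.NodeModel
import Fermat.Agent.S05.KerRed
import Fermat.Agent.S05.PairLaw
import Fermat.Agent.S05.PairIter

/-!
# S05: position of a `p`-torsion point relative to a node

For a Weierstrass curve `E` with integral coefficients and a root `r` of the 2-division polynomial
at which the normal form `Y² = X³ + An X² + Bn X` has a node (`v An = 1`, `v Bn = v u ^ p < 1`),
the clamped absolute value `κ(P) = clamp (v Bn) (v (Xn P))` (`κ(0) = 1`) satisfies the pair law.
-/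

set_option autoImplicit false

namespace Fermat.Agent.S05

namespace BadKap

open WeierstrassCurve WeierstrassCurve.Affine Fermat.Agent.S05.XPair Fermat.Agent.S05.NodeModel
  Fermat.Agent.S05.PairLaw

variable {K : Type*} [Field K] {Γ₀ : Type*} [LinearOrderedCommGroupWithZero Γ₀]

open Classical in
/-- The clamped absolute value of the normalized `x`-coordinate of a point (`1` at the origin). -/
noncomputable def kapPt (v : Valuation K Γ₀) (E : WeierstrassCurve K) (r : K)
    (P : E.toAffine.Point) : Γ₀ :=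
  if P = 0 then 1 else kap v (Bn E r) (Xn E r P)

theorem kapPt_zero (v : Valuation K Γ₀) (E : WeierstrassCurve K) (r : K) :
    kapPt v E r 0 = 1 := by
  simp [kapPt]

theorem kapPt_of_ne (v : Valuation K Γ₀) (E : WeierstrassCurve K) (r : K)
    {P : E.toAffine.Point} (hP : P ≠ 0) : kapPt v E r P = kap v (Bn E r) (Xn E r P) := by
  simp [kapPt, hP]

theorem kapPt_neg (v : Valuation K Γ₀) (E : WeierstrassCurve K) (r : K)
    (P : E.toAffine.Point) : kapPt v E r (-P) = kapPt v E r P := by
  rcases P with _ | ⟨x, y, h⟩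
  · rfl
  · have hP : (Point.some x y h : E.toAffine.Point) ≠ 0 := Point.some_ne_zero _
    have hP' : -(Point.some x y h : E.toAffine.Point) ≠ 0 := by
      rw [Point.neg_some]; exact Point.some_ne_zero _
    rw [kapPt_of_ne v E r hP, kapPt_of_ne v E r hP', Xn_neg]

theorem le_kapPt (v : Valuation K Γ₀) (E : WeierstrassCurve K) (r : K)
    (hB : v (Bn E r) ≤ 1) (P : E.toAffine.Point) : v (Bn E r) ≤ kapPt v E r P := by
  by_cases hP : P = 0
  · subst hP; rw [kapPt_zero]; exact hB
  · rw [kapPt_of_ne v E r hP]; exact le_kap _ _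

theorem kapPt_le_one (v : Valuation K Γ₀) (E : WeierstrassCurve K) (r : K)
    (hB : v (Bn E r) ≤ 1) (P : E.toAffine.Point) : kapPt v E r P ≤ 1 := by
  by_cases hP : P = 0
  · subst hP; rw [kapPt_zero]
  · rw [kapPt_of_ne v E r hP]; exact kap_le_one hB _

variable [DecidableEq K]

/-- The pair law for two nonzero points with different `x`-coordinates. -/
theorem kapPt_pair (v : Valuation K Γ₀) (E : WeierstrassCurve K) (h2 : v (2 : K) = 1)
    {r : K} (hr : dblDen E r = 0) (hA : v (An E r) = 1) (hB0 : Bn E r ≠ 0)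
    (hB1 : v (Bn E r) < 1) {P Q : E.toAffine.Point} (hP : P ≠ 0) (hQ : Q ≠ 0)
    (hne : xc E P ≠ xc E Q) :
    (kapPt v E r (P + Q) = Fm (v (Bn E r)) (kapPt v E r P) (kapPt v E r Q) ∧
        kapPt v E r (P - Q) = Fd (kapPt v E r P) (kapPt v E r Q)) ∨
      (kapPt v E r (P + Q) = Fd (kapPt v E r P) (kapPt v E r Q) ∧
        kapPt v E r (P - Q) = Fm (v (Bn E r)) (kapPt v E r P) (kapPt v E r Q)) := by
  obtain ⟨hadd, hsub, hsum, hprod⟩ := node_pair E hr hP hQ hne
  rw [kapPt_of_ne v E r hP, kapPt_of_ne v E r hQ, kapPt_of_ne v E r hadd,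
    kapPt_of_ne v E r hsub]
  have h4 : (4 : K) ≠ 0 := by
    intro h0
    have := (v_ofNat_pow v h2).1
    rw [h0, map_zero] at this
    exact zero_ne_one this
  have hX : Xn E r P ≠ Xn E r Q := by
    intro h
    apply hne
    simp only [Xn] at h
    have := mul_left_cancel₀ h4 h
    exact sub_left_injective this
  exact pair_law h2 hA hB0 hB1 hX (by linear_combination hsum) (by linear_combination hprod)

/-- The doubling law for a point which is not of order two. -/
theorem kapPt_dbl (v : Valuation K Γ₀) (E : WeierstrassCurve K) (h2 : v (2 : K) = 1)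
    {r : K} (hr : dblDen E r = 0) (hA : v (An E r) = 1) (hB0 : Bn E r ≠ 0)
    (hB1 : v (Bn E r) < 1) {P : E.toAffine.Point} (hP : P ≠ 0) (h2P : P + P ≠ 0) :
    kapPt v E r (P + P) = Fm (v (Bn E r)) (kapPt v E r P) (kapPt v E r P) := by
  rw [kapPt_of_ne v E r hP, kapPt_of_ne v E r h2P]
  have h2ne : (2 : K) ≠ 0 := by
    intro h0
    rw [h0, map_zero] at h2
    exact zero_ne_one h2
  have hG : Gn E r (Xn E r P) ≠ 0 := fun h0 =>
    h2P ((add_self_eq_zero_iff_Gn E hr h2ne hP).mpr h0)
  have hYsq := Yc_sq E hr hP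
  have hY : Yc E P ≠ 0 := by
    intro h0
    rw [h0] at hYsq
    exact hG (by rw [← hYsq]; ring)
  have hd := node_dbl E hr hP h2P
  refine dbl_law h2 hA hB0 hB1 hY (X := Xn E r P) ?_ ?_
  · rw [hYsq]; simp only [Gn]
  · rw [hYsq]; linear_combination hd

/-- **Position of a `p`-torsion point relative to a node.**  If `v An = 1` and
`v Bn = v u ^ p < 1` (`p` an odd prime), then the normalized `x`-coordinate `Xn` of a nonzero
`p`-torsion point either has `1 ≤ v Xn`, or `v Bn < v Xn < 1` and `v Xn = v (u ^ (2 j))`. -/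
theorem node_torsion_val (v : Valuation K Γ₀) (E : WeierstrassCurve K) (r : K)
    (h2 : v (2 : K) = 1) (hr : dblDen E r = 0) (hA : v (An E r) = 1) {u : K} (hu0 : u ≠ 0)
    (hu1 : v u < 1) {p : ℕ} (hp : p.Prime) (hp2 : p ≠ 2) (hB : v (Bn E r) = v u ^ p)
    {T : E.toAffine.Point} (hT : T ≠ 0) (hpT : p • T = 0) :
    1 ≤ v (Xn E r T) ∨ (v (Bn E r) < v (Xn E r T) ∧ v (Xn E r T) < 1 ∧
      ∃ j : ℕ, v (Xn E r T) = v (u ^ (2 * j))) := by
  have hodd : Odd p := hp.odd_of_ne_two hp2
  obtain ⟨m, hm⟩ := hodd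
  have hm1 : 1 ≤ m := by have := hp.two_le; omega
  have hvu0 : 0 < v u := zero_lt_iff.mpr ((Valuation.ne_zero_iff v).mpr hu0)
  have hβ0 : 0 < v (Bn E r) := by rw [hB]; exact pow_pos hvu0 p
  have hB0 : Bn E r ≠ 0 := (Valuation.ne_zero_iff v).mp hβ0.ne'
  have hB1 : v (Bn E r) < 1 := by rw [hB]; exact pow_lt_one₀ zero_le hu1 hp.ne_zero
  have : Fact p.Prime := ⟨hp⟩
  have hord : addOrderOf T = p := addOrderOf_eq_prime hpT hT
  have hne : ∀ n : ℕ, 0 < n → n < p → n • T ≠ 0 := by
    intro n hn0 hnp h0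
    have hd := addOrderOf_dvd_of_nsmul_eq_zero h0
    rw [hord] at hd
    have := Nat.le_of_dvd hn0 hd
    omega
  have hk1ne : kapPt v E r T ≠ 0 := (lt_of_lt_of_le hβ0 (le_kapPt v E r hB1.le T)).ne'
  have hpair : ∀ n, 1 ≤ n → n ≤ m →
      (kapPt v E r ((n + 1) • T) = Fm (v (Bn E r)) (kapPt v E r (n • T)) (kapPt v E r (1 • T)) ∧
        kapPt v E r ((n - 1) • T) = Fd (kapPt v E r (n • T)) (kapPt v E r (1 • T))) ∨
      (kapPt v E r ((n + 1) • T) = Fd (kapPt v E r (n • T)) (kapPt v E r (1 • T)) ∧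
        kapPt v E r ((n - 1) • T) =
          Fm (v (Bn E r)) (kapPt v E r (n • T)) (kapPt v E r (1 • T))) := by
    intro n hn1 hnm
    rw [one_nsmul]
    rcases Nat.eq_or_lt_of_le hn1 with h1 | h1
    · -- `n = 1`: doubling
      subst h1
      left
      have h2T : T + T ≠ 0 := by
        have := hne 2 (by norm_num) (by omega)
        rwa [two_nsmul] at this
      refine ⟨?_, ?_⟩
      · rw [one_nsmul, show (1 + 1) • T = T + T from by rw [one_add_one_eq_two, two_nsmul]]
        exact kapPt_dbl v E h2 hr hA hB0 hB1 hT h2T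
      · rw [Nat.sub_self, zero_nsmul, one_nsmul, kapPt_zero, Fd_self hk1ne]
    · -- `2 ≤ n ≤ m`: generic pair law
      have hnT : n • T ≠ 0 := hne n (by omega) (by omega)
      have e0 : n • T = (n - 1) • T + T := by
        rw [← succ_nsmul, Nat.sub_add_cancel (by omega)]
      have hxne : xc E (n • T) ≠ xc E T := by
        intro hx
        rcases (xc_eq_iff E hnT hT).mp hx with h | h
        · have h0 : (n - 1) • T = 0 := by
            rw [e0] at h
            exact add_eq_right.mp h
          exact hne (n - 1) (by omega) (by omega) h0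
        · have h0 : (n + 1) • T = 0 := by rw [succ_nsmul, h, neg_add_cancel]
          exact hne (n + 1) (by omega) (by omega) h0
      have key := kapPt_pair v E h2 hr hA hB0 hB1 hnT hT hxne
      have e1 : n • T + T = (n + 1) • T := (succ_nsmul T n).symm
      have e2 : n • T - T = (n - 1) • T := by
        rw [e0, add_sub_cancel_right]
      rw [e1, e2] at key
      exact key
  have hmm : kapPt v E r ((m + 1) • T) = kapPt v E r (m • T) := by
    have e : (m + 1) • T = -(m • T) := by
      rw [eq_neg_iff_add_eq_zero, ← add_nsmul]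
      have : m + 1 + m = p := by omega
      rw [this, hpT]
    rw [e, kapPt_neg]
  have hpow := PairIter.pow_mem_of_half (k := fun n => kapPt v E r (n • T)) hβ0
    (by simp [kapPt_zero]) (by simpa using hk1ne) hpair hmm
  rw [← hm] at hpow
  have hfin := PairIter.final hvu0 hu1 (hp.odd_of_ne_two hp2) hB
    ⟨le_kapPt v E r hB1.le (1 • T), kapPt_le_one v E r hB1.le (1 • T)⟩ hpow
  rw [one_nsmul, kapPt_of_ne v E r hT] at hfin
  unfold kap clamp at hfin
  rcases hfin with h1 | ⟨hlt, hlt1, j, -, -, hj⟩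
  · left
    by_contra hcon
    rw [not_le] at hcon
    rw [min_eq_left hcon.le] at h1
    rcases max_choice (v (Bn E r)) (v (Xn E r T)) with h | h
    · rw [h] at h1; exact absurd h1 hB1.ne
    · rw [h] at h1; exact absurd h1 hcon.ne
  · right
    have hmin : min (v (Xn E r T)) 1 = v (Xn E r T) := by
      rcases max_choice (v (Bn E r)) (min (v (Xn E r T)) 1) with h | h
      · rw [h] at hlt; exact absurd hlt (lt_irrefl _)
      · rw [h] at hlt1
        rcases min_choice (v (Xn E r T)) 1 with h' | h'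
        · exact h'
        · rw [h'] at hlt1; exact absurd hlt1 (lt_irrefl _)
    have hmax : max (v (Bn E r)) (min (v (Xn E r T)) 1) = v (Xn E r T) := by
      rcases max_choice (v (Bn E r)) (min (v (Xn E r T)) 1) with h | h
      · rw [h] at hlt; exact absurd hlt (lt_irrefl _)
      · rw [h, hmin]
    rw [hmax] at hlt hlt1 hj
    exact ⟨hlt, hlt1, j, by rw [hj, map_pow]⟩

end BadKap

end Fermat.Agent.S05
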