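import Mathlib
import Fermat.Agent.S05.BadCore
import Fermat.Agent.S05.GoodRed
import Fermat.Agent.S05.BadKap

/-!
# S05: the case of bad (multiplicative) reduction, `q ∣ abc`

`unramified_of_dvd`: for a Frey package and a prime `q ≠ 2, p` dividing `abc`, every element of
an inertia group above `q` fixes the `p`-torsion of the Frey curve.  The proof combines the node
data of the Frey curve (`NodeModel.exists_node`), the position of a `p`-torsion point relative to
the node (`BadKap.node_torsion_val`) and the generic statement `BadCore.node_fixed_coord`.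
-/

set_option autoImplicit false

namespace Fermat.Agent.S05

open WeierstrassCurve WeierstrassCurve.Affine Fermat.Agent.S05.XPair Fermat.Agent.S05.NodeModel

/-- **S05, bad reduction.**  The mod-`p` representation of the Frey curve is unramified at every
prime `q ≠ 2, p` dividing `abc`. -/
theorem unramified_of_dvd (P : FreyPackage) {q : ℕ} (hq : q.Prime) (hq2 : q ≠ 2)
    (hqp : q ≠ P.p) (hbad : (q : ℤ) ∣ P.a * P.b * P.c) : P.GaloisRepUnramifiedAt q := by
  intro A hA σ hσ T
  apply Subtype.ext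
  have htors : P.p • T.1 = 0 := by
    have := (Submodule.mem_torsionBy_iff _ _).mp T.2
    rwa [natCast_zsmul] at this
  obtain ⟨T, hT⟩ := T
  change σ • T = T
  change P.p • T = 0 at htors
  have htors' : P.p • (σ • T) = 0 := by
    rw [← GoodRed.smul_nsmul, htors]; rfl
  rcases T with _ | ⟨x, y, h⟩
  · rfl
  rw [GoodRed.smul_some] at htors' ⊢
  -- the valuation and the Frey data
  have hv : ∀ n : ℤ, A.valuation ((n : ℤ) : AlgebraicClosure ℚ) < 1 ↔ (q : ℤ) ∣ n := fun n => by
    rw [← ValuationSubring.mem_nonunits_iff]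
    exact InertiaAPI.intCast_mem_nonunits_iff hq hA
  obtain ⟨h₁, h₂, h₃, h₄, h₆⟩ := GoodRed.frey_integral P hq hq2 A hA
  have h2 := GoodRed.val_two hq hq2 A hA
  have hvp := GoodRed.frey_val_p P hq hqp A hA
  obtain ⟨ρ, u, hr, hvr, hAn, hBn, hqu, hu0⟩ :=
    NodeModel.exists_node P A.valuation hq hq2 hv hbad
  have hu0' : ((u : ℤ) : AlgebraicClosure ℚ) ≠ 0 := by exact_mod_cast hu0
  have hu1 : A.valuation ((u : ℤ) : AlgebraicClosure ℚ) < 1 := (hv u).mpr hqu
  have hp2 : P.p ≠ 2 := by have := P.hp5; omega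
  have hσint : ∀ z : AlgebraicClosure ℚ, A.valuation z ≤ 1 → A.valuation (σ z - z) < 1 := by
    intro z hz
    rw [← ValuationSubring.mem_nonunits_iff]
    exact InertiaAPI.apply_sub_mem_nonunits hσ ((A.valuation_le_one_iff z).mp hz)
  -- the position of the point relative to the node
  have hT0 : (Point.some x y h : (P.freyCurve⁄(AlgebraicClosure ℚ)).Point) ≠ 0 :=
    Point.some_ne_zero _
  have hκ := BadKap.node_torsion_val A.valuation (freyK P (AlgebraicClosure ℚ))
    (algebraMap ℚ (AlgebraicClosure ℚ) ρ) h2 hr hAn hu0' hu1 P.pp hp2 hBn hT0 htors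
  rw [Xn_some] at hκ
  obtain ⟨h4, -, -⟩ := v_ofNat_pow A.valuation h2
  have hxle : A.valuation x ≤ 1 := by
    by_contra hcon
    rw [not_le] at hcon
    exact GoodRed.frey_no_torsion_in_kernel P hq hq2 hqp A hA h hcon htors
  have hXle : A.valuation (4 * (x - algebraMap ℚ (AlgebraicClosure ℚ) ρ)) ≤ 1 := by
    rw [map_mul, h4, one_mul]
    exact A.valuation.map_sub_le hxle hvr
  refine BadCore.node_fixed_coord A.valuation (freyK P (AlgebraicClosure ℚ)) h₁ h₂ h₃ h₄ h₆ h2
    P.pp P.hp5 hvp hr hvr hAn hu1 hu0' hBn (σ : AlgebraicClosure ℚ →+* AlgebraicClosure ℚ)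
    hσint (map_intCast σ u) (σ.commutes ρ) ?_ ?_ h _ htors htors' ?_
  · rw [frey_a₁]; exact map_one σ
  · rw [frey_a₃]; exact map_zero σ
  · rcases hκ with h1 | ⟨hlt, hlt1, j, hj⟩
    · exact Or.inl (le_antisymm hXle h1)
    · exact Or.inr ⟨2 * j, by rw [hj, map_pow], hlt, hlt1⟩

end Fermat.Agent.S05
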