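import Mathlib

/-!
# S05: abstract "Legendre-form point group" with an `X`-coordinate

`XGroup K G` packages an additive group `G` (the points of an elliptic curve with a marked
2-torsion point `T0`), together with coordinate functions `X Y : G → K` (junk at `0`) such that
the nonzero points satisfy `Y² = X (X² + a X + b)` and the chord / tangent formulas for the
`X`-coordinate of a sum hold.  All the valuation-theoretic arguments of S05 are carried out for an
abstract `XGroup`; `Model.lean` constructs the `XGroup` of the Frey curve.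
-/

set_option autoImplicit false

namespace Fermat.Agent.S05

/-- An additive group `G` with coordinates `X Y : G → K` behaving like the points of
`Y² = X³ + a X² + b X` (with the point `T0 = (0, 0)` of order 2). -/
structure XGroup (K : Type*) [Field K] (G : Type*) [AddCommGroup G] where
  /-- the `X`-coordinate (junk value at `0`) -/
  X : G → K
  /-- the `Y`-coordinate (junk value at `0`) -/
  Y : G → K
  /-- coefficient of `X²` -/
  a : K
  /-- coefficient of `X` -/
  b : K
  /-- the 2-torsion point `(0, 0)` -/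
  T0 : G
  T0_ne : T0 ≠ 0
  X_T0 : X T0 = 0
  Y_T0 : Y T0 = 0
  eqn : ∀ P : G, P ≠ 0 → Y P ^ 2 = X P * (X P ^ 2 + a * X P + b)
  X_neg : ∀ P : G, X (-P) = X P
  Y_neg : ∀ P : G, Y (-P) = -Y P
  ext : ∀ P Q : G, P ≠ 0 → Q ≠ 0 → X P = X Q → Y P = Y Q → P = Q
  add : ∀ P Q : G, P ≠ 0 → Q ≠ 0 → X P ≠ X Q →
    X (P + Q) * (X P - X Q) ^ 2 = (Y P - Y Q) ^ 2 - (a + X P + X Q) * (X P - X Q) ^ 2
  dbl : ∀ P : G, P ≠ 0 → Y P ≠ 0 → X (P + P) * (4 * Y P ^ 2) = (X P ^ 2 - b) ^ 2

/-- `σ` (a field automorphism) and `τ` (the induced automorphism of the point group) behave like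
an element of the inertia group of the valuation `v`: `σ` preserves `v` and moves integral
elements by elements of the maximal ideal. -/
structure XGroup.Inertial {K : Type*} [Field K] {G : Type*} [AddCommGroup G]
    {Γ₀ : Type*} [LinearOrderedCommGroupWithZero Γ₀]
    (D : XGroup K G) (v : Valuation K Γ₀) (σ : K →+* K) (τ : G →+ G) : Prop where
  val_map : ∀ x : K, v (σ x) = v x
  val_sub : ∀ x : K, v x ≤ 1 → v (σ x - x) < 1
  ne_zero : ∀ P : G, P ≠ 0 → τ P ≠ 0
  X_map : ∀ P : G, P ≠ 0 → D.X (τ P) = σ (D.X P)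
  Y_map : ∀ P : G, P ≠ 0 → D.Y (τ P) = σ (D.Y P)

/-- The clamped absolute value of the `X`-coordinate: `κ(P) = max(|b|, min(1, |X(P)|))`,
and `κ(0) = 1`.  (For a curve with a node, `|b| < 1 = |a|`, this is the "distance to the identity
component" in the component group `ℤ/2m`.) -/
noncomputable def XGroup.kap {K : Type*} [Field K] {G : Type*} [AddCommGroup G]
    {Γ₀ : Type*} [LinearOrderedCommGroupWithZero Γ₀]
    (D : XGroup K G) (v : Valuation K Γ₀) (P : G) : Γ₀ :=
  open Classical in if P = 0 then 1 else max (v D.b) (min 1 (v (D.X P)))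

/-- Folding `[M², M⁻¹]` onto `[M, 1]` (reflection at `M` and at `1`). -/
noncomputable def fold {Γ₀ : Type*} [LinearOrderedCommGroupWithZero Γ₀] (M t : Γ₀) : Γ₀ :=
  if t ≤ M then M ^ 2 / t else if t ≤ 1 then t else t⁻¹

end Fermat.Agent.S05
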