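import Fermat.Agent.S05.NodeModel
import Fermat.Agent.S05.PairLaw
import Fermat.Agent.S05.Defs

/-!
# S05: the pair law for points (total form)

For a Weierstrass curve `E` over a valued field and a root `r` of its 2-division polynomial such
that the normal form `Y² = X³ + An X² + Bn X` at `r` has `v An = 1`, `0 < v Bn < 1` (a node at
`Xn = 0`), the function `kapP T = max (v Bn) (min (v (Xn T)) 1)` (`kapP 0 = 1`) satisfies the pair
law for **all** pairs of points:
`{kapP (P + Q), kapP (P - Q)} = {Fm (kapP P) (kapP Q), Fd (kapP P) (kapP Q)}`.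
-/

set_option autoImplicit false

namespace Fermat.Agent.S05.KapPoint

open WeierstrassCurve Fermat.Agent.S05.XPair Fermat.Agent.S05.NodeModel Fermat.Agent.S05.PairLaw

variable {K : Type*} [Field K] {Γ₀ : Type*} [LinearOrderedCommGroupWithZero Γ₀]
variable (v : Valuation K Γ₀) (E : WeierstrassCurve K) (r : K)

/-- The clamped absolute value of the normalized `x`-coordinate `Xn E r T = 4 (x(T) - r)`;
`1` at the origin. -/
def kapP : E.toAffine.Point → Γ₀
  | .zero => 1
  | .some x _ _ => kap v (Bn E r) (4 * (x - r))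

@[simp] theorem kapP_zero : kapP v E r 0 = 1 := rfl

theorem kapP_some {x y : K} (h : E.toAffine.Nonsingular x y) :
    kapP v E r (Affine.Point.some x y h) = kap v (Bn E r) (4 * (x - r)) := rfl

theorem kapP_of_ne_zero {T : E.toAffine.Point} (hT : T ≠ 0) :
    kapP v E r T = kap v (Bn E r) (Xn E r T) := by
  rcases T with _ | ⟨x, y, h⟩
  · exact absurd rfl hT
  · rfl

theorem kapP_neg (T : E.toAffine.Point) : kapP v E r (-T) = kapP v E r T := by
  rcases T with _ | ⟨x, y, h⟩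
  · rfl
  · rw [Affine.Point.neg_some]; rfl

theorem le_kapP (hB1 : v (Bn E r) ≤ 1) (T : E.toAffine.Point) : v (Bn E r) ≤ kapP v E r T := by
  rcases T with _ | ⟨x, y, h⟩
  · exact hB1
  · exact le_kap _ _

theorem kapP_le_one (hB1 : v (Bn E r) ≤ 1) (T : E.toAffine.Point) : kapP v E r T ≤ 1 := by
  rcases T with _ | ⟨x, y, h⟩
  · exact le_rfl
  · exact kap_le_one hB1 _

theorem kapP_ne_zero (hB0 : Bn E r ≠ 0) (hB1 : v (Bn E r) ≤ 1) (T : E.toAffine.Point) :
    kapP v E r T ≠ 0 :=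
  (lt_of_lt_of_le (zero_lt_iff.mpr ((Valuation.ne_zero_iff v).mpr hB0)) (le_kapP v E r hB1 T)).ne'

variable {v E r} [DecidableEq K]

/-- The duplication law: `kapP (2P) = Fm (kapP P) (kapP P)` (also when `2P = O`). -/
theorem kapP_dbl (hr : dblDen E r = 0) (hv2 : v 2 = 1) (hA : v (An E r) = 1)
    (hB0 : Bn E r ≠ 0) (hB1 : v (Bn E r) < 1) {P : E.toAffine.Point} (hP : P ≠ 0) :
    kapP v E r (P + P) = Fm (v (Bn E r)) (kapP v E r P) (kapP v E r P) := by
  have h2 : (2 : K) ≠ 0 := by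
    intro h
    rw [h, map_zero] at hv2
    exact zero_ne_one hv2
  rw [kapP_of_ne_zero v E r hP]
  by_cases h2P : P + P = 0
  · rw [h2P, kapP_zero]
    have hG := (add_self_eq_zero_iff_Gn E hr h2 hP).mp h2P
    exact (dbl_law_zero hA hB0 hB1 hG).symm
  · rw [kapP_of_ne_zero v E r h2P]
    have hd := node_dbl E hr hP h2P
    have hY := Yc_sq E hr hP
    have hG : Gn E r (Xn E r P) ≠ 0 := fun h => h2P ((add_self_eq_zero_iff_Gn E hr h2 hP).mpr h)
    have hY0 : Yc E P ≠ 0 := by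
      intro h
      rw [h] at hY
      exact hG (by rw [← hY]; ring)
    refine dbl_law hv2 hA hB0 hB1 hY0 hY ?_
    rw [hY]
    linear_combination hd

/-- **The pair law for points**, in all cases. -/
theorem kapP_pair (hr : dblDen E r = 0) (hv2 : v 2 = 1) (hA : v (An E r) = 1)
    (hB0 : Bn E r ≠ 0) (hB1 : v (Bn E r) < 1) (P Q : E.toAffine.Point) :
    (kapP v E r (P + Q) = Fm (v (Bn E r)) (kapP v E r P) (kapP v E r Q) ∧
        kapP v E r (P - Q) = Fd (kapP v E r P) (kapP v E r Q)) ∨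
      (kapP v E r (P + Q) = Fd (kapP v E r P) (kapP v E r Q) ∧
        kapP v E r (P - Q) = Fm (v (Bn E r)) (kapP v E r P) (kapP v E r Q)) := by
  have hge := le_kapP v E r hB1.le
  have hle := kapP_le_one v E r hB1.le
  have hne := kapP_ne_zero v E r hB0 hB1.le
  by_cases hP : P = 0
  · subst hP
    left
    rw [zero_add, zero_sub, kapP_neg, kapP_zero, Fm_comm, Fd_comm, Fm_one_right (hge Q),
      Fd_one_right (hle Q)]
    exact ⟨rfl, rfl⟩
  by_cases hQ : Q = 0
  · subst hQ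
    left
    rw [add_zero, sub_zero, kapP_zero, Fm_one_right (hge P), Fd_one_right (hle P)]
    exact ⟨rfl, rfl⟩
  by_cases hx : xc E P = xc E Q
  · rcases (xc_eq_iff E hP hQ).mp hx with h | h
    · subst h
      left
      rw [sub_self, kapP_zero, Fd_self (hne P)]
      exact ⟨kapP_dbl hr hv2 hA hB0 hB1 hP, rfl⟩
    · subst h
      right
      have e : -Q - Q = -(Q + Q) := by abel
      rw [neg_add_cancel, kapP_zero, e, kapP_neg, kapP_neg, Fd_self (hne Q)]
      exact ⟨rfl, kapP_dbl hr hv2 hA hB0 hB1 hQ⟩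
  · obtain ⟨hadd, hsub, hsum, hprod⟩ := node_pair E hr hP hQ hx
    have hX : Xn E r P ≠ Xn E r Q := by
      intro h
      apply hx
      simp only [Xn] at h
      have h4 : (4 : K) ≠ 0 := by
        have h2 : (2 : K) ≠ 0 := by
          intro h
          rw [h, map_zero] at hv2
          exact zero_ne_one hv2
        have : (4 : K) = 2 * 2 := by norm_num
        rw [this]
        exact mul_ne_zero h2 h2
      have := mul_left_cancel₀ h4 h
      linear_combination this
    rw [kapP_of_ne_zero v E r hadd, kapP_of_ne_zero v E r hsub, kapP_of_ne_zero v E r hP,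
      kapP_of_ne_zero v E r hQ]
    exact pair_law hv2 hA hB0 hB1 hX (by linear_combination hsum) (by linear_combination hprod)

/-- the sequence form of the pair law along the multiples of a point (interface of `PairIter`):
`k n = kapP (n • T)`. -/
theorem kapP_nsmul_pair (hr : dblDen E r = 0) (hv2 : v 2 = 1) (hA : v (An E r) = 1)
    (hB0 : Bn E r ≠ 0) (hB1 : v (Bn E r) < 1) (T : E.toAffine.Point) (n : ℕ) (hn : 1 ≤ n) :
    (kapP v E r ((n + 1) • T) = Fm (v (Bn E r)) (kapP v E r (n • T)) (kapP v E r (1 • T)) ∧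
        kapP v E r ((n - 1) • T) = Fd (kapP v E r (n • T)) (kapP v E r (1 • T))) ∨
      (kapP v E r ((n + 1) • T) = Fd (kapP v E r (n • T)) (kapP v E r (1 • T)) ∧
        kapP v E r ((n - 1) • T) = Fm (v (Bn E r)) (kapP v E r (n • T)) (kapP v E r (1 • T))) := by
  have h := kapP_pair hr hv2 hA hB0 hB1 (n • T) T
  have e1 : n • T + T = (n + 1) • T := (succ_nsmul T n).symm
  have e2 : n • T - T = (n - 1) • T := by
    obtain ⟨m, rfl⟩ : ∃ m, n = m + 1 := ⟨n - 1, by omega⟩
    rw [succ_nsmul, add_sub_cancel_right, Nat.add_sub_cancel]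
  rw [e1, e2] at h
  rw [one_nsmul]
  exact h

theorem kapP_zero_nsmul (T : E.toAffine.Point) : kapP v E r (0 • T) = 1 := by
  rw [zero_nsmul]; rfl

/-! ### the same law with the single fold function of `Defs` -/

/-- `Fm` is the fold of the product (on `[β, 1]`). -/
theorem Fm_eq_fold {β k₁ k₂ : Γ₀} (hβ : β ≠ 0) (h₁ : k₁ ≤ 1) (h₂ : k₂ ≤ 1) :
    Fm β k₁ k₂ = fold β (k₁ * k₂) := by
  have hle : k₁ * k₂ ≤ 1 := mul_le_one' h₁ h₂
  unfold Fm fold
  by_cases h : β ≤ k₁ * k₂
  · rw [if_pos h]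
    rcases h.lt_or_eq with h' | h'
    · rw [if_neg (not_le.mpr h'), if_pos hle]
    · rw [if_pos h'.ge, ← h', sq, mul_div_assoc, div_self hβ, mul_one]
  · rw [if_neg h, if_pos (le_of_not_ge h)]

/-- `Fd` is the fold of the quotient (on `[β, 1]`). -/
theorem Fd_eq_fold {β k₁ k₂ : Γ₀} (hβ : β ≠ 0) (hβ1 : β < 1) (h₁ : β ≤ k₁) (h₂ : β ≤ k₂)
    (h₂' : k₂ ≤ 1) : Fd k₁ k₂ = fold β (k₁ / k₂) := by
  have hk₁ : k₁ ≠ 0 := (lt_of_lt_of_le (zero_lt_iff.mpr hβ) h₁).ne'
  have hk₂ : k₂ ≠ 0 := (lt_of_lt_of_le (zero_lt_iff.mpr hβ) h₂).ne'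
  have hk₁0 : 0 < k₁ := zero_lt_iff.mpr hk₁
  have hk₂0 : 0 < k₂ := zero_lt_iff.mpr hk₂
  unfold Fd fold
  rcases le_or_gt k₁ k₂ with h | h
  · rw [min_eq_left h, max_eq_right h]
    have hle : k₁ / k₂ ≤ 1 := (div_le_one₀ hk₂0).mpr h
    have hge : β ≤ k₁ / k₂ := by
      rw [le_div_iff₀ hk₂0]
      calc β * k₂ ≤ β * 1 := by gcongr
        _ = β := mul_one β
        _ ≤ k₁ := h₁
    rcases hge.lt_or_eq with h' | h'
    · rw [if_neg (not_le.mpr h'), if_pos hle]
    · rw [if_pos h'.ge, ← h', sq, mul_div_assoc, div_self hβ, mul_one]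
  · rw [min_eq_right h.le, max_eq_left h.le]
    have hgt : 1 < k₁ / k₂ := (one_lt_div₀ hk₂0).mpr h
    rw [if_neg (not_le.mpr (hβ1.trans hgt)), if_neg (not_le.mpr hgt), inv_div]

/-- **The pair law for points**, with the fold function of `Defs` (the hypothesis shape of
`MultAbs.pow_of_pair`). -/
theorem kapP_pair_fold (hr : dblDen E r = 0) (hv2 : v 2 = 1) (hA : v (An E r) = 1)
    (hB0 : Bn E r ≠ 0) (hB1 : v (Bn E r) < 1) (P Q : E.toAffine.Point) :
    (kapP v E r (P + Q) = fold (v (Bn E r)) (kapP v E r P * kapP v E r Q) ∧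
        kapP v E r (P - Q) = fold (v (Bn E r)) (kapP v E r P / kapP v E r Q)) ∨
      (kapP v E r (P + Q) = fold (v (Bn E r)) (kapP v E r P / kapP v E r Q) ∧
        kapP v E r (P - Q) = fold (v (Bn E r)) (kapP v E r P * kapP v E r Q)) := by
  have hβ : v (Bn E r) ≠ 0 := (Valuation.ne_zero_iff v).mpr hB0
  have hge := le_kapP v E r hB1.le
  have hle := kapP_le_one v E r hB1.le
  rw [← Fm_eq_fold hβ (hle P) (hle Q), ← Fd_eq_fold hβ hB1 (hge P) (hge Q) (hle Q)]
  exact kapP_pair hr hv2 hA hB0 hB1 P Q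

end Fermat.Agent.S05.KapPoint
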