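import Fermat.Agent.S05.Defs

/-!
# S05 / MultAbs: the dihedral relation and the iteration of the pair law (abstract form)

`Rel M t s` means `s = t · M^(2j)` or `s = t⁻¹ · M^(2j)` for some `j : ℤ` (the orbit relation of
the infinite dihedral group generated by `t ↦ t⁻¹` and `t ↦ M² t`).  `fold M t` is related to `t`,
so a function `κ` on an additive group satisfying the pair law
`{κ(P+Q), κ(P−Q)} = {fold (κP · κQ), fold (κP / κQ)}` satisfies `Rel M (κ P ^ n) (κ (n • P))`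
for all `n`; for a torsion point this gives `κ P ^ n = M ^ (2j)`.
-/

set_option autoImplicit false

namespace Fermat.Agent.S05.MultAbs

variable {Γ₀ : Type*} [LinearOrderedCommGroupWithZero Γ₀]

/-- The dihedral relation: `s = t · M^(2j)` or `s = t⁻¹ · M^(2j)`. -/
def Rel (M t s : Γ₀) : Prop := ∃ j : ℤ, s = t * M ^ (2 * j) ∨ s = t⁻¹ * M ^ (2 * j)

theorem Rel.refl (M t : Γ₀) : Rel M t t := ⟨0, Or.inl (by simp)⟩

theorem Rel.of_eq {M t s u : Γ₀} (h : Rel M t s) (hu : s = u) : Rel M t u := hu ▸ h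

theorem Rel.symm {M t s : Γ₀} (hM : M ≠ 0) (h : Rel M t s) : Rel M s t := by
  obtain ⟨j, rfl | rfl⟩ := h
  · refine ⟨-j, Or.inl ?_⟩
    have h1 : M ^ (2 * j) * M ^ (2 * -j) = 1 := by
      rw [← zpow_add₀ hM]; simp
    rw [mul_assoc, h1, mul_one]
  · refine ⟨j, Or.inr ?_⟩
    have h1 : (M ^ (2 * j))⁻¹ * M ^ (2 * j) = 1 := inv_mul_cancel₀ (zpow_ne_zero _ hM)
    rw [mul_inv, inv_inv, mul_assoc, h1, mul_one]

theorem Rel.trans {M t s u : Γ₀} (hM : M ≠ 0) (h : Rel M t s) (h' : Rel M s u) : Rel M t u := by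
  obtain ⟨j, rfl | rfl⟩ := h <;> obtain ⟨k, rfl | rfl⟩ := h'
  · refine ⟨j + k, Or.inl ?_⟩
    rw [mul_add, zpow_add₀ hM, mul_assoc]
  · refine ⟨k - j, Or.inr ?_⟩
    rw [mul_sub, zpow_sub₀ hM, mul_inv, mul_assoc, div_eq_mul_inv, mul_comm (M ^ (2 * k))]
  · refine ⟨j + k, Or.inr ?_⟩
    rw [mul_add, zpow_add₀ hM, mul_assoc]
  · refine ⟨k - j, Or.inl ?_⟩
    rw [mul_sub, zpow_sub₀ hM, mul_inv, inv_inv, mul_assoc, div_eq_mul_inv,
      mul_comm (M ^ (2 * k))]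

theorem rel_fold (M t : Γ₀) : Rel M t (fold M t) := by
  unfold fold
  split_ifs
  · refine ⟨1, Or.inr ?_⟩
    rw [div_eq_mul_inv, mul_comm]
    norm_num
  · exact Rel.refl M t
  · exact ⟨0, Or.inr (by simp)⟩

/-- From `a ~ c^(n+1)`: `(a·c ~ c^(n+2) ∧ a/c ~ c^n) ∨ (a·c ~ c^n ∧ a/c ~ c^(n+2))`. -/
theorem rel_mul_div {M c a : Γ₀} (hc : c ≠ 0) (n : ℕ) (h : Rel M (c ^ (n + 1)) a) :
    (Rel M (c ^ (n + 2)) (a * c) ∧ Rel M (c ^ n) (a / c)) ∨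
      (Rel M (c ^ n) (a * c) ∧ Rel M (c ^ (n + 2)) (a / c)) := by
  obtain ⟨j, rfl | rfl⟩ := h
  · left
    refine ⟨⟨j, Or.inl ?_⟩, ⟨j, Or.inl ?_⟩⟩
    · rw [pow_succ c (n + 1)]
      ac_rfl
    · rw [pow_succ c n, mul_assoc, mul_comm c, ← mul_assoc, mul_div_assoc, div_self hc, mul_one]
  · right
    refine ⟨⟨j, Or.inr ?_⟩, ⟨j, Or.inr ?_⟩⟩
    · rw [pow_succ c n, mul_inv, mul_assoc, mul_assoc, mul_comm _ c, ← mul_assoc c⁻¹,
        inv_mul_cancel₀ hc, one_mul]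
    · rw [pow_succ c (n + 1), mul_inv, div_eq_mul_inv]
      ac_rfl

/-- Iteration of the pair law. -/
theorem rel_nsmul {G : Type*} [AddCommGroup G] (κ : G → Γ₀) (M : Γ₀) (hM0 : M ≠ 0)
    (h0 : κ 0 = 1) (hne : ∀ P, κ P ≠ 0)
    (hpair : ∀ P Q : G,
      (κ (P + Q) = fold M (κ P * κ Q) ∧ κ (P - Q) = fold M (κ P / κ Q)) ∨
      (κ (P + Q) = fold M (κ P / κ Q) ∧ κ (P - Q) = fold M (κ P * κ Q)))
    (P : G) (n : ℕ) :
    Rel M (κ P ^ n) (κ (n • P)) ∧ Rel M (κ P ^ (n + 1)) (κ ((n + 1) • P)) := by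
  induction n with
  | zero =>
    refine ⟨?_, ?_⟩
    · simpa [h0] using Rel.refl M (1 : Γ₀)
    · simpa using Rel.refl M (κ P)
  | succ n ih =>
    obtain ⟨ih1, ih2⟩ := ih
    refine ⟨ih2, ?_⟩
    have e1 : (n + 1) • P + P = (n + 1 + 1) • P := by rw [add_smul (n + 1) 1, one_smul]
    have e2 : (n + 1) • P - P = n • P := by rw [add_smul, one_smul, add_sub_cancel_right]
    have hp := hpair ((n + 1) • P) P
    rw [e1, e2] at hp
    have hF := rel_fold M (κ ((n + 1) • P) * κ P)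
    have hG := rel_fold M (κ ((n + 1) • P) / κ P)
    rcases rel_mul_div (hne P) n ih2 with ⟨hA1, hA2⟩ | ⟨hB1, hB2⟩
    · rcases hp with ⟨p1, _⟩ | ⟨p1, p2⟩
      · exact ((hA1.trans hM0 hF).of_eq p1.symm)
      · -- κ((n+2)P) = G ~ κ^n, κ(nP) = F ~ κ^(n+2)
        have h3 : Rel M (κ P ^ (n + 2)) (κ (n • P)) := (hA1.trans hM0 hF).of_eq p2.symm
        have h4 : Rel M (κ P ^ n) (κ ((n + 1 + 1) • P)) := (hA2.trans hM0 hG).of_eq p1.symm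
        exact (h3.trans hM0 (ih1.symm hM0)).trans hM0 h4
    · rcases hp with ⟨p1, p2⟩ | ⟨p1, _⟩
      · have h3 : Rel M (κ P ^ (n + 2)) (κ (n • P)) := (hB2.trans hM0 hG).of_eq p2.symm
        have h4 : Rel M (κ P ^ n) (κ ((n + 1 + 1) • P)) := (hB1.trans hM0 hF).of_eq p1.symm
        exact (h3.trans hM0 (ih1.symm hM0)).trans hM0 h4
      · exact ((hB2.trans hM0 hG).of_eq p1.symm)

/-- A power `M ^ (2j)` (`j : ℤ`) which is `≤ 1` is a natural power, for `0 < M < 1`. -/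
theorem exists_nat_of_zpow_le_one {M : Γ₀} (hM0 : M ≠ 0) (hM1 : M < 1) {j : ℤ}
    (h : M ^ (2 * j) ≤ 1) : ∃ k : ℕ, M ^ (2 * j) = M ^ (2 * k) := by
  rcases le_or_gt 0 j with hj | hj
  · lift j to ℕ using hj
    exact ⟨j, by rw [← zpow_natCast]; push_cast; rfl⟩
  · exfalso
    obtain ⟨k, rfl⟩ : ∃ k : ℕ, j = -(k : ℤ) := ⟨(-j).toNat, by omega⟩
    have hk : 2 * k ≠ 0 := by omega
    have h1 : M ^ (2 * k) < 1 := pow_lt_one₀ zero_le hM1 hk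
    have h2 : M ^ (2 * -(k : ℤ)) = (M ^ (2 * k))⁻¹ := by
      rw [mul_neg, zpow_neg, ← zpow_natCast]; push_cast; rfl
    rw [h2] at h
    have h3 : 1 < (M ^ (2 * k))⁻¹ :=
      (one_lt_inv₀ (zero_lt_iff.2 (pow_ne_zero _ hM0))).2 h1
    exact absurd h (not_le.2 h3)

/-- (M-b), abstract form: if `κ` satisfies the pair law, `κ 0 = 1`, `M ≤ κ ≤ 1`, `0 < M < 1`,
then `n • P = 0` implies `κ P ^ n = M ^ (2j)` for some `j : ℕ`. -/
theorem pow_of_pair {G : Type*} [AddCommGroup G] (κ : G → Γ₀) (M : Γ₀) (hM0 : M ≠ 0)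
    (hM1 : M < 1) (h0 : κ 0 = 1) (hle : ∀ P, κ P ≤ 1) (hge : ∀ P, M ≤ κ P)
    (hpair : ∀ P Q : G,
      (κ (P + Q) = fold M (κ P * κ Q) ∧ κ (P - Q) = fold M (κ P / κ Q)) ∨
      (κ (P + Q) = fold M (κ P / κ Q) ∧ κ (P - Q) = fold M (κ P * κ Q)))
    {n : ℕ} {P : G} (hP : n • P = 0) : ∃ j : ℕ, κ P ^ n = M ^ (2 * j) := by
  have hne : ∀ P, κ P ≠ 0 := fun P =>
    (lt_of_lt_of_le (zero_lt_iff.2 hM0) (hge P)).ne'
  have h := (rel_nsmul κ M hM0 h0 hne hpair P n).1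
  rw [hP, h0] at h
  have hpow : κ P ^ n ≤ 1 := pow_le_one₀ zero_le (hle P)
  obtain ⟨j, h | h⟩ := h
  · -- 1 = κ^n * M^(2j)  ⇒ κ^n = M^(2(-j))
    have h1 : κ P ^ n = M ^ (2 * -j) := by
      have h2 : M ^ (2 * j) * M ^ (2 * -j) = 1 := by
        rw [← zpow_add₀ hM0]; simp
      calc κ P ^ n = κ P ^ n * (M ^ (2 * j) * M ^ (2 * -j)) := by rw [h2, mul_one]
        _ = (κ P ^ n * M ^ (2 * j)) * M ^ (2 * -j) := by rw [mul_assoc]
        _ = M ^ (2 * -j) := by rw [← h, one_mul]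
    rw [h1] at hpow ⊢
    exact exists_nat_of_zpow_le_one hM0 hM1 hpow
  · -- 1 = (κ^n)⁻¹ * M^(2j) ⇒ κ^n = M^(2j)
    have h1 : κ P ^ n = M ^ (2 * j) := by
      have h2 : κ P ^ n ≠ 0 := pow_ne_zero _ (hne P)
      calc κ P ^ n = κ P ^ n * ((κ P ^ n)⁻¹ * M ^ (2 * j)) := by rw [← h, mul_one]
        _ = M ^ (2 * j) := by rw [← mul_assoc, mul_inv_cancel₀ h2, one_mul]
    rw [h1] at hpow ⊢
    exact exists_nat_of_zpow_le_one hM0 hM1 hpow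

end Fermat.Agent.S05.MultAbs
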