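import Mathlib

/-!
# S05 groundwork: addition formulas in the `x`-coordinate on a general Weierstrass curve

For points `P = (x₁, y₁)`, `Q = (x₂, y₂)` with `x₁ ≠ x₂` on any Weierstrass curve over a field,
the `x`-coordinates `x₊`, `x₋` of `P + Q`, `P - Q` satisfy
`(x₁ - x₂)² (x₊ + x₋) = sumNum`, `(x₁ - x₂)² x₊ x₋ = prodNum`; and the duplication formula
`dblDen x * x(2P) = dblNum x`.
-/

set_option autoImplicit false

namespace Fermat.Agent.S05.XPair

open WeierstrassCurve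

variable {K : Type*} [Field K]

/-- numerator of the formula for `x(P + Q) + x(P - Q)`. -/
def sumNum (E : WeierstrassCurve K) (x₁ x₂ : K) : K :=
  2 * x₁ * x₂ * (x₁ + x₂) + E.b₂ * x₁ * x₂ + E.b₄ * (x₁ + x₂) + E.b₆

/-- numerator of the formula for `x(P + Q) * x(P - Q)`. -/
def prodNum (E : WeierstrassCurve K) (x₁ x₂ : K) : K :=
  x₁ ^ 2 * x₂ ^ 2 - E.b₄ * x₁ * x₂ - E.b₆ * (x₁ + x₂) - E.b₈

/-- denominator of the duplication formula: `4x³ + b₂x² + 2b₄x + b₆`. -/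
def dblDen (E : WeierstrassCurve K) (x : K) : K :=
  4 * x ^ 3 + E.b₂ * x ^ 2 + 2 * E.b₄ * x + E.b₆

/-- numerator of the duplication formula: `x⁴ - b₄x² - 2b₆x - b₈`. -/
def dblNum (E : WeierstrassCurve K) (x : K) : K :=
  x ^ 4 - E.b₄ * x ^ 2 - 2 * E.b₆ * x - E.b₈

theorem sumNum_self (E : WeierstrassCurve K) (x : K) : sumNum E x x = dblDen E x := by
  simp only [sumNum, dblDen]; ring

theorem prodNum_self (E : WeierstrassCurve K) (x : K) : prodNum E x x = dblNum E x := by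
  simp only [prodNum, dblNum]; ring

theorem sumNum_comm (E : WeierstrassCurve K) (x₁ x₂ : K) : sumNum E x₁ x₂ = sumNum E x₂ x₁ := by
  simp only [sumNum]; ring

theorem prodNum_comm (E : WeierstrassCurve K) (x₁ x₂ : K) :
    prodNum E x₁ x₂ = prodNum E x₂ x₁ := by
  simp only [prodNum]; ring

/-- the `x`-coordinate of the sum of two points with different `x`-coordinates, scaled. -/
theorem sq_mul_addX (E : WeierstrassCurve K) {x₁ x₂ y₁ y₂ : K} (hx : x₁ ≠ x₂) :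
    (x₁ - x₂) ^ 2 * E.toAffine.addX x₁ x₂ ((y₁ - y₂) / (x₁ - x₂)) =
      (y₁ - y₂) ^ 2 + E.a₁ * (y₁ - y₂) * (x₁ - x₂) - (E.a₂ + x₁ + x₂) * (x₁ - x₂) ^ 2 := by
  have hd : x₁ - x₂ ≠ 0 := sub_ne_zero.mpr hx
  simp only [Affine.addX]
  field_simp
  ring

variable [DecidableEq K]

/-- **Pair formulas**: the `x`-coordinates of `P + Q` and `P - Q`. -/
theorem add_sub_of_X_ne (E : WeierstrassCurve K) {x₁ y₁ x₂ y₂ : K}
    (h₁ : E.toAffine.Nonsingular x₁ y₁) (h₂ : E.toAffine.Nonsingular x₂ y₂) (hx : x₁ ≠ x₂) :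
    ∃ (xp yp xm ym : K) (hp : E.toAffine.Nonsingular xp yp)
      (hm : E.toAffine.Nonsingular xm ym),
      Affine.Point.some x₁ y₁ h₁ + Affine.Point.some x₂ y₂ h₂ = Affine.Point.some xp yp hp ∧
      Affine.Point.some x₁ y₁ h₁ - Affine.Point.some x₂ y₂ h₂ = Affine.Point.some xm ym hm ∧
      (x₁ - x₂) ^ 2 * (xp + xm) = sumNum E x₁ x₂ ∧
      (x₁ - x₂) ^ 2 * (xp * xm) = prodNum E x₁ x₂ := by
  have hd : x₁ - x₂ ≠ 0 := sub_ne_zero.mpr hx
  have e₁ := (Affine.equation_iff _ _).mp h₁.1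
  have e₂ := (Affine.equation_iff _ _).mp h₂.1
  have hm0 : E.toAffine.Nonsingular x₂ (E.toAffine.negY x₂ y₂) :=
    (Affine.nonsingular_neg ..).mpr h₂
  have hsub : Affine.Point.some x₁ y₁ h₁ - Affine.Point.some x₂ y₂ h₂ =
      Affine.Point.some _ _ (Affine.nonsingular_add h₁ hm0 fun hxy => hx hxy.left) := by
    rw [sub_eq_add_neg, Affine.Point.neg_some]
    exact Affine.Point.add_of_X_ne hx
  refine ⟨_, _, _, _, _, _, Affine.Point.add_of_X_ne hx, hsub, ?_, ?_⟩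
  · rw [Affine.slope_of_X_ne hx, Affine.slope_of_X_ne hx, mul_add, sq_mul_addX E hx,
      sq_mul_addX E hx]
    simp only [sumNum, Affine.negY, WeierstrassCurve.b₂, WeierstrassCurve.b₄,
      WeierstrassCurve.b₆]
    linear_combination (2 : K) * e₁ + (2 : K) * e₂
  · rw [Affine.slope_of_X_ne hx, Affine.slope_of_X_ne hx]
    have key : ((x₁ - x₂) ^ 2 * E.toAffine.addX x₁ x₂ ((y₁ - y₂) / (x₁ - x₂))) *
        ((x₁ - x₂) ^ 2 * E.toAffine.addX x₁ x₂ ((y₁ - E.toAffine.negY x₂ y₂) / (x₁ - x₂))) =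
        (x₁ - x₂) ^ 2 * prodNum E x₁ x₂ := by
      rw [sq_mul_addX E hx, sq_mul_addX E hx]
      simp only [prodNum, Affine.negY, WeierstrassCurve.b₄,
        WeierstrassCurve.b₆, WeierstrassCurve.b₈]
      linear_combination (y₁ ^ 2 + y₁ * x₁ * E.a₁ + y₁ * E.a₃ - 2 * y₂ ^ 2 - 2 * y₂ * x₂ * E.a₁
        - 2 * y₂ * E.a₃ - x₁ ^ 3 + 2 * x₁ ^ 2 * x₂ - x₁ ^ 2 * E.a₂ + 2 * x₁ * x₂ ^ 2
        + x₁ * x₂ * E.a₁ ^ 2 + 4 * x₁ * x₂ * E.a₂ + x₁ * E.a₁ * E.a₃ + x₁ * E.a₄ - 2 * x₂ ^ 3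
        - x₂ ^ 2 * E.a₁ ^ 2 - 2 * x₂ ^ 2 * E.a₂ - x₂ * E.a₁ * E.a₃ + E.a₆) * e₁
        + (y₂ ^ 2 + y₂ * x₂ * E.a₁ + y₂ * E.a₃ - 4 * x₁ ^ 3 + 2 * x₁ ^ 2 * x₂ - x₁ ^ 2 * E.a₁ ^ 2
        - 4 * x₁ ^ 2 * E.a₂ + 2 * x₁ * x₂ ^ 2 + x₁ * x₂ * E.a₁ ^ 2 + 4 * x₁ * x₂ * E.a₂
        - x₁ * E.a₁ * E.a₃ - 2 * x₁ * E.a₄ - x₂ ^ 3 - x₂ ^ 2 * E.a₂ + x₂ * E.a₁ * E.a₃
        + x₂ * E.a₄ - E.a₆) * e₂
    have hd2 : (x₁ - x₂) ^ 2 ≠ 0 := pow_ne_zero 2 hd
    apply mul_left_cancel₀ hd2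
    rw [← key]
    ring

omit [DecidableEq K] in
theorem dblDen_eq (E : WeierstrassCurve K) {x y : K} (h : E.toAffine.Equation x y) :
    dblDen E x = (y - E.toAffine.negY x y) ^ 2 := by
  rw [Affine.equation_iff] at h
  simp only [dblDen, Affine.negY, WeierstrassCurve.b₂, WeierstrassCurve.b₄, WeierstrassCurve.b₆]
  linear_combination (-4 : K) * h

omit [DecidableEq K] in
theorem dblDen_ne_zero_iff (E : WeierstrassCurve K) {x y : K} (h : E.toAffine.Equation x y) :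
    dblDen E x ≠ 0 ↔ y ≠ E.toAffine.negY x y := by
  rw [dblDen_eq E h, ne_eq, ne_eq, sq_eq_zero_iff, sub_eq_zero]

/-- **Duplication formula** in the `x`-coordinate. -/
theorem add_self_of_Y_ne (E : WeierstrassCurve K) {x y : K} (h : E.toAffine.Nonsingular x y)
    (hy : y ≠ E.toAffine.negY x y) :
    ∃ (x' y' : K) (h' : E.toAffine.Nonsingular x' y'),
      Affine.Point.some x y h + Affine.Point.some x y h = Affine.Point.some x' y' h' ∧
      dblDen E x ≠ 0 ∧ dblDen E x * x' = dblNum E x := by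
  have hd : y - E.toAffine.negY x y ≠ 0 := sub_ne_zero.mpr hy
  have e := (Affine.equation_iff _ _).mp h.1
  refine ⟨_, _, _, Affine.Point.add_self_of_Y_ne hy, (dblDen_ne_zero_iff E h.1).mpr hy, ?_⟩
  rw [dblDen_eq E h.1, Affine.slope_of_Y_ne rfl hy]
  simp only [Affine.addX]
  field_simp
  simp only [dblNum, Affine.negY, WeierstrassCurve.b₄, WeierstrassCurve.b₆,
    WeierstrassCurve.b₈]
  linear_combination (-8 * x - E.a₁ ^ 2 - 4 * E.a₂) * e

theorem add_self_eq_zero_iff (E : WeierstrassCurve K) {x y : K}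
    (h : E.toAffine.Nonsingular x y) :
    Affine.Point.some x y h + Affine.Point.some x y h = 0 ↔ dblDen E x = 0 := by
  constructor
  · intro h0
    by_contra hne
    have hy := (dblDen_ne_zero_iff E h.1).mp hne
    rw [Affine.Point.add_self_of_Y_ne hy] at h0
    exact Affine.Point.some_ne_zero _ h0
  · intro h0
    have hy : y = E.toAffine.negY x y := by
      by_contra hy
      exact (dblDen_ne_zero_iff E h.1).mpr hy h0
    exact Affine.Point.add_self_of_Y_eq hy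

/-! ### the coordinates `x` and `w = 1/x` as functions on points -/

omit [DecidableEq K] in
/-- the `x`-coordinate of a point (`0` at the origin). -/
def xc (E : WeierstrassCurve K) : E.toAffine.Point → K
  | .zero => 0
  | .some x _ _ => x

/-- the coordinate `w = 1/x` of a point (`0` at the origin, and at points with `x = 0`). -/
def wc (E : WeierstrassCurve K) (P : E.toAffine.Point) : K := (xc E P)⁻¹

omit [DecidableEq K] in
@[simp] theorem xc_zero (E : WeierstrassCurve K) : xc E (0 : E.toAffine.Point) = 0 := rfl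

omit [DecidableEq K] in
@[simp] theorem xc_some (E : WeierstrassCurve K) {x y : K} (h : E.toAffine.Nonsingular x y) :
    xc E (Affine.Point.some x y h) = x := rfl

omit [DecidableEq K] in
@[simp] theorem xc_neg (E : WeierstrassCurve K) (P : E.toAffine.Point) : xc E (-P) = xc E P := by
  rcases P with _ | ⟨x, y, h⟩
  · rfl
  · rfl

omit [DecidableEq K] in
@[simp] theorem wc_zero (E : WeierstrassCurve K) : wc E (0 : E.toAffine.Point) = 0 := by
  simp [wc]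

omit [DecidableEq K] in
theorem wc_some (E : WeierstrassCurve K) {x y : K} (h : E.toAffine.Nonsingular x y) :
    wc E (Affine.Point.some x y h) = x⁻¹ := rfl

omit [DecidableEq K] in
@[simp] theorem wc_neg (E : WeierstrassCurve K) (P : E.toAffine.Point) : wc E (-P) = wc E P := by
  simp [wc]

/-- "`w` is a good coordinate at `P`": `P` is the origin or `x(P) ≠ 0`. -/
def WOk (E : WeierstrassCurve K) (P : E.toAffine.Point) : Prop := P = 0 ∨ xc E P ≠ 0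

omit [DecidableEq K] in
theorem wOk_zero (E : WeierstrassCurve K) : WOk E (0 : E.toAffine.Point) := Or.inl rfl

omit [DecidableEq K] in
theorem wOk_neg (E : WeierstrassCurve K) {P : E.toAffine.Point} (hP : WOk E P) : WOk E (-P) := by
  rcases hP with rfl | h
  · exact Or.inl rfl
  · exact Or.inr (by rwa [xc_neg])

omit [DecidableEq K] in
theorem wOk_iff (E : WeierstrassCurve K) (P : E.toAffine.Point) :
    WOk E P ↔ (P = 0 ↔ wc E P = 0) := by
  rcases P with _ | ⟨x, y, h⟩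
  · exact ⟨fun _ => ⟨fun _ => wc_zero E, fun _ => rfl⟩, fun _ => Or.inl rfl⟩
  · simp only [WOk, xc_some, wc_some, inv_eq_zero]
    constructor
    · rintro (h0 | h0)
      · exact absurd h0 (Affine.Point.some_ne_zero h)
      · exact ⟨fun h1 => absurd h1 (Affine.Point.some_ne_zero h), fun h1 => absurd h1 h0⟩
    · intro hiff
      right
      intro hx
      exact Affine.Point.some_ne_zero h (hiff.mpr hx)

/-- numerator of the formula for `w(P + Q) + w(P - Q)`. -/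
def wS (E : WeierstrassCurve K) (w₁ w₂ : K) : K :=
  2 * (w₁ + w₂) + E.b₂ * w₁ * w₂ + E.b₄ * w₁ * w₂ * (w₁ + w₂) + E.b₆ * w₁ ^ 2 * w₂ ^ 2

/-- common denominator of the formulas for `w(P + Q) + w(P - Q)` and `w(P + Q) * w(P - Q)`. -/
def wD (E : WeierstrassCurve K) (w₁ w₂ : K) : K :=
  1 - E.b₄ * w₁ * w₂ - E.b₆ * w₁ * w₂ * (w₁ + w₂) - E.b₈ * w₁ ^ 2 * w₂ ^ 2

omit [DecidableEq K] in
theorem sumNum_eq_wS (E : WeierstrassCurve K) {x₁ x₂ : K} (h₁ : x₁ ≠ 0) (h₂ : x₂ ≠ 0) :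
    sumNum E x₁ x₂ = x₁ ^ 2 * x₂ ^ 2 * wS E x₁⁻¹ x₂⁻¹ := by
  simp only [sumNum, wS]
  field_simp
  ring

omit [DecidableEq K] in
theorem prodNum_eq_wD (E : WeierstrassCurve K) {x₁ x₂ : K} (h₁ : x₁ ≠ 0) (h₂ : x₂ ≠ 0) :
    prodNum E x₁ x₂ = x₁ ^ 2 * x₂ ^ 2 * wD E x₁⁻¹ x₂⁻¹ := by
  simp only [prodNum, wD]
  field_simp
  ring

/-- duplication in the coordinate `w`. -/
theorem w_double (E : WeierstrassCurve K) (P : E.toAffine.Point) (hP : WOk E P)
    (hD : wD E (wc E P) (wc E P) ≠ 0) :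
    WOk E (P + P) ∧ wc E (P + P) * wD E (wc E P) (wc E P) = wS E (wc E P) (wc E P) := by
  rcases P with _ | ⟨x, y, h⟩
  · refine ⟨Or.inl rfl, ?_⟩
    show wc E (0 + 0) * wD E (wc E 0) (wc E 0) = wS E (wc E 0) (wc E 0)
    rw [add_zero, wc_zero]
    simp [wS]
  · have hx : x ≠ 0 := by
      rcases hP with h0 | h0
      · exact absurd h0 (Affine.Point.some_ne_zero h)
      · exact h0
    rw [wc_some] at hD ⊢
    have hS := sumNum_eq_wS E hx hx
    have hN := prodNum_eq_wD E hx hx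
    rw [sumNum_self] at hS
    rw [prodNum_self] at hN
    by_cases hy : y = E.toAffine.negY x y
    · rw [Affine.Point.add_self_of_Y_eq hy]
      refine ⟨Or.inl rfl, ?_⟩
      have h0 : dblDen E x = 0 := by
        by_contra hne
        exact (dblDen_ne_zero_iff E h.1).mp hne hy
      rw [h0] at hS
      have : wS E x⁻¹ x⁻¹ = 0 := by
        rcases mul_eq_zero.mp hS.symm with h1 | h1
        · exact absurd h1 (mul_ne_zero (pow_ne_zero 2 hx) (pow_ne_zero 2 hx))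
        · exact h1
      rw [this, wc_zero, zero_mul]
    · obtain ⟨x', y', h', hadd, hden, hdbl⟩ := add_self_of_Y_ne E h hy
      rw [hadd, wc_some]
      have hx4 : x ^ 2 * x ^ 2 ≠ 0 := mul_ne_zero (pow_ne_zero 2 hx) (pow_ne_zero 2 hx)
      have hx' : x' ≠ 0 := by
        intro h0
        rw [h0, mul_zero, hN] at hdbl
        exact mul_ne_zero hx4 hD hdbl.symm
      refine ⟨Or.inr hx', ?_⟩
      apply mul_left_cancel₀ hx4
      apply mul_left_cancel₀ hx'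
      calc x' * (x ^ 2 * x ^ 2 * (x'⁻¹ * wD E x⁻¹ x⁻¹))
          = (x' * x'⁻¹) * (x ^ 2 * x ^ 2 * wD E x⁻¹ x⁻¹) := by ring
        _ = dblDen E x * x' := by rw [mul_inv_cancel₀ hx', one_mul, ← hN, hdbl]
        _ = x' * (x ^ 2 * x ^ 2 * wS E x⁻¹ x⁻¹) := by rw [hS]; ring

/-- **Pair formulas in the coordinate `w = 1/x`**, valid for all points where `w` is a good
coordinate (in particular near the origin). -/
theorem w_pair (E : WeierstrassCurve K) (P Q : E.toAffine.Point) (hP : WOk E P) (hQ : WOk E Q)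
    (hD : wD E (wc E P) (wc E Q) ≠ 0) :
    WOk E (P + Q) ∧ WOk E (P - Q) ∧
      wc E (P + Q) * wc E (P - Q) * wD E (wc E P) (wc E Q) = (wc E P - wc E Q) ^ 2 ∧
      (wc E (P + Q) + wc E (P - Q)) * wD E (wc E P) (wc E Q) = wS E (wc E P) (wc E Q) := by
  -- the case `Q = P`
  have hself : ∀ (P : E.toAffine.Point), WOk E P → wD E (wc E P) (wc E P) ≠ 0 →
      WOk E (P + P) ∧ WOk E (P - P) ∧
      wc E (P + P) * wc E (P - P) * wD E (wc E P) (wc E P) = (wc E P - wc E P) ^ 2 ∧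
      (wc E (P + P) + wc E (P - P)) * wD E (wc E P) (wc E P) = wS E (wc E P) (wc E P) := by
    intro P hP hD
    obtain ⟨h1, h2⟩ := w_double E P hP hD
    refine ⟨h1, ?_, ?_, ?_⟩
    · rw [sub_self]; exact Or.inl rfl
    · rw [sub_self, wc_zero]; ring
    · rw [sub_self, wc_zero, add_zero]; exact h2
  rcases P with _ | ⟨x₁, y₁, h₁⟩
  · show WOk E (0 + Q) ∧ WOk E (0 - Q) ∧ wc E (0 + Q) * wc E (0 - Q) * wD E (wc E 0) (wc E Q) =
      (wc E 0 - wc E Q) ^ 2 ∧ (wc E (0 + Q) + wc E (0 - Q)) * wD E (wc E 0) (wc E Q) =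
      wS E (wc E 0) (wc E Q)
    rw [zero_add, zero_sub, wc_neg, wc_zero]
    refine ⟨hQ, wOk_neg E hQ, ?_, ?_⟩
    · simp only [wD]; ring
    · simp only [wD, wS]; ring
  rcases Q with _ | ⟨x₂, y₂, h₂⟩
  · show WOk E (_ + 0) ∧ WOk E (_ - 0) ∧ wc E (_ + 0) * wc E (_ - 0) * wD E _ (wc E 0) =
      (_ - wc E 0) ^ 2 ∧ (wc E (_ + 0) + wc E (_ - 0)) * wD E _ (wc E 0) = wS E _ (wc E 0)
    rw [add_zero, sub_zero, wc_zero]
    refine ⟨hP, hP, ?_, ?_⟩
    · simp only [wD]; ring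
    · simp only [wD, wS]; ring
  have hx₁ : x₁ ≠ 0 := by
    rcases hP with h0 | h0
    · exact absurd h0 (Affine.Point.some_ne_zero h₁)
    · exact h0
  have hx₂ : x₂ ≠ 0 := by
    rcases hQ with h0 | h0
    · exact absurd h0 (Affine.Point.some_ne_zero h₂)
    · exact h0
  by_cases hx : x₁ = x₂
  · rcases Affine.Point.X_eq_iff.mp hx with heq | heq
    · rw [← heq] at hD ⊢
      exact hself _ hP hD
    · -- `P = -Q`
      have hQ' : Affine.Point.some x₂ y₂ h₂ = -Affine.Point.some x₁ y₁ h₁ := by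
        rw [heq, neg_neg]
      rw [hQ', wc_neg] at hD ⊢
      obtain ⟨h1, h2, h3, h4⟩ := hself _ hP hD
      rw [sub_neg_eq_add, add_neg_cancel]
      rw [sub_self] at h2 h3 h4
      refine ⟨h2, h1, ?_, ?_⟩
      · rw [mul_comm (wc E 0)]; exact h3
      · rw [add_comm (wc E 0)]; exact h4
  · obtain ⟨xp, yp, xm, ym, hp, hm, hadd, hsub, hsum, hprod⟩ := add_sub_of_X_ne E h₁ h₂ hx
    rw [hadd, hsub]
    simp only [wc_some] at hD ⊢
    have hd : x₁ - x₂ ≠ 0 := sub_ne_zero.mpr hx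
    have hxx : x₁ ^ 2 * x₂ ^ 2 ≠ 0 := mul_ne_zero (pow_ne_zero 2 hx₁) (pow_ne_zero 2 hx₂)
    rw [sumNum_eq_wS E hx₁ hx₂] at hsum
    rw [prodNum_eq_wD E hx₁ hx₂] at hprod
    have hpm : xp * xm ≠ 0 := by
      intro h0
      rw [h0, mul_zero] at hprod
      exact mul_ne_zero hxx hD hprod.symm
    have hxp : xp ≠ 0 := left_ne_zero_of_mul hpm
    have hxm : xm ≠ 0 := right_ne_zero_of_mul hpm
    refine ⟨Or.inr hxp, Or.inr hxm, ?_, ?_⟩
    · apply mul_left_cancel₀ hpm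
      apply mul_left_cancel₀ hxx
      calc x₁ ^ 2 * x₂ ^ 2 * (xp * xm * (xp⁻¹ * xm⁻¹ * wD E x₁⁻¹ x₂⁻¹))
          = (xp * xp⁻¹) * (xm * xm⁻¹) * (x₁ ^ 2 * x₂ ^ 2 * wD E x₁⁻¹ x₂⁻¹) := by ring
        _ = (x₁ - x₂) ^ 2 * (xp * xm) := by
            rw [mul_inv_cancel₀ hxp, mul_inv_cancel₀ hxm, one_mul, one_mul, hprod]
        _ = x₁ ^ 2 * x₂ ^ 2 * (xp * xm * (x₁⁻¹ - x₂⁻¹) ^ 2) := by
            field_simp
            ring
    · apply mul_left_cancel₀ hpm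
      calc xp * xm * ((xp⁻¹ + xm⁻¹) * wD E x₁⁻¹ x₂⁻¹)
          = ((xp * xp⁻¹) * xm + (xm * xm⁻¹) * xp) * wD E x₁⁻¹ x₂⁻¹ := by ring
        _ = (xp + xm) * wD E x₁⁻¹ x₂⁻¹ := by
            rw [mul_inv_cancel₀ hxp, mul_inv_cancel₀ hxm, one_mul, one_mul, add_comm]
        _ = xp * xm * wS E x₁⁻¹ x₂⁻¹ := by
            apply mul_left_cancel₀ hxx
            apply mul_left_cancel₀ (pow_ne_zero 2 hd)
            calc (x₁ - x₂) ^ 2 * (x₁ ^ 2 * x₂ ^ 2 * ((xp + xm) * wD E x₁⁻¹ x₂⁻¹))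
                = ((x₁ - x₂) ^ 2 * (xp + xm)) * (x₁ ^ 2 * x₂ ^ 2 * wD E x₁⁻¹ x₂⁻¹) := by ring
              _ = (x₁ ^ 2 * x₂ ^ 2 * wS E x₁⁻¹ x₂⁻¹) * ((x₁ - x₂) ^ 2 * (xp * xm)) := by
                  rw [hsum, hprod]
              _ = (x₁ - x₂) ^ 2 * (x₁ ^ 2 * x₂ ^ 2 * (xp * xm * wS E x₁⁻¹ x₂⁻¹)) := by ring

end Fermat.Agent.S05.XPair
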